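import Mathlib
import Fermat.Prelude.Def_FLTPrelim_Ramification
import Fermat.Agent.Gateway.ES.ResidueField
import Fermat.Agent.Lib.FrobeniusExists

/-!
# U2: arithmetic of a valuation subring over `2`

(P-S16 block U2, helper21; input of `Two/Final.lean`, plan = team note 775.)

`A : ValuationSubring L` with `hA : A.LiesOverPrime 2` (i.e. `(2 : L) ∈ A.nonunits`):

* `valuation_two_lt_one : A.valuation (2 : L) < 1`;
* `intCast_mem`, `natCast_mem`: integers lie in `A`;
* `residue_two : IsLocalRing.residue A 2 = 0`, `charP_residueField`;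
* `isUnit_intCast_of_odd`, `valuation_intCast_of_odd`: odd integers are units of `A`;
* `residue_surjective`;
* `exists_model`: a valuation subring of `AlgebraicClosure ℚ` over `2`, with algebraically closed
  residue field of characteristic `2`.
-/

set_option autoImplicit false

namespace Fermat.Agent.S16.Two.AModel

variable {L : Type*} [Field L] (A : ValuationSubring L)

theorem intCast_mem (n : ℤ) : (n : L) ∈ A := _root_.intCast_mem A n

theorem natCast_mem (n : ℕ) : (n : L) ∈ A := _root_.natCast_mem A n

theorem residue_surjective : Function.Surjective (IsLocalRing.residue ↥A) :=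
  IsLocalRing.residue_surjective

section Two

variable {A}
variable (hA : A.LiesOverPrime 2)

include hA

theorem two_mem_nonunits : (2 : L) ∈ A.nonunits := by
  have h : ((2 : ℕ) : L) ∈ A.nonunits := hA
  simpa using h

theorem valuation_two_lt_one : A.valuation (2 : L) < 1 :=
  (A.mem_nonunits_iff).mp (two_mem_nonunits hA)

theorem two_mem_maximalIdeal : (2 : ↥A) ∈ IsLocalRing.maximalIdeal ↥A := by
  have h := two_mem_nonunits hA
  have h2 : ((2 : ↥A) : L) ∈ A.nonunits := h
  exact ValuationSubring.coe_mem_nonunits_iff.mp h2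

theorem residue_two : IsLocalRing.residue ↥A 2 = 0 :=
  (IsLocalRing.residue_eq_zero_iff _).mpr (two_mem_maximalIdeal hA)

theorem charP_residueField : CharP (IsLocalRing.ResidueField ↥A) 2 :=
  haveI : Fact (Nat.Prime 2) := ⟨Nat.prime_two⟩
  Fermat.Agent.Gateway.ES.charP_residueField_of_liesOverPrime A hA

/-- odd integers are units of a valuation ring over `2`. -/
theorem isUnit_intCast_of_odd {n : ℤ} (hn : Odd n) : IsUnit ((n : ℤ) : ↥A) := by
  obtain ⟨m, rfl⟩ := hn
  have hmem : (2 : ↥A) * (m : ↥A) ∈ IsLocalRing.maximalIdeal ↥A :=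
    Ideal.mul_mem_right _ _ (two_mem_maximalIdeal hA)
  have h1 : (((2 * m + 1 : ℤ)) : ↥A) = 2 * (m : ↥A) + 1 := by push_cast; ring
  rw [h1]
  by_contra hu
  have h2 : (2 : ↥A) * (m : ↥A) + 1 ∈ IsLocalRing.maximalIdeal ↥A := by
    rw [IsLocalRing.mem_maximalIdeal, mem_nonunits_iff]
    exact hu
  have h3 : (1 : ↥A) ∈ IsLocalRing.maximalIdeal ↥A := by
    have := Ideal.sub_mem _ h2 hmem
    simp at this
  exact (Ideal.ne_top_iff_one _).mp (IsLocalRing.maximalIdeal.isMaximal ↥A).ne_top h3

theorem valuation_intCast_of_odd {n : ℤ} (hn : Odd n) : A.valuation (n : L) = 1 := by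
  have hu := isUnit_intCast_of_odd (A := A) hA hn
  have h := (A.valuation_eq_one_iff _).mp hu
  simpa using h

theorem residue_intCast_ne_zero_of_odd {n : ℤ} (hn : Odd n) :
    IsLocalRing.residue ↥A ((n : ℤ) : ↥A) ≠ 0 :=
  ((isUnit_intCast_of_odd hA hn).map (IsLocalRing.residue ↥A)).ne_zero

end Two

/-- **The model**: a valuation subring of `AlgebraicClosure ℚ` over `2`; its residue field is
algebraically closed of characteristic `2` and the residue map is surjective. -/
theorem exists_model : ∃ A : ValuationSubring (AlgebraicClosure ℚ), A.LiesOverPrime 2 ∧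
    IsAlgClosed (IsLocalRing.ResidueField ↥A) ∧ CharP (IsLocalRing.ResidueField ↥A) 2 ∧
    A.valuation (2 : AlgebraicClosure ℚ) < 1 ∧
    Function.Surjective (IsLocalRing.residue ↥A) := by
  obtain ⟨A, hA⟩ := Fermat.Agent.Lib.exists_valuationSubring_liesOverPrime
    (L := AlgebraicClosure ℚ) 2 Nat.prime_two
  exact ⟨A, hA, Fermat.Agent.Gateway.ES.isAlgClosed_residueField A, charP_residueField hA,
    valuation_two_lt_one hA, IsLocalRing.residue_surjective⟩

end Fermat.Agent.S16.Two.AModel
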