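import Mathlib

/-!
helper8 (P-S16, block U2, steps 2+3 of note 479 / red-team note 531): the **annulus residue**
computation on the `y9`-line, in purely algebraic form (no Laurent expansions).

`A` is a valuation subring of an algebraically closed field `K`; the open unit disc is
`D = {r | A.valuation r < 1}`.
* `topCoeffMod B h` (`λ_B(h)`): the coefficient of `X^(deg B - 1)` of `h mod B`; for `B` monic with
  all roots in `D` this is the sum of the residues of `h / B` in `D`.
* `exists_inverse_mod_rootPoly` (unit lemma), `exists_factorization` (a primitive polynomial over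
  `A` is `∏ (X - r) * b1`, `r ∈ 𝔪`, `b1(0)` a unit, `b1` without roots in `D`).
* `core`: if `g f' / f = u1 / u2 - c * a / b` with `u1 / u2` regular on `D` and `a / b` Gauss-integral
  then `λ_f(g f') ∈ c A` (this contains the annulus lemma: the residue sum in `D` of a
  Gauss-integral rational function is integral).
* `R4 = X^4 - 24 X`, `topCoeffMod_R4_mul_derivative`: `λ_{R4}(g R4') = 4 g(0) + 72 g₃`.
* `two_dvd_eval_zero_of_R4`, `two_dvd_eval_zero_of_J`: the final forms consumed by the U2 main file.
-/

set_option autoImplicit false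
set_option linter.unusedSectionVars false
set_option linter.unusedSimpArgs false

open Polynomial

noncomputable section

namespace Fermat.Agent.S16.Two

section TopCoeff

variable {R : Type*} [CommRing R]

/-- The "Euler residue form": the coefficient of `X^(deg B - 1)` of `h mod B`.
For `B` monic with all its roots in a disc `D` this is the sum of the residues of `h / B` in `D`. -/
def topCoeffMod (B h : R[X]) : R := (h %ₘ B).coeff (B.natDegree - 1)

theorem topCoeffMod_add (B h₁ h₂ : R[X]) :
    topCoeffMod B (h₁ + h₂) = topCoeffMod B h₁ + topCoeffMod B h₂ := by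
  unfold topCoeffMod
  rw [add_modByMonic, coeff_add]

theorem topCoeffMod_C_mul (B : R[X]) (c : R) (h : R[X]) :
    topCoeffMod B (C c * h) = c * topCoeffMod B h := by
  unfold topCoeffMod
  rw [← smul_eq_C_mul, smul_modByMonic, coeff_smul, smul_eq_mul]

theorem topCoeffMod_neg (B h : R[X]) : topCoeffMod B (-h) = -topCoeffMod B h := by
  have := topCoeffMod_C_mul B (-1) h
  simpa using this

theorem topCoeffMod_sub (B h₁ h₂ : R[X]) :
    topCoeffMod B (h₁ - h₂) = topCoeffMod B h₁ - topCoeffMod B h₂ := by
  rw [sub_eq_add_neg, topCoeffMod_add, topCoeffMod_neg, sub_eq_add_neg]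

theorem topCoeffMod_eq_zero_of_dvd {B h : R[X]} (hB : B.Monic) (hd : B ∣ h) :
    topCoeffMod B h = 0 := by
  unfold topCoeffMod
  rw [(modByMonic_eq_zero_iff_dvd hB).mpr hd, coeff_zero]

theorem topCoeffMod_congr {B h₁ h₂ : R[X]} (hB : B.Monic) (hd : B ∣ h₁ - h₂) :
    topCoeffMod B h₁ = topCoeffMod B h₂ := by
  have := topCoeffMod_eq_zero_of_dvd hB hd
  rw [topCoeffMod_sub] at this
  exact sub_eq_zero.mp this

/-- Enlarging the modulus by a monic factor: `λ_{B C}(h C) = λ_B(h)`. -/
theorem topCoeffMod_mul_monic [Nontrivial R] {B C : R[X]} (hB : B.Monic) (hC : C.Monic)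
    (hdeg : 0 < B.natDegree) (h : R[X]) :
    topCoeffMod (B * C) (h * C) = topCoeffMod B h := by
  unfold topCoeffMod
  have hBC : (B * C).Monic := hB.mul hC
  have hmod : (h * C) %ₘ (B * C) = (h %ₘ B) * C := by
    have hlt : ((h %ₘ B) * C).degree < (B * C).degree := by
      rw [hC.degree_mul, hC.degree_mul]
      have h3 := degree_modByMonic_lt h hB
      have hCd : C.degree = (C.natDegree : WithBot ℕ) := degree_eq_natDegree hC.ne_zero
      rw [hCd]
      exact WithBot.add_lt_add_right (WithBot.coe_ne_bot) h3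
    have := (div_modByMonic_unique (f := h * C) (g := B * C) (h /ₘ B) ((h %ₘ B) * C) hBC
      ⟨by
        have h0 := modByMonic_add_div h B
        calc (h %ₘ B) * C + B * C * (h /ₘ B) = (h %ₘ B + B * (h /ₘ B)) * C := by ring
          _ = h * C := by rw [h0], hlt⟩).2
    exact this
  rw [hmod, hB.natDegree_mul hC]
  have h1 : (h %ₘ B).natDegree ≤ B.natDegree - 1 := by
    have := natDegree_modByMonic_lt h hB (by
      intro h1
      rw [h1, natDegree_one] at hdeg
      exact lt_irrefl _ hdeg)
    omega
  have h2 := coeff_mul_add_eq_of_natDegree_le h1 (le_refl C.natDegree)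
  rw [show B.natDegree + C.natDegree - 1 = B.natDegree - 1 + C.natDegree by omega, h2,
    hC.coeff_natDegree, mul_one]

theorem topCoeffMod_zero (B : R[X]) : topCoeffMod B 0 = 0 := by
  unfold topCoeffMod
  rw [zero_modByMonic, coeff_zero]

theorem topCoeffMod_sum {ι : Type*} (B : R[X]) (s : Finset ι) (h : ι → R[X]) :
    topCoeffMod B (∑ i ∈ s, h i) = ∑ i ∈ s, topCoeffMod B (h i) := by
  classical
  induction s using Finset.induction_on with
  | empty => simp [topCoeffMod_zero]
  | insert a s ha ih => rw [Finset.sum_insert ha, Finset.sum_insert ha, topCoeffMod_add, ih]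
theorem topCoeffMod_map {S : Type*} [CommRing S] (φ : R →+* S) {B : R[X]} (hB : B.Monic)
    (h : R[X]) : topCoeffMod (B.map φ) (h.map φ) = φ (topCoeffMod B h) := by
  unfold topCoeffMod
  rcases subsingleton_or_nontrivial S with hS | hS
  · exact Subsingleton.elim _ _
  rw [← map_modByMonic φ hB, coeff_map, hB.natDegree_map]

end TopCoeff

section UnitLemma

variable {R : Type*} [CommRing R]

/-- The monic polynomial with prescribed roots. -/
def rootPoly (S : Multiset R) : R[X] := (S.map fun r => X - C r).prod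

theorem rootPoly_monic (S : Multiset R) : (rootPoly S).Monic := by
  unfold rootPoly
  exact monic_multiset_prod_of_monic _ _ fun r _ => monic_X_sub_C r

theorem natDegree_rootPoly [Nontrivial R] (S : Multiset R) :
    (rootPoly S).natDegree = Multiset.card S := by
  unfold rootPoly
  rw [natDegree_multiset_prod_of_monic _ (by
    intro p hp
    obtain ⟨r, -, rfl⟩ := Multiset.mem_map.mp hp
    exact monic_X_sub_C r)]
  simp

/-- In a local ring, a polynomial with unit constant term takes unit values on the maximal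
ideal. -/
theorem isUnit_eval_of_mem_maximalIdeal [IsLocalRing R] {b : R[X]} (hb : IsUnit (b.eval 0)) {r : R}
    (hr : r ∈ IsLocalRing.maximalIdeal R) : IsUnit (b.eval r) := by
  have hdvd : r ∣ b.eval r - b.eval 0 := by
    have := sub_dvd_eval_sub r 0 b
    simpa using this
  obtain ⟨c, hc⟩ := hdvd
  have hmem : b.eval r - b.eval 0 ∈ IsLocalRing.maximalIdeal R := by
    rw [hc]
    exact Ideal.mul_mem_right _ _ hr
  by_contra hnu
  have h1 : b.eval r ∈ IsLocalRing.maximalIdeal R := (IsLocalRing.mem_maximalIdeal _).mpr hnu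
  have h2 : b.eval 0 ∈ IsLocalRing.maximalIdeal R := by
    have := Ideal.sub_mem _ h1 hmem
    simpa using this
  exact (IsLocalRing.mem_maximalIdeal _).mp h2 hb

/-- **Unit lemma.**  If all roots of the monic polynomial `b0 = ∏ (X - r)` lie in the maximal
ideal of the local ring `R` and `b1` has unit constant term, then `b1` is invertible modulo
`b0` (with an inverse having coefficients in `R`). -/
theorem exists_inverse_mod_rootPoly [IsLocalRing R] (S : Multiset R)
    (hS : ∀ r ∈ S, r ∈ IsLocalRing.maximalIdeal R) {b1 : R[X]} (hb1 : IsUnit (b1.eval 0)) :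
    ∃ t : R[X], rootPoly S ∣ t * b1 - 1 := by
  -- the characteristic polynomial of `b1` on `R[X]/(b0)`
  set Φ : R[X] := (S.map fun r => X - C (b1.eval r)).prod with hΦ
  have hdvd : rootPoly S ∣ aeval b1 Φ := by
    rw [hΦ, map_multiset_prod, Multiset.map_map]
    unfold rootPoly
    apply Multiset.prod_dvd_prod_of_dvd
    intro r _
    simp only [Function.comp_apply, map_sub, aeval_X, aeval_C, algebraMap_eq]
    exact X_sub_C_dvd_sub_C_eval
  have hu : IsUnit (Φ.coeff 0) := by
    rw [coeff_zero_eq_eval_zero, hΦ, eval_multiset_prod, Multiset.map_map]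
    apply Multiset.prod_induction (p := fun x => IsUnit x)
    · intro a b ha hb
      exact ha.mul hb
    · exact isUnit_one
    · intro x hx
      obtain ⟨r, hr, rfl⟩ := Multiset.mem_map.mp hx
      simp only [Function.comp_apply, eval_sub, eval_X, eval_C, zero_sub]
      exact (isUnit_eval_of_mem_maximalIdeal hb1 (hS r hr)).neg
  obtain ⟨u, hu'⟩ := hu
  have hsplit : aeval b1 Φ = aeval b1 Φ.divX * b1 + C (Φ.coeff 0) := by
    conv_lhs => rw [← divX_mul_X_add Φ]
    simp
  refine ⟨-(C (↑u⁻¹ : R) * aeval b1 Φ.divX), ?_⟩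
  have : -(C (↑u⁻¹ : R) * aeval b1 Φ.divX) * b1 - 1 = -(C (↑u⁻¹ : R)) * aeval b1 Φ := by
    rw [hsplit, ← hu']
    have h1 : (C (↑u⁻¹ : R) : R[X]) * C (↑u : R) = 1 := by
      rw [← C_mul, Units.inv_mul, C_1]
    linear_combination h1
  rw [this]
  exact Dvd.dvd.mul_left hdvd _

theorem rootPoly_add (S T : Multiset R) : rootPoly (S + T) = rootPoly S * rootPoly T := by
  unfold rootPoly
  rw [Multiset.map_add, Multiset.prod_add]
/-- The "unit part" polynomial `∏ (1 - s X)`. -/
def onePoly (T : Multiset R) : R[X] := (T.map fun s => 1 - C s * X).prod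

theorem eval_zero_onePoly (T : Multiset R) : (onePoly T).eval 0 = 1 := by
  unfold onePoly
  rw [eval_multiset_prod, Multiset.map_map]
  apply Multiset.prod_eq_one
  intro x hx
  obtain ⟨s, -, rfl⟩ := Multiset.mem_map.mp hx
  simp

end UnitLemma

section Factor

variable {K : Type*} [Field K] (A : ValuationSubring K)

theorem exists_multiset_lift (T : Multiset K) (hT : ∀ r ∈ T, r ∈ A) :
    ∃ S : Multiset ↥A, S.map (algebraMap ↥A K) = T := by
  induction T using Multiset.induction_on with
  | empty => exact ⟨0, rfl⟩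
  | cons a T ih =>
    obtain ⟨S, hS⟩ := ih fun r hr => hT r (Multiset.mem_cons_of_mem hr)
    refine ⟨⟨a, hT a (Multiset.mem_cons_self a T)⟩ ::ₘ S, ?_⟩
    rw [Multiset.map_cons, hS]
    rfl

theorem map_rootPoly (S : Multiset ↥A) :
    (rootPoly S).map (algebraMap ↥A K) =
      ((S.map (algebraMap ↥A K)).map fun r => (X - C r : K[X])).prod := by
  unfold rootPoly
  rw [Polynomial.map_multiset_prod, Multiset.map_map, Multiset.map_map]
  congr 1
  apply Multiset.map_congr rfl
  intro r _
  simp

theorem valuation_lt_one_iff_mem_maximalIdeal (a : ↥A) :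
    A.valuation (a : K) < 1 ↔ a ∈ IsLocalRing.maximalIdeal ↥A :=
  (A.valuation_lt_one_iff a).symm

/-- A monic polynomial over `A` all of whose roots (in the algebraically closed `K`) lie in the
open unit disc is `∏ (X - r)` with the `r` in the maximal ideal. -/
theorem exists_rootPoly_of_monic [IsAlgClosed K] {f : (↥A)[X]} (hf : f.Monic)
    (hroots : ∀ r : K, (f.map (algebraMap ↥A K)).IsRoot r → A.valuation r < 1) :
    ∃ S : Multiset ↥A, (∀ r ∈ S, r ∈ IsLocalRing.maximalIdeal ↥A) ∧ f = rootPoly S := by
  set fK := f.map (algebraMap ↥A K) with hfK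
  have hmon : fK.Monic := hf.map _
  have hsplit := (IsAlgClosed.splits fK).eq_prod_roots_of_monic hmon
  have hmem : ∀ r ∈ fK.roots, r ∈ A := by
    intro r hr
    have := hroots r (isRoot_of_mem_roots hr)
    exact (A.valuation_le_one_iff r).mp this.le
  obtain ⟨S, hS⟩ := exists_multiset_lift A fK.roots hmem
  refine ⟨S, ?_, ?_⟩
  · intro r hr
    rw [← valuation_lt_one_iff_mem_maximalIdeal]
    apply hroots
    apply isRoot_of_mem_roots
    rw [← hS]
    exact Multiset.mem_map_of_mem _ hr
  · apply Polynomial.map_injective (algebraMap ↥A K) (FaithfulSMul.algebraMap_injective ↥A K)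
    rw [map_rootPoly, hS, ← hfK]
    exact hsplit

theorem map_onePoly (T : Multiset ↥A) :
    (onePoly T).map (algebraMap ↥A K) =
      ((T.map (algebraMap ↥A K)).map fun s => (1 - C s * X : K[X])).prod := by
  unfold onePoly
  rw [Polynomial.map_multiset_prod, Multiset.map_map, Multiset.map_map]
  congr 1
  apply Multiset.map_congr rfl
  intro r _
  simp

/-- `rootPoly S * onePoly T` is primitive when the elements of `S` lie in the maximal ideal:
some coefficient is a unit. -/
theorem exists_isUnit_coeff_rootPoly_mul_onePoly (S T : Multiset ↥A)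
    (hS : ∀ r ∈ S, r ∈ IsLocalRing.maximalIdeal ↥A) :
    ∃ i, IsUnit ((rootPoly S * onePoly T).coeff i) := by
  set k := IsLocalRing.ResidueField ↥A
  set red := IsLocalRing.residue ↥A
  have h1 : (rootPoly S).map red = X ^ (Multiset.card S) := by
    unfold rootPoly
    rw [Polynomial.map_multiset_prod, Multiset.map_map]
    have : Multiset.map ((Polynomial.map red) ∘ fun r => (X - C r : (↥A)[X])) S =
        Multiset.map (fun _ => (X : k[X])) S := by
      apply Multiset.map_congr rfl
      intro r hr
      simp only [Function.comp_apply, Polynomial.map_sub, map_X, map_C]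
      rw [(IsLocalRing.residue_eq_zero_iff r).mpr (hS r hr), C_0, sub_zero]
    rw [this, Multiset.map_const', Multiset.prod_replicate]
  have h2 : (onePoly T).map red ≠ 0 := by
    intro h0
    have := congrArg (eval 0) h0
    rw [eval_zero, ← coeff_zero_eq_eval_zero, coeff_map, coeff_zero_eq_eval_zero,
      eval_zero_onePoly, map_one] at this
    exact one_ne_zero this
  have h3 : (rootPoly S * onePoly T).map red ≠ 0 := by
    rw [Polynomial.map_mul, h1]
    exact mul_ne_zero (pow_ne_zero _ X_ne_zero) h2
  obtain ⟨i, hi⟩ : ∃ i, ((rootPoly S * onePoly T).map red).coeff i ≠ 0 := by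
    by_contra hcon
    push Not at hcon
    exact h3 (Polynomial.ext fun i => by rw [hcon i, coeff_zero])
  refine ⟨i, ?_⟩
  rw [coeff_map] at hi
  by_contra hnu
  exact hi ((IsLocalRing.residue_eq_zero_iff _).mpr ((IsLocalRing.mem_maximalIdeal _).mpr hnu))

theorem isUnit_iff_valuation_eq_one (a : ↥A) : IsUnit a ↔ A.valuation (a : K) = 1 :=
  (A.valuation_eq_one_iff a)

/-- `onePoly T` has no roots in the open unit disc. -/
theorem eval_map_onePoly_ne_zero (T : Multiset ↥A) {r : K} (hr : A.valuation r < 1) :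
    ((onePoly T).map (algebraMap ↥A K)).eval r ≠ 0 := by
  rw [map_onePoly, eval_multiset_prod, Multiset.map_map, Multiset.map_map]
  apply Multiset.prod_ne_zero
  intro h0
  obtain ⟨s, -, hs⟩ := Multiset.mem_map.mp h0
  simp only [Function.comp_apply, eval_sub, eval_one, eval_mul, eval_C, eval_X] at hs
  have h1 : A.valuation ((algebraMap ↥A K) s * r) < 1 := by
    rw [map_mul]
    calc A.valuation ((algebraMap ↥A K) s) * A.valuation r
        ≤ 1 * A.valuation r := by
          gcongr
          exact A.valuation_le_one s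
      _ = A.valuation r := one_mul _
      _ < 1 := hr
  have h2 : (algebraMap ↥A K) s * r = 1 := by
    have := sub_eq_zero.mp hs
    exact this.symm
  rw [h2, map_one] at h1
  exact lt_irrefl _ h1

/-- **Factorisation.**  Over the valuation ring `A` of an algebraically closed field, a primitive
polynomial `b` factors as `b = b0 * b1` with `b0 = ∏ (X - r)`, all `r` in the maximal ideal, and
`b1` with unit constant term and without roots in the open unit disc. -/
theorem exists_factorization [IsAlgClosed K] (b : (↥A)[X]) (hb : ∃ i, IsUnit (b.coeff i)) :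
    ∃ (S : Multiset ↥A) (b1 : (↥A)[X]), (∀ r ∈ S, r ∈ IsLocalRing.maximalIdeal ↥A) ∧
      IsUnit (b1.eval 0) ∧ b = rootPoly S * b1 ∧
      ∀ r : K, A.valuation r < 1 → (b1.map (algebraMap ↥A K)).eval r ≠ 0 := by
  classical
  set ι := algebraMap ↥A K with hι
  have hinj : Function.Injective ι := FaithfulSMul.algebraMap_injective ↥A K
  set bK := b.map ι with hbK
  have hsplit := (IsAlgClosed.splits bK).eq_prod_roots
  set lc := bK.leadingCoeff with hlc
  -- split the roots
  set Sin := bK.roots.filter (fun r => A.valuation r < 1) with hSin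
  set Sout := bK.roots.filter (fun r => ¬ A.valuation r < 1) with hSout
  have hroots : bK.roots = Sin + Sout := (Multiset.filter_add_not _ _).symm
  have hSin_mem : ∀ r ∈ Sin, r ∈ A := fun r hr =>
    (A.valuation_le_one_iff r).mp (Multiset.mem_filter.mp hr).2.le
  have hSout_val : ∀ r ∈ Sout, 1 ≤ A.valuation r := fun r hr =>
    not_lt.mp (Multiset.mem_filter.mp hr).2
  have hSout_ne : ∀ r ∈ Sout, r ≠ 0 := by
    intro r hr h0
    have := hSout_val r hr
    rw [h0, map_zero] at this
    exact not_le.mpr zero_lt_one this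
  have hSout_inv : ∀ s ∈ Sout.map (fun r => r⁻¹), s ∈ A := by
    intro s hs
    obtain ⟨r, hr, rfl⟩ := Multiset.mem_map.mp hs
    rw [← A.valuation_le_one_iff, map_inv₀]
    exact inv_le_one_of_one_le₀ (hSout_val r hr)
  obtain ⟨S, hS⟩ := exists_multiset_lift A Sin hSin_mem
  obtain ⟨T, hT⟩ := exists_multiset_lift A (Sout.map fun r => r⁻¹) hSout_inv
  have hSmax : ∀ r ∈ S, r ∈ IsLocalRing.maximalIdeal ↥A := by
    intro r hr
    rw [A.valuation_lt_one_iff]
    have : ι r ∈ Sin := by rw [← hS]; exact Multiset.mem_map_of_mem _ hr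
    exact (Multiset.mem_filter.mp this).2
  -- the constant
  set β : K := lc * (Sout.map fun r => -r).prod with hβ
  have hfact : bK = C β * ((rootPoly S).map ι * (onePoly T).map ι) := by
    rw [map_rootPoly, map_onePoly, hS, hT]
    conv_lhs => rw [hsplit, hroots, Multiset.map_add, Multiset.prod_add]
    have hout : (Sout.map fun a => (X - C a : K[X])).prod =
        C (Sout.map fun r => -r).prod * ((Sout.map fun r => r⁻¹).map
          fun s => (1 - C s * X : K[X])).prod := by
      rw [Multiset.map_map, map_multiset_prod (C : K →+* K[X]), Multiset.map_map,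
        ← Multiset.prod_map_mul]
      congr 1
      apply Multiset.map_congr rfl
      intro r hr
      have hr0 := hSout_ne r hr
      simp only [Function.comp_apply]
      rw [mul_sub, mul_one, ← mul_assoc, ← C_mul, neg_mul, mul_inv_cancel₀ hr0, C_neg, C_neg, C_1]
      ring
    rw [hout, hβ, C_mul]
    ring
  -- the primitive part
  set P : (↥A)[X] := rootPoly S * onePoly T with hP
  have hfact' : bK = C β * P.map ι := by rw [hfact, hP, Polynomial.map_mul]
  obtain ⟨i0, hi0⟩ := exists_isUnit_coeff_rootPoly_mul_onePoly A S T hSmax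
  obtain ⟨j0, hj0⟩ := hb
  have hcoeff : ∀ i, ((b.coeff i : ↥A) : K) = β * ((P.coeff i : ↥A) : K) := by
    intro i
    have := congrArg (fun q => q.coeff i) hfact'
    simp only [hbK, coeff_map, coeff_C_mul] at this
    exact this
  have hβ1 : A.valuation β = 1 := by
    apply le_antisymm
    · -- otherwise all coefficients of `P` are non-units
      by_contra hgt
      have hgt' : 1 < A.valuation β := not_le.mp hgt
      have hβ0 : β ≠ 0 := by
        rintro h0
        rw [h0, map_zero] at hgt'
        exact not_lt.mpr zero_le_one hgt'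
      have h1 := hcoeff i0
      have h2 : A.valuation ((P.coeff i0 : ↥A) : K) = 1 :=
        (isUnit_iff_valuation_eq_one A _).mp hi0
      have h3 : A.valuation ((b.coeff i0 : ↥A) : K) ≤ 1 := A.valuation_le_one _
      rw [h1, map_mul, h2, mul_one] at h3
      exact not_le.mpr hgt' h3
    · by_contra hlt
      have hlt' : A.valuation β < 1 := not_le.mp hlt
      have h1 := hcoeff j0
      have h2 : A.valuation ((b.coeff j0 : ↥A) : K) = 1 :=
        (isUnit_iff_valuation_eq_one A _).mp hj0
      have h3 : A.valuation ((P.coeff j0 : ↥A) : K) ≤ 1 := A.valuation_le_one _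
      rw [h1, map_mul] at h2
      have : A.valuation β * A.valuation ((P.coeff j0 : ↥A) : K) < 1 := by
        calc A.valuation β * A.valuation ((P.coeff j0 : ↥A) : K)
            ≤ A.valuation β * 1 := by gcongr
          _ = A.valuation β := mul_one _
          _ < 1 := hlt'
      rw [h2] at this
      exact lt_irrefl _ this
  have hβA : β ∈ A := (A.valuation_le_one_iff β).mp hβ1.le
  set βA : ↥A := ⟨β, hβA⟩ with hβA'
  have hβu : IsUnit βA := (isUnit_iff_valuation_eq_one A βA).mpr hβ1
  refine ⟨S, C βA * onePoly T, hSmax, ?_, ?_, ?_⟩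
  · rw [eval_mul, eval_C, eval_zero_onePoly, mul_one]
    exact hβu
  · apply Polynomial.map_injective ι hinj
    rw [← hbK, hfact, Polynomial.map_mul, Polynomial.map_mul, map_C]
    have : ι βA = β := rfl
    rw [this]
    ring
  · intro r hr
    rw [Polynomial.map_mul, map_C, eval_mul, eval_C]
    have hβ0 : β ≠ 0 := by
      rintro h0
      rw [h0, map_zero] at hβ1
      exact zero_ne_one hβ1
    exact mul_ne_zero hβ0 (eval_map_onePoly_ne_zero A T hr)

/-- A polynomial without roots in the open unit disc is coprime to `∏ (X - r)`, `r ∈ 𝔪`. -/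
theorem isCoprime_map_rootPoly (S : Multiset ↥A)
    (hS : ∀ r ∈ S, r ∈ IsLocalRing.maximalIdeal ↥A) {u : K[X]}
    (hu : ∀ r : K, A.valuation r < 1 → u.eval r ≠ 0) :
    IsCoprime u ((rootPoly S).map (algebraMap ↥A K)) := by
  induction S using Multiset.induction_on with
  | empty =>
    unfold rootPoly
    simp only [Multiset.map_zero, Multiset.prod_zero, Polynomial.map_one]
    exact isCoprime_one_right
  | cons r S ih =>
    have hcons : rootPoly (r ::ₘ S) = (X - C r) * rootPoly S := by
      unfold rootPoly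
      rw [Multiset.map_cons, Multiset.prod_cons]
    rw [hcons, Polynomial.map_mul]
    refine IsCoprime.mul_right ?_ (ih fun x hx => hS x (Multiset.mem_cons_of_mem hx))
    have hval : A.valuation ((algebraMap ↥A K) r) < 1 :=
      (A.valuation_lt_one_iff r).mp (hS r (Multiset.mem_cons_self r S))
    have hne := hu _ hval
    rw [isCoprime_comm, Polynomial.map_sub, map_X, map_C]
    apply (Polynomial.irreducible_X_sub_C _).coprime_iff_not_dvd.mpr
    rw [dvd_iff_isRoot]
    exact hne

/-- **Core residue computation.**  `f = ∏ (X - r)` (`r ∈ 𝔪`, at least one root), `g ∈ A[X]`;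
if `g f' / f = u1 / u2 - c * a / b` with `u1 / u2` regular on the open unit disc and `a / b`
Gauss-integral (`a, b ∈ A[X]`, `b` primitive), then the "trace" `λ_f (g f')` lies in `c A`. -/
theorem core [IsAlgClosed K] (Sf : Multiset ↥A)
    (hSf : ∀ r ∈ Sf, r ∈ IsLocalRing.maximalIdeal ↥A) (hSf0 : 0 < Multiset.card Sf)
    (g : (↥A)[X]) (u1 u2 : K[X]) (hu2 : ∀ r : K, A.valuation r < 1 → u2.eval r ≠ 0)
    (a b : (↥A)[X]) (hb : ∃ i, IsUnit (b.coeff i)) (c : ↥A)
    (hid : (g * derivative (rootPoly Sf)).map (algebraMap ↥A K) * u2 * b.map (algebraMap ↥A K) =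
      u1 * (rootPoly Sf).map (algebraMap ↥A K) * b.map (algebraMap ↥A K) -
        C ((algebraMap ↥A K) c) * a.map (algebraMap ↥A K) *
          (rootPoly Sf).map (algebraMap ↥A K) * u2) :
    ∃ t : ↥A, topCoeffMod (rootPoly Sf) (g * derivative (rootPoly Sf)) = c * t := by
  classical
  set ι := algebraMap ↥A K with hι
  have hinj : Function.Injective ι := FaithfulSMul.algebraMap_injective ↥A K
  set f := rootPoly Sf with hf
  have hfm : f.Monic := rootPoly_monic Sf
  have hfdeg : 0 < f.natDegree := by rw [hf, natDegree_rootPoly]; exact hSf0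
  obtain ⟨S0, b1, hS0, hb1u, hbfact, hb1roots⟩ := exists_factorization A b hb
  obtain ⟨t1, ht1⟩ := exists_inverse_mod_rootPoly S0 hS0 hb1u
  set b0 := rootPoly S0 with hb0
  have hb0m : b0.Monic := rootPoly_monic S0
  -- over `K`
  set fK := f.map ι with hfK
  set b0K := b0.map ι with hb0K
  set b1K := b1.map ι with hb1K
  have hfKm : fK.Monic := hfm.map ι
  have hb0Km : b0K.Monic := hb0m.map ι
  have hfKdeg : 0 < fK.natDegree := by rw [hfK, hfm.natDegree_map]; exact hfdeg
  -- coprimality
  have hcop : IsCoprime (u2 * b1K) (fK * b0K) := by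
    have hB : fK * b0K = (rootPoly (Sf + S0)).map ι := by
      rw [rootPoly_add, Polynomial.map_mul]
    rw [hB]
    apply isCoprime_map_rootPoly A (Sf + S0)
    · intro r hr
      rcases Multiset.mem_add.mp hr with h | h
      · exact hSf r h
      · exact hS0 r h
    · intro r hr
      rw [eval_mul]
      exact mul_ne_zero (hu2 r hr) (hb1roots r hr)
  obtain ⟨p, q, hpq⟩ := hcop
  -- the key congruence
  have hbK : b.map ι = b0K * b1K := by rw [hbfact, Polynomial.map_mul]
  rw [hbK] at hid
  set G := (g * derivative f).map ι with hG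
  have hcong : fK * b0K ∣ G * b0K - (-(C (ι c) * (a.map ι * (u2 * p) * fK))) := by
    refine ⟨G * b0K * q + p * u1 * b1K, ?_⟩
    linear_combination (-(G * b0K)) * hpq + p * hid
  have ht1K : b0K ∣ t1.map ι * b1K - 1 := by
    have := Polynomial.map_dvd ι ht1
    simpa [Polynomial.map_sub, Polynomial.map_mul] using this
  have hinv : b0K ∣ u2 * p - t1.map ι := by
    obtain ⟨w, hw⟩ := ht1K
    refine ⟨-(u2 * p) * w + t1.map ι * (-q * fK), ?_⟩
    linear_combination (-(u2 * p)) * hw + (t1.map ι) * hpq
  have hBm : (fK * b0K).Monic := hfKm.mul hb0Km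
  have h1 := topCoeffMod_congr hBm hcong
  rw [topCoeffMod_mul_monic hfKm hb0Km hfKdeg G, topCoeffMod_neg, topCoeffMod_C_mul, hG,
    topCoeffMod_map ι hfm] at h1
  -- the remaining term is integral
  have h2 : ∃ t : ↥A, topCoeffMod (fK * b0K) (a.map ι * (u2 * p) * fK) = ι t := by
    rcases Nat.eq_zero_or_pos (Multiset.card S0) with h0 | h0
    · refine ⟨0, ?_⟩
      rw [map_zero]
      apply topCoeffMod_eq_zero_of_dvd hBm
      have : b0K = 1 := by
        rw [hb0K, hb0, Multiset.card_eq_zero.mp h0]
        unfold rootPoly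
        simp
      rw [this, mul_one]
      exact Dvd.intro_left _ rfl
    · have hb0Kdeg : 0 < b0K.natDegree := by
        rw [hb0K, hb0m.natDegree_map, hb0, natDegree_rootPoly]
        exact h0
      refine ⟨topCoeffMod b0 (a * t1), ?_⟩
      rw [mul_comm fK b0K, topCoeffMod_mul_monic hb0Km hfKm hb0Kdeg, ← topCoeffMod_map ι hb0m,
        Polynomial.map_mul]
      apply topCoeffMod_congr hb0Km
      have : a.map ι * (u2 * p) - a.map ι * t1.map ι = a.map ι * (u2 * p - t1.map ι) := by ring
      rw [this]
      exact Dvd.dvd.mul_left hinv _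
  obtain ⟨t, ht⟩ := h2
  refine ⟨-t, hinj ?_⟩
  rw [h1, ht, map_mul, map_neg]
  ring

end Factor

section R4

variable {R : Type*} [CommRing R] [Nontrivial R]

/-- `R4 = X^4 - 24 X = X (X^3 - 24)`: the zeros of `J` in the supersingular disc of the
`y9`-line. -/
def R4 : R[X] := X ^ 4 - C 24 * X

theorem R4_monic : (R4 : R[X]).Monic := by
  unfold R4
  monicity!

theorem natDegree_R4 : (R4 : R[X]).natDegree = 4 := by
  unfold R4
  compute_degree!

theorem derivative_R4 : derivative (R4 : R[X]) = C 4 * X ^ 3 - C 24 := by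
  unfold R4
  simp only [derivative_sub, derivative_X_pow, derivative_mul, derivative_C, derivative_X, zero_mul,
    mul_one, zero_add]
  norm_num

theorem topCoeffMod_R4_of_eq {h q r : R[X]} (hr : r.degree < 4) (he : h = r + R4 * q) :
    topCoeffMod R4 h = r.coeff 3 := by
  unfold topCoeffMod
  have hdeg : r.degree < (R4 : R[X]).degree := by
    rw [degree_eq_natDegree R4_monic.ne_zero, natDegree_R4]
    exact hr
  have := (div_modByMonic_unique q r R4_monic ⟨he.symm, hdeg⟩).2
  rw [this, natDegree_R4]

theorem topCoeffMod_R4_X_pow_mul_derivative (i : ℕ) (hi : i < 4) :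
    topCoeffMod R4 (X ^ i * derivative (R4 : R[X])) =
      if i = 0 then 4 else if i = 3 then 72 else 0 := by
  rw [derivative_R4]
  interval_cases i
  · rw [topCoeffMod_R4_of_eq (r := C 4 * X ^ 3 - C 24) (q := 0) (by compute_degree!) (by ring)]
    simp [coeff_X_pow]
  · rw [topCoeffMod_R4_of_eq (r := C 72 * X) (q := C 4) (by compute_degree!)
      (by unfold R4; simp only [map_ofNat]; ring)]
    simp [coeff_X]
  · rw [topCoeffMod_R4_of_eq (r := C 72 * X ^ 2) (q := C 4 * X) (by compute_degree!)
      (by unfold R4; simp only [map_ofNat]; ring)]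
    simp [coeff_X_pow]
  · rw [topCoeffMod_R4_of_eq (r := C 72 * X ^ 3) (q := C 4 * X ^ 2) (by compute_degree!)
      (by unfold R4; simp only [map_ofNat]; ring)]
    simp [coeff_X_pow]

theorem R4_ne_one : (R4 : R[X]) ≠ 1 := by
  intro h
  have := congrArg natDegree h
  rw [natDegree_R4, natDegree_one] at this
  omega

/-- The "trace form" of `R4`: `λ_{R4}(g R4') = 4 g(0) + 72 g₃`, where `g₃` is the `X^3`-coefficient
of `g mod R4`. -/
theorem topCoeffMod_R4_mul_derivative (g : R[X]) :
    topCoeffMod R4 (g * derivative (R4 : R[X])) = 4 * g.eval 0 + 72 * (g %ₘ R4).coeff 3 := by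
  set r := g %ₘ R4 with hr
  have hdeg : r.natDegree < 4 := by
    have := natDegree_modByMonic_lt g (R4_monic (R := R)) R4_ne_one
    rwa [natDegree_R4] at this
  have hgr : g - r = R4 * (g /ₘ R4) := by
    have := modByMonic_add_div g (R4 : R[X])
    rw [hr]
    linear_combination (-1 : R[X]) * this
  have h1 : topCoeffMod R4 (g * derivative (R4 : R[X])) =
      topCoeffMod R4 (r * derivative (R4 : R[X])) := by
    apply topCoeffMod_congr R4_monic
    rw [← sub_mul, hgr]
    exact ⟨g /ₘ R4 * derivative R4, by ring⟩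
  have h2 : r = ∑ i ∈ Finset.range 4, C (r.coeff i) * X ^ i := by
    conv_lhs => rw [as_sum_range' r 4 hdeg]
    simp [← C_mul_X_pow_eq_monomial]
  have h0 : r.coeff 0 = g.eval 0 := by
    have h3 : g = r + R4 * (g /ₘ R4) := by rw [← hgr]; ring
    have h4 := congrArg (eval 0) h3
    rw [eval_add, eval_mul] at h4
    have h5 : eval 0 (R4 : R[X]) = 0 := by
      unfold R4
      simp
    rw [h5, zero_mul, add_zero] at h4
    rw [coeff_zero_eq_eval_zero, h4]
  rw [h1]
  conv_lhs => rw [h2, Finset.sum_mul]
  rw [topCoeffMod_sum]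
  simp only [Finset.sum_range_succ, Finset.sum_range_zero, mul_assoc, topCoeffMod_C_mul]
  rw [topCoeffMod_R4_X_pow_mul_derivative 0 (by norm_num),
    topCoeffMod_R4_X_pow_mul_derivative 1 (by norm_num),
    topCoeffMod_R4_X_pow_mul_derivative 2 (by norm_num),
    topCoeffMod_R4_X_pow_mul_derivative 3 (by norm_num), h0]
  simp
  ring

end R4

section Final

variable {K : Type*} [Field K] (A : ValuationSubring K)

/-- Primitivity via reduction: a polynomial over a local ring has a unit coefficient iff its
reduction modulo the maximal ideal is nonzero. -/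
theorem exists_isUnit_coeff_iff {R : Type*} [CommRing R] [IsLocalRing R] (b : R[X]) :
    (∃ i, IsUnit (b.coeff i)) ↔ b.map (IsLocalRing.residue R) ≠ 0 := by
  constructor
  · rintro ⟨i, hi⟩ h0
    have := congrArg (fun q => q.coeff i) h0
    simp only [coeff_map, coeff_zero] at this
    exact (IsLocalRing.mem_maximalIdeal _).mp ((IsLocalRing.residue_eq_zero_iff _).mp this) hi
  · intro h
    obtain ⟨i, hi⟩ : ∃ i, (b.map (IsLocalRing.residue R)).coeff i ≠ 0 := by
      by_contra hcon
      push Not at hcon
      exact h (Polynomial.ext fun i => by rw [hcon i, coeff_zero])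
    refine ⟨i, ?_⟩
    rw [coeff_map] at hi
    by_contra hnu
    exact hi ((IsLocalRing.residue_eq_zero_iff _).mpr ((IsLocalRing.mem_maximalIdeal _).mpr hnu))

/-- A primitive polynomial times a monic polynomial is primitive. -/
theorem exists_isUnit_coeff_mul_monic {R : Type*} [CommRing R] [IsLocalRing R] {b m : R[X]}
    (hb : ∃ i, IsUnit (b.coeff i)) (hm : m.Monic) : ∃ i, IsUnit ((b * m).coeff i) := by
  rw [exists_isUnit_coeff_iff] at hb ⊢
  rw [Polynomial.map_mul]
  exact mul_ne_zero hb (hm.map _).ne_zero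

theorem valuation_three (h2 : A.valuation (2 : K) < 1) : A.valuation (3 : K) = 1 := by
  have h3 : (3 : K) = 1 + 2 := by norm_num
  rw [h3]
  have h1 : A.valuation (2 : K) < A.valuation (1 : K) := by rwa [map_one]
  rw [Valuation.map_add_eq_of_lt_left _ h1, map_one]

theorem map_R4 : (R4 : (↥A)[X]).map (algebraMap ↥A K) = (R4 : K[X]) := by
  unfold R4
  simp only [Polynomial.map_sub, Polynomial.map_pow, Polynomial.map_mul, map_X, map_C, map_ofNat,
    Polynomial.map_ofNat]

/-- The roots of `R4` lie in the open unit disc when `2 ∈ 𝔪`. -/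
theorem valuation_lt_one_of_isRoot_R4 (h2 : A.valuation (2 : K) < 1) {ρ : K}
    (hρ : (R4 : K[X]).IsRoot ρ) : A.valuation ρ < 1 := by
  unfold R4 at hρ
  simp only [IsRoot.def, eval_sub, eval_pow, eval_X, eval_mul, eval_C] at hρ
  by_cases h0 : ρ = 0
  · rw [h0, map_zero]; exact zero_lt_one
  have h3 : ρ ^ 3 = 24 := by
    have : ρ * (ρ ^ 3 - 24) = 0 := by linear_combination hρ
    rcases mul_eq_zero.mp this with h | h
    · exact absurd h h0
    · exact sub_eq_zero.mp h
  by_contra hge
  have hge' : 1 ≤ A.valuation ρ := not_lt.mp hge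
  have h4 : 1 ≤ A.valuation ρ ^ 3 := one_le_pow₀ hge'
  rw [← map_pow, h3] at h4
  have h24 : (24 : K) = 2 * 12 := by norm_num
  have h12 : A.valuation (12 : K) ≤ 1 := by
    have : (12 : K) = algebraMap ↥A K (12 : ↥A) := (map_ofNat (algebraMap ↥A K) 12).symm
    rw [this]
    exact A.valuation_le_one (12 : ↥A)
  rw [h24, map_mul] at h4
  have : A.valuation (2 : K) * A.valuation (12 : K) < 1 := by
    calc A.valuation (2 : K) * A.valuation (12 : K) ≤ A.valuation (2 : K) * 1 := by gcongr
      _ = A.valuation (2 : K) := mul_one _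
      _ < 1 := h2
  exact not_le.mpr this h4

/-- **Annulus residue theorem for `R4`.**  If `g R4' / R4 = u1 / u2 - 8 a / b` with `g, a, b ∈ A[X]`,
`b` primitive (so `a / b` is Gauss-integral) and `u1 / u2` regular on the open unit disc, then
`g(0) ∈ 2 A`. -/
theorem two_dvd_eval_zero_of_R4 [IsAlgClosed K] (h2 : A.valuation (2 : K) < 1) (h20 : (2 : K) ≠ 0)
    (g : (↥A)[X]) (u1 u2 : K[X]) (hu2 : ∀ r : K, A.valuation r < 1 → u2.eval r ≠ 0)
    (a b : (↥A)[X]) (hb : ∃ i, IsUnit (b.coeff i))
    (hid : (g * derivative (R4 : (↥A)[X])).map (algebraMap ↥A K) * u2 * b.map (algebraMap ↥A K) =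
      u1 * (R4 : (↥A)[X]).map (algebraMap ↥A K) * b.map (algebraMap ↥A K) -
        C ((algebraMap ↥A K) 8) * a.map (algebraMap ↥A K) *
          (R4 : (↥A)[X]).map (algebraMap ↥A K) * u2) :
    ∃ t : ↥A, g.eval 0 = 2 * t := by
  obtain ⟨Sf, hSf, hR4⟩ := exists_rootPoly_of_monic A (R4_monic (R := ↥A)) (by
    intro r hr
    rw [map_R4] at hr
    exact valuation_lt_one_of_isRoot_R4 A h2 hr)
  have hcard : 0 < Multiset.card Sf := by
    rw [← natDegree_rootPoly, ← hR4, natDegree_R4]
    norm_num
  rw [hR4] at hid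
  obtain ⟨t, ht⟩ := core A Sf hSf hcard g u1 u2 hu2 a b hb 8 hid
  rw [← hR4, topCoeffMod_R4_mul_derivative] at ht
  refine ⟨t - 9 * (g %ₘ R4).coeff 3, ?_⟩
  have h4 : (4 : ↥A) ≠ 0 := by
    intro h
    have := congrArg (algebraMap ↥A K) h
    rw [map_zero] at this
    have h4K : (algebraMap ↥A K) 4 = (2 : K) * 2 := by
      rw [map_ofNat]; norm_num
    rw [h4K] at this
    rcases mul_eq_zero.mp this with h | h <;> exact h20 h
  apply mul_left_cancel₀ h4
  linear_combination ht

/-- The cusp polynomial `X^3 - 27` of the `y9`-line. -/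
def cusp27 {R : Type*} [CommRing R] : R[X] := X ^ 3 - C 27

/-- The numerator `3 R4' c - 3 X^2 R4` of `J'/J = 3 R4'/R4 - c'/c` over `R4 c`, where
`J = R4^3 / c`, `c = X^3 - 27`. -/
def numJ {R : Type*} [CommRing R] : R[X] :=
  C 3 * derivative (R4 : R[X]) * cusp27 - C 3 * X ^ 2 * R4

theorem cusp27_monic {R : Type*} [CommRing R] [Nontrivial R] : (cusp27 : R[X]).Monic := by
  unfold cusp27
  monicity!

/-- `X^3 - 27` has no roots in the open unit disc. -/
theorem eval_cusp27_ne_zero (h2 : A.valuation (2 : K) < 1) {r : K} (hr : A.valuation r < 1) :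
    (cusp27 : K[X]).eval r ≠ 0 := by
  unfold cusp27
  simp only [eval_sub, eval_pow, eval_X, eval_C]
  intro h
  have h3 : r ^ 3 = 27 := sub_eq_zero.mp h
  have h27 : (27 : K) = 3 ^ 3 := by norm_num
  have h4 : A.valuation r ^ 3 = 1 := by
    rw [← map_pow, h3, h27, map_pow, valuation_three A h2, one_pow]
  have h5 : A.valuation r ^ 3 < 1 := pow_lt_one₀ zero_le hr (by norm_num)
  rw [h4] at h5
  exact lt_irrefl _ h5

/-- **Final form for the `y9`-line** (`J = R4^3 / (X^3 - 27)`, `J'/J = numJ / (R4 (X^3 - 27))`).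
Let `τ = aτ / bτ` and `κ = aκ / bκ` Gauss-integral
(`aτ, bτ, aκ, bκ ∈ A[X]`, `bκ` primitive).  If `(τ + 8 κ) J'/J = u1 / u2` is regular on the open
unit disc, then `aτ(0) ∈ 2 A` (hence `τ(0) ∈ 2 A` when `bτ(0)` is a unit; no hypothesis on
`bτ` is needed for the statement about `aτ`). -/
theorem two_dvd_eval_zero_of_J [IsAlgClosed K] (h2 : A.valuation (2 : K) < 1) (h20 : (2 : K) ≠ 0)
    (aτ bτ aκ bκ : (↥A)[X])
    (hbκ : ∃ i, IsUnit (bκ.coeff i))
    (u1 u2 : K[X]) (hu2 : ∀ r : K, A.valuation r < 1 → u2.eval r ≠ 0)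
    (hid : (aτ.map (algebraMap ↥A K) * bκ.map (algebraMap ↥A K) +
        C 8 * aκ.map (algebraMap ↥A K) * bτ.map (algebraMap ↥A K)) *
          (numJ : (↥A)[X]).map (algebraMap ↥A K) * u2 =
      u1 * (bτ.map (algebraMap ↥A K) * bκ.map (algebraMap ↥A K)) *
        ((R4 : (↥A)[X]).map (algebraMap ↥A K) * (cusp27 : (↥A)[X]).map (algebraMap ↥A K))) :
    ∃ t : ↥A, aτ.eval 0 = 2 * t := by
  have hc : (cusp27 : (↥A)[X]).map (algebraMap ↥A K) = (cusp27 : K[X]) := by
    unfold cusp27
    simp only [Polynomial.map_sub, Polynomial.map_pow, map_X, map_C, map_ofNat,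
      Polynomial.map_ofNat]
  obtain ⟨t, ht⟩ := two_dvd_eval_zero_of_R4 A h2 h20 (C 3 * aτ)
    (bτ.map (algebraMap ↥A K) * u1 * (cusp27 : (↥A)[X]).map (algebraMap ↥A K) +
      C 3 * X ^ 2 * aτ.map (algebraMap ↥A K) * u2)
    (u2 * (cusp27 : (↥A)[X]).map (algebraMap ↥A K))
    (by
      intro r hr
      rw [eval_mul, hc]
      exact mul_ne_zero (hu2 r hr) (eval_cusp27_ne_zero A h2 hr))
    (aκ * bτ * numJ) (bκ * R4 * cusp27)
    (by
      have := exists_isUnit_coeff_mul_monic (exists_isUnit_coeff_mul_monic hbκ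
        (R4_monic (R := ↥A))) (cusp27_monic (R := ↥A))
      exact this)
    (by
      unfold numJ at hid ⊢
      simp only [Polynomial.map_mul, Polynomial.map_sub, Polynomial.map_pow, map_X, map_C,
        map_ofNat, Polynomial.map_ofNat] at hid ⊢
      linear_combination ((R4 : (↥A)[X]).map (algebraMap ↥A K) *
        (cusp27 : (↥A)[X]).map (algebraMap ↥A K)) * hid)
  rw [eval_mul, eval_C] at ht
  exact ⟨t - aτ.eval 0, by linear_combination ht⟩

end Final

end Fermat.Agent.S16.Two

end
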