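import Mathlib
import Fermat.Agent.S16.Two.Annulus

/-!
# U2 core: the trace of a test function vanishes at the supersingular point

(P-S16 block U2, helper15; blueprint: team note 683 step (d).)

`L` algebraically closed, `A` a valuation subring with `|2| < 1`, the `y`-line `RatFunc L`,
`J = R4³ / (X³ - 27)`, `dlogJ = J'/J = numJ / (R4 (X³ - 27))`.  `F / L(y)` a finite extension and
`O ⊆ F` a set closed under multiplication all of whose elements have Gauss-integral trace
(in the application: the Gauss valuation ring).  If `H = 1 + 8 w` with `w ∈ O` and `H * dlogJ`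
is integral over `L[J]`, then for every `φ ∈ O` integral over `L[J]` the trace `τ = Tr φ` can be
written `a / b` with `a, b ∈ A[y]`, `b(0)` a unit and `a(0) ∈ 2 A`.
-/

set_option autoImplicit false

namespace Fermat.Agent.S16.Two

open Polynomial

noncomputable section

variable {L : Type*} [Field L]

/-! ### Regularity of rational functions at a point -/

/-- `R` is regular at `a`: the denominator does not vanish at `a`. -/
def RegularAt (R : RatFunc L) (a : L) : Prop := (R.denom).eval a ≠ 0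

theorem regularAt_iff {R : RatFunc L} {a : L} :
    RegularAt R a ↔ ∃ p q : L[X], q.eval a ≠ 0 ∧
      R = algebraMap L[X] (RatFunc L) p / algebraMap L[X] (RatFunc L) q := by
  constructor
  · intro h
    exact ⟨R.num, R.denom, h, (RatFunc.num_div_denom R).symm⟩
  · rintro ⟨p, q, hq, rfl⟩
    intro h0
    obtain ⟨c, hc⟩ := RatFunc.denom_div_dvd p q
    apply hq
    rw [hc, eval_mul, h0, zero_mul]

theorem algebraMap_ne_zero_of_eval_ne_zero {q : L[X]} {a : L} (h : q.eval a ≠ 0) :
    algebraMap L[X] (RatFunc L) q ≠ 0 := by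
  intro h0
  apply h
  rw [(map_eq_zero_iff _ (IsFractionRing.injective L[X] (RatFunc L))).mp h0, eval_zero]

theorem regularAt_algebraMap (p : L[X]) (a : L) :
    RegularAt (algebraMap L[X] (RatFunc L) p) a :=
  regularAt_iff.mpr ⟨p, 1, by simp, by simp⟩

theorem regularAt_C (c : L) (a : L) : RegularAt (RatFunc.C c) a := by
  rw [← RatFunc.algebraMap_C]
  exact regularAt_algebraMap _ a

theorem RegularAt.add {R S : RatFunc L} {a : L} (hR : RegularAt R a) (hS : RegularAt S a) :
    RegularAt (R + S) a := by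
  obtain ⟨p₁, q₁, h₁, rfl⟩ := regularAt_iff.mp hR
  obtain ⟨p₂, q₂, h₂, rfl⟩ := regularAt_iff.mp hS
  refine regularAt_iff.mpr ⟨p₁ * q₂ + p₂ * q₁, q₁ * q₂, ?_, ?_⟩
  · rw [eval_mul]; exact mul_ne_zero h₁ h₂
  · have e₁ := algebraMap_ne_zero_of_eval_ne_zero h₁
    have e₂ := algebraMap_ne_zero_of_eval_ne_zero h₂
    simp only [map_add, map_mul]
    field_simp

theorem RegularAt.mul {R S : RatFunc L} {a : L} (hR : RegularAt R a) (hS : RegularAt S a) :
    RegularAt (R * S) a := by
  obtain ⟨p₁, q₁, h₁, rfl⟩ := regularAt_iff.mp hR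
  obtain ⟨p₂, q₂, h₂, rfl⟩ := regularAt_iff.mp hS
  refine regularAt_iff.mpr ⟨p₁ * p₂, q₁ * q₂, ?_, ?_⟩
  · rw [eval_mul]; exact mul_ne_zero h₁ h₂
  · simp only [map_mul]
    rw [div_mul_div_comm]

theorem RegularAt.neg {R : RatFunc L} {a : L} (hR : RegularAt R a) : RegularAt (-R) a := by
  obtain ⟨p₁, q₁, h₁, rfl⟩ := regularAt_iff.mp hR
  refine regularAt_iff.mpr ⟨-p₁, q₁, h₁, ?_⟩
  rw [map_neg, neg_div]

theorem regularAt_inv_of_not {R : RatFunc L} {a : L} (hR : ¬ RegularAt R a) :
    RegularAt R⁻¹ a := by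
  have hd : R.denom.eval a = 0 := by
    by_contra h; exact hR h
  obtain ⟨u, v, huv⟩ := RatFunc.isCoprime_num_denom R
  have hn : R.num.eval a ≠ 0 := by
    intro h0
    have := congrArg (eval a) huv
    rw [eval_add, eval_mul, eval_mul, h0, hd, mul_zero, mul_zero, add_zero, eval_one] at this
    exact zero_ne_one this
  refine regularAt_iff.mpr ⟨R.denom, R.num, hn, ?_⟩
  conv_lhs => rw [← RatFunc.num_div_denom R]
  rw [inv_div]

/-- The valuation subring of `L(X)` of functions regular at `a`. -/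
def regVal (a : L) : ValuationSubring (RatFunc L) where
  carrier := {R | RegularAt R a}
  mul_mem' := fun hR hS => hR.mul hS
  one_mem' := by
    have := regularAt_C (1 : L) a
    rwa [map_one] at this
  add_mem' := fun hR hS => hR.add hS
  zero_mem' := by
    have := regularAt_C (0 : L) a
    rwa [map_zero] at this
  neg_mem' := fun hR => hR.neg
  mem_or_inv_mem' := fun R => by
    by_cases h : RegularAt R a
    · exact Or.inl h
    · exact Or.inr (regularAt_inv_of_not h)

theorem mem_regVal {R : RatFunc L} {a : L} : R ∈ regVal a ↔ RegularAt R a := Iff.rfl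

/-- **Integral elements are regular**: if every element of the subring `B` is regular at `a`,
so is every rational function integral over `B`. -/
theorem regularAt_of_isIntegral_subalgebra {B : Subalgebra L (RatFunc L)} {τ : RatFunc L} {a : L}
    (hB : ∀ x ∈ B, RegularAt x a) (hτ : IsIntegral B τ) : RegularAt τ a := by
  have hle : B.toSubring ≤ (regVal a).toSubring := fun x hx => hB x hx
  obtain ⟨p, hmonic, hp⟩ := hτ
  let incl : B →+* (regVal a) := Subring.inclusion hle
  have hint : IsIntegral (regVal a) τ := by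
    refine ⟨p.map incl, hmonic.map _, ?_⟩
    rw [eval₂_map]
    exact hp
  obtain ⟨y, hy⟩ := IsIntegrallyClosed.isIntegral_iff.mp hint
  rw [← hy]
  exact y.2

theorem regularAt_of_mem_adjoin {J x : RatFunc L} {a : L} (hJ : RegularAt J a)
    (hx : x ∈ Algebra.adjoin L {J}) : RegularAt x a := by
  refine Algebra.adjoin_induction (p := fun x _ => x ∈ (regVal a).toSubring) ?_ ?_ ?_ ?_ hx
  · intro y hy
    rw [Set.mem_singleton_iff] at hy
    subst hy
    exact hJ
  · intro c
    exact regularAt_C c a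
  · intro x y _ _ hx hy
    exact add_mem hx hy
  · intro x y _ _ hx hy
    exact mul_mem hx hy

/-- **Integral elements are regular** wherever the generator is. -/
theorem regularAt_of_isIntegral {J τ : RatFunc L} {a : L} (hJ : RegularAt J a)
    (hτ : IsIntegral (Algebra.adjoin L {J}) τ) : RegularAt τ a :=
  regularAt_of_isIntegral_subalgebra (fun _ hx => regularAt_of_mem_adjoin hJ hx) hτ

/-! ### Gauss-integral rational functions -/

variable (A : ValuationSubring L)

/-- the rational function attached to a polynomial over `A`. -/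
def rf (a : (↥A)[X]) : RatFunc L := algebraMap L[X] (RatFunc L) (a.map (algebraMap ↥A L))

theorem rf_mul (a b : (↥A)[X]) : rf A (a * b) = rf A a * rf A b := by
  rw [rf, Polynomial.map_mul, map_mul]; rfl

theorem rf_eq_zero_iff (a : (↥A)[X]) : rf A a = 0 ↔ a = 0 := by
  rw [rf, map_eq_zero_iff _ (IsFractionRing.injective L[X] (RatFunc L)),
    Polynomial.map_eq_zero_iff (FaithfulSMul.algebraMap_injective ↥A L)]

/-- `τ` is Gauss-integral: `τ = a / b` with `a, b ∈ A[X]`, `b` primitive. -/
def GaussInt (τ : RatFunc L) : Prop :=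
  ∃ a b : (↥A)[X], (∃ i, IsUnit (b.coeff i)) ∧ τ = rf A a / rf A b

theorem ne_zero_of_exists_isUnit_coeff {b : (↥A)[X]} (hb : ∃ i, IsUnit (b.coeff i)) : b ≠ 0 := by
  rintro rfl
  obtain ⟨i, hi⟩ := hb
  rw [coeff_zero] at hi
  exact not_isUnit_zero hi

/-- **Reduced representation**: a Gauss-integral function regular on the open unit disc is
`a / b` with `b(0)` a unit. -/
theorem GaussInt.exists_isUnit_eval [IsAlgClosed L] {τ : RatFunc L} (hτ : GaussInt A τ)
    (hreg : ∀ r : L, A.valuation r < 1 → RegularAt τ r) :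
    ∃ a b : (↥A)[X], IsUnit (b.eval 0) ∧ τ = rf A a / rf A b := by
  obtain ⟨a, b, hb, hτab⟩ := hτ
  obtain ⟨S, b1, hS, hb1, hbfac, -⟩ := exists_factorization A b hb
  have hb0 : b ≠ 0 := ne_zero_of_exists_isUnit_coeff A hb
  set ι := algebraMap ↥A L with hι
  have hinj : Function.Injective ι := FaithfulSMul.algebraMap_injective ↥A L
  -- the reduced fraction
  set n := τ.num with hn
  set d := τ.denom with hd
  have hd0 : d ≠ 0 := RatFunc.denom_ne_zero τ
  have hdreg : ∀ r : L, A.valuation r < 1 → d.eval r ≠ 0 := hreg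
  have hcop : IsCoprime d ((rootPoly S).map ι) := isCoprime_map_rootPoly A S hS hdreg
  -- cross multiplication
  have hcross : n * b.map ι = a.map ι * d := by
    have h1 : algebraMap L[X] (RatFunc L) n / algebraMap L[X] (RatFunc L) d = rf A a / rf A b := by
      rw [RatFunc.num_div_denom, hτab]
    have hdne : algebraMap L[X] (RatFunc L) d ≠ 0 :=
      (map_ne_zero_iff _ (IsFractionRing.injective L[X] (RatFunc L))).mpr hd0
    have hbne : rf A b ≠ 0 := (rf_eq_zero_iff A b).not.mpr hb0
    rw [div_eq_div_iff hdne hbne] at h1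
    apply IsFractionRing.injective L[X] (RatFunc L)
    rw [map_mul, map_mul]
    exact h1
  -- `rootPoly S` divides `a`
  have hdvd : (rootPoly S).map ι ∣ a.map ι := by
    have h1 : (rootPoly S).map ι ∣ a.map ι * d := by
      rw [← hcross, hbfac, Polynomial.map_mul]
      exact ⟨n * b1.map ι, by ring⟩
    exact hcop.symm.dvd_of_dvd_mul_right h1
  have hmonic : (rootPoly S).Monic := rootPoly_monic S
  have hmod : a %ₘ rootPoly S = 0 := by
    apply Polynomial.map_injective ι hinj
    rw [Polynomial.map_modByMonic _ hmonic, Polynomial.map_zero]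
    exact (modByMonic_eq_zero_iff_dvd (hmonic.map ι)).mpr hdvd
  have hafac : a = rootPoly S * (a /ₘ rootPoly S) := by
    have := modByMonic_add_div a (rootPoly S)
    rw [hmod, zero_add] at this
    exact this.symm
  refine ⟨a /ₘ rootPoly S, b1, hb1, ?_⟩
  have hS0 : rf A (rootPoly S) ≠ 0 := (rf_eq_zero_iff A _).not.mpr hmonic.ne_zero
  rw [hτab]
  conv_lhs => rw [hafac, hbfac, rf_mul, rf_mul]
  rw [mul_div_mul_left _ _ hS0]

/-! ### The functions `J` and `J'/J` on the `y`-line -/

/-- `J = R4³ / (X³ - 27) = y³ (y³ - 24)³ / (y³ - 27)`. -/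
def J9 (L : Type*) [Field L] : RatFunc L :=
  algebraMap L[X] (RatFunc L) ((R4 : L[X]) ^ 3) / algebraMap L[X] (RatFunc L) (cusp27 : L[X])

/-- `J'/J = numJ / (R4 (X³ - 27))`. -/
def dlogJ9 (L : Type*) [Field L] : RatFunc L :=
  algebraMap L[X] (RatFunc L) (numJ : L[X]) /
    algebraMap L[X] (RatFunc L) ((R4 : L[X]) * (cusp27 : L[X]))

theorem regularAt_J9 (h2 : A.valuation (2 : L) < 1) {r : L} (hr : A.valuation r < 1) :
    RegularAt (J9 L) r :=
  regularAt_iff.mpr ⟨_, _, eval_cusp27_ne_zero A h2 hr, rfl⟩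

theorem map_cusp27 : (cusp27 : (↥A)[X]).map (algebraMap ↥A L) = (cusp27 : L[X]) := by
  unfold cusp27
  simp only [Polynomial.map_sub, Polynomial.map_pow, map_X, map_ofNat, Polynomial.map_ofNat]

theorem map_numJ : (numJ : (↥A)[X]).map (algebraMap ↥A L) = (numJ : L[X]) := by
  unfold numJ
  simp only [Polynomial.map_sub, Polynomial.map_mul, Polynomial.map_pow, map_X,
    map_ofNat, Polynomial.map_ofNat, map_R4, map_cusp27, ← Polynomial.derivative_map]

/-! ### The core theorem -/

variable {F : Type*} [Field F] [Algebra (RatFunc L) F] [FiniteDimensional (RatFunc L) F]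

/-- **U2 core**, for an arbitrary subalgebra `B` of the `y`-line all of whose elements are regular
on the open unit disc (instead of `L[J9]`).  See the module docstring. -/
theorem exists_trace_eq_div_of_isIntegral_subalgebra [IsAlgClosed L] (h2 : A.valuation (2 : L) < 1)
    (h20 : (2 : L) ≠ 0) (B : Subalgebra L (RatFunc L))
    (hB : ∀ x ∈ B, ∀ r : L, A.valuation r < 1 → RegularAt x r) (O : Set F)
    (hmul : ∀ f g : F, f ∈ O → g ∈ O → f * g ∈ O)
    (htr : ∀ f ∈ O, GaussInt A (Algebra.trace (RatFunc L) F f))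
    (H w : F) (hw : w ∈ O) (hH : H = 1 + 8 * w)
    (hΨ : IsIntegral B (H * algebraMap (RatFunc L) F (dlogJ9 L)))
    (φ : F) (hφO : φ ∈ O) (hφ : IsIntegral B φ) :
    ∃ a b : (↥A)[X], IsUnit (b.eval 0) ∧ (∃ t : ↥A, a.eval 0 = 2 * t) ∧
      Algebra.trace (RatFunc L) F φ = rf A a / rf A b := by
  obtain ⟨τ, hτ⟩ : ∃ τ, τ = Algebra.trace (RatFunc L) F φ := ⟨_, rfl⟩
  obtain ⟨κ, hκ⟩ : ∃ κ, κ = Algebra.trace (RatFunc L) F (φ * w) := ⟨_, rfl⟩
  rw [← hτ]
  -- integrality of the traces
  have hτint : IsIntegral B τ := hτ ▸ Algebra.isIntegral_trace hφ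
  have hRint : IsIntegral B
      (Algebra.trace (RatFunc L) F (φ * (H * algebraMap (RatFunc L) F (dlogJ9 L)))) :=
    Algebra.isIntegral_trace (hφ.mul hΨ)
  -- the trace identity
  have htrace : Algebra.trace (RatFunc L) F (φ * (H * algebraMap (RatFunc L) F (dlogJ9 L))) =
      (τ + 8 * κ) * dlogJ9 L := by
    have e : φ * (H * algebraMap (RatFunc L) F (dlogJ9 L)) =
        dlogJ9 L • φ + (8 * dlogJ9 L) • (φ * w) := by
      rw [hH, Algebra.smul_def, Algebra.smul_def, map_mul, map_ofNat]
      ring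
    rw [e, map_add, LinearMap.map_smul, LinearMap.map_smul, smul_eq_mul, smul_eq_mul, ← hτ, ← hκ]
    ring
  rw [htrace] at hRint
  -- regularity on the disc
  have hτreg : ∀ r : L, A.valuation r < 1 → RegularAt τ r := fun r hr =>
    regularAt_of_isIntegral_subalgebra (fun x hx => hB x hx r hr) hτint
  have hRreg : ∀ r : L, A.valuation r < 1 → RegularAt ((τ + 8 * κ) * dlogJ9 L) r := fun r hr =>
    regularAt_of_isIntegral_subalgebra (fun x hx => hB x hx r hr) hRint
  -- representations
  obtain ⟨a1, b1, hb1, hτab⟩ := (hτ ▸ htr φ hφO : GaussInt A τ).exists_isUnit_eval A hτreg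
  obtain ⟨aκ, bκ, hbκ, hκab⟩ := (hκ ▸ htr (φ * w) (hmul φ w hφO hw) : GaussInt A κ)
  set R := (τ + 8 * κ) * dlogJ9 L with hR
  refine ⟨a1, b1, hb1, ?_, hτab⟩
  refine two_dvd_eval_zero_of_J A h2 h20 a1 b1 aκ bκ hbκ R.num R.denom hRreg ?_
  -- the polynomial identity
  have hb1ne : rf A b1 ≠ 0 := by
    rw [Ne, rf_eq_zero_iff]
    rintro rfl
    rw [eval_zero] at hb1
    exact not_isUnit_zero hb1
  have hbκne : rf A bκ ≠ 0 :=
    (rf_eq_zero_iff A bκ).not.mpr (ne_zero_of_exists_isUnit_coeff A hbκ)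
  have hR4c : algebraMap L[X] (RatFunc L) ((R4 : L[X]) * (cusp27 : L[X])) ≠ 0 := by
    rw [Ne, map_eq_zero_iff _ (IsFractionRing.injective L[X] (RatFunc L))]
    exact mul_ne_zero (R4_monic (R := L)).ne_zero (cusp27_monic (R := L)).ne_zero
  have hden : algebraMap L[X] (RatFunc L) R.denom ≠ 0 :=
    (map_ne_zero_iff _ (IsFractionRing.injective L[X] (RatFunc L))).mpr (RatFunc.denom_ne_zero R)
  have hRnd : algebraMap L[X] (RatFunc L) R.num / algebraMap L[X] (RatFunc L) R.denom = R :=
    RatFunc.num_div_denom R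
  apply IsFractionRing.injective L[X] (RatFunc L)
  simp only [map_mul, map_add]
  rw [map_R4, map_cusp27, map_numJ]
  have e1 : algebraMap L[X] (RatFunc L) (a1.map (algebraMap ↥A L)) = rf A a1 := rfl
  have e2 : algebraMap L[X] (RatFunc L) (b1.map (algebraMap ↥A L)) = rf A b1 := rfl
  have e3 : algebraMap L[X] (RatFunc L) (aκ.map (algebraMap ↥A L)) = rf A aκ := rfl
  have e4 : algebraMap L[X] (RatFunc L) (bκ.map (algebraMap ↥A L)) = rf A bκ := rfl
  rw [e1, e2, e3, e4]
  have hRdef : R = (rf A a1 / rf A b1 + 8 * (rf A aκ / rf A bκ)) *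
      (algebraMap L[X] (RatFunc L) (numJ : L[X]) /
        algebraMap L[X] (RatFunc L) ((R4 : L[X]) * (cusp27 : L[X]))) := by
    rw [hR, hτab, hκab, dlogJ9]
  rw [← hRnd] at hRdef
  rw [map_mul] at hRdef hR4c
  have hR4 : algebraMap L[X] (RatFunc L) (R4 : L[X]) ≠ 0 := left_ne_zero_of_mul hR4c
  have hc27 : algebraMap L[X] (RatFunc L) (cusp27 : L[X]) ≠ 0 := right_ne_zero_of_mul hR4c
  have h8 : algebraMap L[X] (RatFunc L) (C 8) = 8 := by
    rw [RatFunc.algebraMap_C, map_ofNat]
  rw [h8]
  field_simp at hRdef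
  linear_combination -hRdef

/-- **U2 core** over `L[J9]`. -/
theorem exists_trace_eq_div_of_isIntegral [IsAlgClosed L] (h2 : A.valuation (2 : L) < 1)
    (h20 : (2 : L) ≠ 0) (O : Set F)
    (hmul : ∀ f g : F, f ∈ O → g ∈ O → f * g ∈ O)
    (htr : ∀ f ∈ O, GaussInt A (Algebra.trace (RatFunc L) F f))
    (H w : F) (hw : w ∈ O) (hH : H = 1 + 8 * w)
    (hΨ : IsIntegral (Algebra.adjoin L {J9 L}) (H * algebraMap (RatFunc L) F (dlogJ9 L)))
    (φ : F) (hφO : φ ∈ O) (hφ : IsIntegral (Algebra.adjoin L {J9 L}) φ) :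
    ∃ a b : (↥A)[X], IsUnit (b.eval 0) ∧ (∃ t : ↥A, a.eval 0 = 2 * t) ∧
      Algebra.trace (RatFunc L) F φ = rf A a / rf A b :=
  exists_trace_eq_div_of_isIntegral_subalgebra A h2 h20 (Algebra.adjoin L {J9 L})
    (fun _ hx _ hr => regularAt_of_mem_adjoin (regularAt_J9 A h2 hr) hx) O hmul htr H w hw hH hΨ
    φ hφO hφ

end

end Fermat.Agent.S16.Two
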