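import Mathlib
import Fermat.Agent.S16.Two.Core

/-!
# U2: the abstract contradiction

(P-S16 block U2, helper15; blueprint: team note 683 steps (c)-(g).)  All inputs from GoodRed, the
analytic dictionary and the Riemann-Hurwitz count are hypotheses here.
-/

set_option autoImplicit false

namespace Fermat.Agent.S16.Two

open Polynomial

noncomputable section

variable {L : Type*} [Field L] [IsAlgClosed L] (A : ValuationSubring L)
  {k : Type*} [Field k] (π : ↥A →+* k)
  {F : Type*} [Field F] [Algebra (RatFunc L) F] [FiniteDimensional (RatFunc L) F]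
  {κ : Type*} [Field κ]

/-- the rational function over `k` attached to a polynomial over `k`. -/
abbrev rfk (a : k[X]) : RatFunc k := algebraMap k[X] (RatFunc k) a

/-- **U2, abstract form**, over an arbitrary base `kx = k(x̄)` of the special fibre and an arbitrary
subalgebra `B` of the `y`-line regular on the open unit disc.
* `htr`, `hred`: traces of elements of `O` are Gauss-integral and reduce to the trace of the
  reduction (GaussExt `coe_trace`, `redx_trace` + the Gauss lemma on the `y`-line);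
* `hΨ`: the analytic input (`H J'/J` is regular off the cusps), `H = 1 + 8 w`;
* `hunit`: Riemann-Hurwitz in characteristic `2` (some test function on the special fibre has
  trace not vanishing at `ȳ = 0`) together with the lifting to `O`. -/
theorem false_of_data_base {kx : Type*} [Field kx] [Algebra k kx] [Algebra kx κ] (xb : kx)
    (hxb : Transcendental k xb)
    (h2 : A.valuation (2 : L) < 1) (h20 : (2 : L) ≠ 0) (hπ2 : π 2 = 0)
    (B : Subalgebra L (RatFunc L))
    (hB : ∀ x ∈ B, ∀ r : L, A.valuation r < 1 → RegularAt x r)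
    (O : Subring F) (res : ↥O →+* κ)
    (htr : ∀ f ∈ O, GaussInt A (Algebra.trace (RatFunc L) F f))
    (hred : ∀ (f : F) (hf : f ∈ O) (a b : (↥A)[X]), IsUnit (b.eval 0) →
      Algebra.trace (RatFunc L) F f = rf A a / rf A b →
        Algebra.trace kx κ (res ⟨f, hf⟩) * aeval xb (b.map π) = aeval xb (a.map π))
    (H w : F) (hw : w ∈ O) (hH : H = 1 + 8 * w)
    (hΨ : IsIntegral B (H * algebraMap (RatFunc L) F (dlogJ9 L)))
    (hunit : ∃ (φ : F) (hφ : φ ∈ O), IsIntegral B φ ∧
      ∃ q : k[X], Algebra.trace kx κ (res ⟨φ, hφ⟩) = aeval xb q ∧ q.eval 0 ≠ 0) : False := by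
  obtain ⟨φ, hφO, hφint, q, hq, hq0⟩ := hunit
  obtain ⟨a, b, hb, ⟨t, ht⟩, hτ⟩ := exists_trace_eq_div_of_isIntegral_subalgebra A h2 h20 B hB
    (O : Set F) (fun f g hf hg => O.mul_mem hf hg) htr H w hw hH hΨ φ hφO hφint
  have h1 := hred φ hφO a b hb hτ
  rw [hq, ← map_mul] at h1
  have h2' : q * b.map π = a.map π := by
    have hinj : Function.Injective (aeval (R := k) xb) :=
      transcendental_iff_injective.mp hxb
    exact hinj h1
  have h3 := congrArg (Polynomial.eval 0) h2'
  rw [eval_mul, ← Polynomial.eval₂_eq_eval_map, ← Polynomial.eval₂_eq_eval_map] at h3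
  have e0 : ∀ p : (↥A)[X], Polynomial.eval₂ π 0 p = π (p.eval 0) := by
    intro p
    rw [← map_zero π, Polynomial.eval₂_at_apply]
  rw [e0, e0, ht, map_mul, hπ2, zero_mul] at h3
  rcases mul_eq_zero.mp h3 with h | h
  · exact hq0 h
  · exact (hb.map π).ne_zero h

/-- **U2, abstract form** (`kx = RatFunc k`, `B = L[J9]`). -/
theorem false_of_data [Algebra (RatFunc k) κ]
    (h2 : A.valuation (2 : L) < 1) (h20 : (2 : L) ≠ 0) (hπ2 : π 2 = 0)
    (O : Subring F) (res : ↥O →+* κ)
    (htr : ∀ f ∈ O, GaussInt A (Algebra.trace (RatFunc L) F f))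
    (hred : ∀ (f : F) (hf : f ∈ O) (a b : (↥A)[X]), IsUnit (b.eval 0) →
      Algebra.trace (RatFunc L) F f = rf A a / rf A b →
        Algebra.trace (RatFunc k) κ (res ⟨f, hf⟩) * rfk (b.map π) = rfk (a.map π))
    (H w : F) (hw : w ∈ O) (hH : H = 1 + 8 * w)
    (hΨ : IsIntegral (Algebra.adjoin L {J9 L}) (H * algebraMap (RatFunc L) F (dlogJ9 L)))
    (hunit : ∃ (φ : F) (hφ : φ ∈ O), IsIntegral (Algebra.adjoin L {J9 L}) φ ∧
      ∃ q : k[X], Algebra.trace (RatFunc k) κ (res ⟨φ, hφ⟩) = rfk q ∧ q.eval 0 ≠ 0) : False := by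
  have hX : Transcendental k (RatFunc.X : RatFunc k) := by
    rw [transcendental_iff_injective]
    intro p q hpq
    rw [RatFunc.aeval_X_left_eq_algebraMap, RatFunc.aeval_X_left_eq_algebraMap] at hpq
    exact IsFractionRing.injective k[X] (RatFunc k) hpq
  refine false_of_data_base A π (RatFunc.X : RatFunc k) hX h2 h20 hπ2 (Algebra.adjoin L {J9 L})
    (fun _ hx _ hr => regularAt_of_mem_adjoin (regularAt_J9 A h2 hr) hx) O res htr ?_ H w hw hH hΨ
    ?_
  · intro f hf a b hb hτ
    have := hred f hf a b hb hτ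
    rwa [RatFunc.aeval_X_left_eq_algebraMap, RatFunc.aeval_X_left_eq_algebraMap]
  · obtain ⟨φ, hφ, hint, q, hq, hq0⟩ := hunit
    exact ⟨φ, hφ, hint, q, by rwa [RatFunc.aeval_X_left_eq_algebraMap], hq0⟩

end

end Fermat.Agent.S16.Two
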