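import Mathlib
import Fermat.Agent.S16.Two.Core
import Fermat.Agent.Gateway.GoodRed.GaussRing

/-!
# U2: glue between the Gauss valuation ring `O_x` of `L(X)` (helper83's `GaussRing`) and `GaussInt`

(P-S16 block U2, helper15.)
-/

set_option autoImplicit false

namespace Fermat.Agent.S16.Two

open Polynomial Fermat.Agent.Gateway.Red Fermat.Agent.Gateway.GoodRed
  Fermat.Agent.Gateway.GoodRed.GaussRing

noncomputable section

variable {L : Type*} [Field L] {A : ValuationSubring L} {k : Type*} [Field k] {π : ↥A →+* k}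
  {ξ : LaurentSeries ↥A}
  (hπ : Function.Surjective π) (hord : ξ.order < 0) (hlc : IsUnit ξ.leadingCoeff)

theorem rf_eq_nf (a : (↥A)[X]) : rf A a = nf A 1 a 1 := by
  rw [rf, nf, map_one, one_mul, Polynomial.map_one, map_one, div_one]
  rfl

theorem rf_div_eq_nf (a b : (↥A)[X]) : rf A a / rf A b = nf A 1 a b := by
  rw [rf, rf, nf, map_one, one_mul]
  rfl

theorem map_ne_zero_of_isUnit_eval {b : (↥A)[X]} (hb : IsUnit (b.eval 0)) : b.map π ≠ 0 := by
  intro h
  have h1 := congrArg (fun q : k[X] => q.coeff 0) h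
  simp only [Polynomial.coeff_map, Polynomial.coeff_zero] at h1
  rw [Polynomial.coeff_zero_eq_eval_zero] at h1
  exact (hb.map π).ne_zero h1

include hπ in
theorem exists_isUnit_coeff_of_map_ne_zero {Q : (↥A)[X]} (hQ : Q.map π ≠ 0) :
    ∃ i, IsUnit (Q.coeff i) := by
  by_contra hcon
  rw [not_exists] at hcon
  apply hQ
  ext i
  rw [Polynomial.coeff_map, Polynomial.coeff_zero]
  by_contra h
  exact hcon i ((pi_ne_zero_iff_isUnit hπ _).mp h)

/-- elements of the Gauss valuation ring of `L(X)` are Gauss-integral in the sense of `Core`. -/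
theorem gaussInt_of_mem_Ox {c : RatFunc L} (hc : c ∈ Ox hπ hord hlc) : GaussInt A c := by
  obtain ⟨e, P, Q, -, hQ, rfl⟩ := (mem_Ox_iff hπ hord hlc).mp hc
  refine ⟨C e * P, Q, exists_isUnit_coeff_of_map_ne_zero hπ hQ, ?_⟩
  rw [nf, rf, rf, Polynomial.map_mul, Polynomial.map_C, map_mul, RatFunc.algebraMap_C]
  rfl

theorem rf_mem_Ox (a : (↥A)[X]) : rf A a ∈ Ox hπ hord hlc := by
  rw [rf, algebraMap_mem_Ox_iff]
  intro n
  rw [Polynomial.coeff_map]
  exact (a.coeff n).2

theorem redOxHom_rf (a : (↥A)[X]) :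
    redOxHom hπ hord hlc ⟨rf A a, rf_mem_Ox hπ hord hlc a⟩ = aeval (redA A π ξ) (a.map π) := by
  have hmem : nf A ((1 : ↥A) : L) a 1 ∈ Ox hπ hord hlc := by
    have := rf_mem_Ox hπ hord hlc a
    rwa [rf_eq_nf] at this
  have h1 : (1 : (↥A)[X]).map π ≠ 0 := by
    rw [Polynomial.map_one]; exact one_ne_zero
  have h := redOxHom_nf hπ hord hlc 1 a h1 hmem
  rw [map_one, map_one, one_mul, Polynomial.map_one, map_one, div_one] at h
  rw [← h]
  congr 1
  apply Subtype.ext
  exact rf_eq_nf a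

/-- **reduction of a Gauss-integral fraction** `c = a / b` with `b(0)` a unit. -/
theorem redOxHom_mul_aeval {c : RatFunc L} (hc : c ∈ Ox hπ hord hlc) (a b : (↥A)[X])
    (hb : IsUnit (b.eval 0)) (h : c = rf A a / rf A b) :
    redOxHom hπ hord hlc ⟨c, hc⟩ * aeval (redA A π ξ) (b.map π) =
      aeval (redA A π ξ) (a.map π) := by
  have hb0 : rf A b ≠ 0 := by
    rw [Ne, rf_eq_zero_iff]
    rintro rfl
    rw [eval_zero] at hb
    exact not_isUnit_zero hb
  have hmul : (⟨c, hc⟩ : Ox hπ hord hlc) * ⟨rf A b, rf_mem_Ox hπ hord hlc b⟩ =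
      ⟨rf A a, rf_mem_Ox hπ hord hlc a⟩ := by
    apply Subtype.ext
    show c * rf A b = rf A a
    rw [h, div_mul_cancel₀ _ hb0]
  have := congrArg (redOxHom hπ hord hlc) hmul
  rw [map_mul, redOxHom_rf, redOxHom_rf] at this
  exact this

end

end Fermat.Agent.S16.Two
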