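import Mathlib
import Fermat.Agent.S16.Two.Core

/-!
# U2: the `j`-function on the `y`-line and transfer of integrality

(P-S16 block U2, helper15.)  `j = J1(y)`,
`J1 = (X+6)³ (X³+234X²+756X+2160)³ / ((X-3)⁸ (X³-27))` (`AuxLevel.L9.jq_y9'`).  `J1` is regular
on the open unit disc when `|2| < 1`; integrality over `L[j] ⊆ F` is integrality over
`L[J1] ⊆ L(X)`.
-/

set_option autoImplicit false

namespace Fermat.Agent.S16.Two

open Polynomial

noncomputable section

/-- numerator of `j` as a function of `y₉`. -/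
def numJ1 (R : Type*) [CommRing R] : R[X] :=
  (X + 6) ^ 3 * (X ^ 3 + 234 * X ^ 2 + 756 * X + 2160) ^ 3

/-- denominator of `j` as a function of `y₉`. -/
def denJ1 (R : Type*) [CommRing R] : R[X] := (X - 3) ^ 8 * (X ^ 3 - 27)

/-- `j` as a rational function of `y₉`. -/
def J1 (L : Type*) [Field L] : RatFunc L :=
  algebraMap L[X] (RatFunc L) (numJ1 L) / algebraMap L[X] (RatFunc L) (denJ1 L)

variable {L : Type*} [Field L] (A : ValuationSubring L)

theorem eval_denJ1_ne_zero (h2 : A.valuation (2 : L) < 1) {r : L} (hr : A.valuation r < 1) :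
    (denJ1 L).eval r ≠ 0 := by
  have h27 := eval_cusp27_ne_zero A h2 hr
  unfold cusp27 at h27
  simp only [eval_sub, eval_pow, eval_X, eval_C] at h27
  unfold denJ1
  simp only [eval_mul, eval_sub, eval_pow, eval_X, eval_ofNat]
  refine mul_ne_zero (pow_ne_zero _ ?_) h27
  intro h
  have h3 : r = 3 := sub_eq_zero.mp h
  rw [h3, valuation_three A h2] at hr
  exact lt_irrefl _ hr

theorem regularAt_J1 (h2 : A.valuation (2 : L) < 1) {r : L} (hr : A.valuation r < 1) :
    RegularAt (J1 L) r :=
  regularAt_iff.mpr ⟨_, _, eval_denJ1_ne_zero A h2 hr, rfl⟩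

/-- every element of `L[J1]` is regular on the open unit disc. -/
theorem regularAt_of_mem_adjoin_J1 (h2 : A.valuation (2 : L) < 1) {x : RatFunc L}
    (hx : x ∈ Algebra.adjoin L {J1 L}) {r : L} (hr : A.valuation r < 1) : RegularAt x r :=
  regularAt_of_mem_adjoin (regularAt_J1 A h2 hr) hx

/-! ### Transfer of integrality -/

/-- Integrality over the image of a subalgebra is integrality over the subalgebra. -/
theorem isIntegral_of_isIntegral_map {R B F : Type*} [CommRing R] [CommRing B] [CommRing F]
    [Algebra R B] [Algebra R F] [Algebra B F] [IsScalarTower R B F] (S : Subalgebra R B) (x : F)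
    (h : IsIntegral (S.map (IsScalarTower.toAlgHom R B F)) x) : IsIntegral S x := by
  obtain ⟨p, hp, hx⟩ := h
  let φ : S →+* S.map (IsScalarTower.toAlgHom R B F) :=
    { toFun := fun s => ⟨IsScalarTower.toAlgHom R B F (s : B), ⟨(s : B), s.2, rfl⟩⟩
      map_one' := Subtype.ext (map_one (IsScalarTower.toAlgHom R B F))
      map_mul' := fun a b => Subtype.ext (map_mul (IsScalarTower.toAlgHom R B F) (a : B) (b : B))
      map_zero' := Subtype.ext (map_zero (IsScalarTower.toAlgHom R B F))
      map_add' := fun a b => Subtype.ext (map_add (IsScalarTower.toAlgHom R B F) (a : B) (b : B)) }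
  have hφ : Function.Surjective φ := by
    rintro ⟨_, s, hs, rfl⟩
    exact ⟨⟨s, hs⟩, rfl⟩
  have hlift : p ∈ Polynomial.lifts φ := by
    rw [Polynomial.lifts_iff_coeff_lifts]
    intro n
    exact hφ _
  obtain ⟨q, hq, -, hqm⟩ := Polynomial.lifts_and_natDegree_eq_and_monic hlift hp
  refine ⟨q, hqm, ?_⟩
  have hcomp : algebraMap S F = (algebraMap (S.map (IsScalarTower.toAlgHom R B F)) F).comp φ := by
    ext s
    rfl
  rw [hcomp, ← Polynomial.eval₂_map, hq]
  exact hx

/-- Integrality over `L[g(y)] ⊆ F` is integrality over `L[g] ⊆ L(X)`. -/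
theorem isIntegral_adjoin_of_isIntegral_adjoin_algebraMap {F : Type*} [Field F] [Algebra L F]
    [Algebra (RatFunc L) F] [IsScalarTower L (RatFunc L) F] (g : RatFunc L) (x : F)
    (h : IsIntegral (Algebra.adjoin L {algebraMap (RatFunc L) F g}) x) :
    IsIntegral (Algebra.adjoin L {g}) x := by
  apply isIntegral_of_isIntegral_map
  rw [AlgHom.map_adjoin_singleton]
  exact h

end

end Fermat.Agent.S16.Two
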