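import Mathlib
import Fermat.Agent.S16.Two.FinalAbs
import Fermat.Agent.S16.Two.GaussGlue
import Fermat.Agent.S16.Two.JLine
import Fermat.Agent.Gateway.GoodRed.GaussBar
import Fermat.Agent.Gateway.GoodRed.Orthonormal
import Fermat.Agent.Gateway.GoodRed.ConjFamily.QVar

/-!
# U2: the assembly, with the GoodRed / analytic / Hurwitz inputs as hypotheses

(P-S16 block U2, helper15; plan: team note 775.)  `M` is a level with `9 ∣ M`, `2 ∤ M`
(in the application `M = 9p`); `F = FBar L M`, `O = OvVal`, `κ = Fk k M`.  Inputs: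

* (I1) the `y`-line structure `[Algebra (RatFunc L) F]` (`X ↦ yF`) and the trace facts
  `htrO`, `hredO` (GaussExt at the `y`-line);
* (I2) `H = 1 + 8 w`, `w ∈ O`, `H · J9'/J9 (y)` integral over `L[j]`;
* (I4) `hunit` (Riemann-Hurwitz in characteristic `2`) and the lifting `hlift` (C0).
-/

set_option autoImplicit false

namespace Fermat.Agent.S16.Two

open Polynomial ModularCurve IntermediateField
open Fermat.Agent.Gateway.Red Fermat.Agent.Gateway.GoodRed Fermat.Agent.Gateway.GoodRed.GaussRing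
open Fermat.Agent.Gateway.GoodRed.ConjFamily

noncomputable section

variable {L : Type*} [Field L] [Algebra ℚ L] [IsAlgClosed L] (A : ValuationSubring L)
  {k : Type} [Field k] (π : ↥A →+* k) (M : ℕ) [NeZero M] [IsAlgClosed k] [Fact (Nat.Prime 2)]
  [CharP k 2] (hπ : Function.Surjective π) (hℓM : ¬ 2 ∣ M)

theorem false_of_inputs
    [Algebra (RatFunc L) (FBar L M)] [IsScalarTower L (RatFunc L) (FBar L M)]
    [FiniteDimensional (RatFunc L) (FBar L M)]
    (h2A : A.valuation (2 : L) < 1)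
    -- the `y`-line
    (yF : FBar L M)
    (hy : ∀ P : L[X],
      algebraMap (RatFunc L) (FBar L M) (algebraMap L[X] (RatFunc L) P) = aeval yF P)
    (hj : Fermat.Agent.Gateway.GoodRed.jF L M * aeval yF (denJ1 L) = aeval yF (numJ1 L))
    (hden : aeval yF (denJ1 L) ≠ 0)
    -- the Gauss ring of the `y`-line and the base of the special fibre
    {ξ : LaurentSeries ↥A} (hord : ξ.order < 0) (hlc : IsUnit ξ.leadingCoeff)
    {yb : LaurentSeries k} (hyb : redA A π ξ = yb)
    [Algebra k⟮yb⟯ (modularFunctionFieldFullC k M)]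
    (htrO : ∀ f : OvVal A π M 2 hπ hℓM,
      Algebra.trace (RatFunc L) (FBar L M) (f : FBar L M) ∈ Ox hπ hord hlc)
    (hredO : ∀ f : OvVal A π M 2 hπ hℓM,
      redOxHom hπ hord hlc ⟨_, htrO f⟩ =
        ((Algebra.trace k⟮yb⟯ (modularFunctionFieldFullC k M) (resFk A π M 2 hπ hℓM f) : k⟮yb⟯) :
          LaurentSeries k))
    -- the analytic input
    (H w : FBar L M) (hw : w ∈ OvVal A π M 2 hπ hℓM) (hH : H = 1 + 8 * w)
    (hΨ : IsIntegral (Algebra.adjoin L {Fermat.Agent.Gateway.GoodRed.jF L M})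
      (H * (aeval yF (numJ : L[X]) / (aeval yF (R4 : L[X]) * aeval yF (cusp27 : L[X])))))
    -- the special fibre and the lifting
    (hunit : ∃ φb : modularFunctionFieldFullC k M,
      IsIntegral (Algebra.adjoin k {jFk k M}) φb ∧
        ∃ q : k[X], Algebra.trace k⟮yb⟯ (modularFunctionFieldFullC k M) φb =
          aeval (AdjoinSimple.gen k yb) q ∧ q.eval 0 ≠ 0)
    (hlift : ∀ φb : modularFunctionFieldFullC k M,
      IsIntegral (Algebra.adjoin k {jFk k M}) φb →
        ∃ (φ : FBar L M) (h : φ ∈ OvVal A π M 2 hπ hℓM),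
          IsIntegral (Algebra.adjoin L {Fermat.Agent.Gateway.GoodRed.jF L M}) φ ∧
            resFk A π M 2 hπ hℓM ⟨φ, h⟩ = φb) : False := by
  have : CharZero L := algebraRat.charZero L
  have h20 : (2 : L) ≠ 0 := two_ne_zero
  have hπ2 : π 2 = 0 := by
    rw [map_ofNat]
    exact CharTwo.two_eq_zero
  -- `j = J1(y)`
  have hJ1 : algebraMap (RatFunc L) (FBar L M) (J1 L) = Fermat.Agent.Gateway.GoodRed.jF L M := by
    rw [J1, map_div₀, hy, hy, ← hj, mul_div_assoc, div_self hden, mul_one]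
  have hdlog : algebraMap (RatFunc L) (FBar L M) (dlogJ9 L) =
      aeval yF (numJ : L[X]) / (aeval yF (R4 : L[X]) * aeval yF (cusp27 : L[X])) := by
    rw [dlogJ9, map_div₀, hy, hy, map_mul]
  have htransfer : ∀ x : FBar L M,
      IsIntegral (Algebra.adjoin L {Fermat.Agent.Gateway.GoodRed.jF L M}) x →
        IsIntegral (Algebra.adjoin L {J1 L}) x := by
    intro x hx
    apply isIntegral_adjoin_of_isIntegral_adjoin_algebraMap
    rw [hJ1]
    exact hx
  have hxb : Transcendental k (AdjoinSimple.gen k yb) := by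
    have h1 : Transcendental k yb := hyb ▸ transcendental_redA (π := π) hord hlc
    intro halg
    apply h1
    have := halg.algHom (k⟮yb⟯.val)
    rwa [IntermediateField.val_mk] at this
  have hcoe : ∀ P : k[X], ((aeval (AdjoinSimple.gen k yb) P : k⟮yb⟯) : LaurentSeries k) =
      aeval yb P := by
    intro P
    have := Polynomial.aeval_algHom_apply (k⟮yb⟯.val) (AdjoinSimple.gen k yb) P
    rw [IntermediateField.val_mk] at this
    exact this.symm
  obtain ⟨φb, hφbint, q, hq, hq0⟩ := hunit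
  obtain ⟨φ, hφO, hφint, hφres⟩ := hlift φb hφbint
  refine false_of_data_base A π (AdjoinSimple.gen k yb) hxb h2A h20 hπ2 (Algebra.adjoin L {J1 L})
    (fun x hx r hr => regularAt_of_mem_adjoin_J1 A h2A hx hr)
    (OvVal A π M 2 hπ hℓM).toSubring (resFk A π M 2 hπ hℓM)
    (fun f hf => gaussInt_of_mem_Ox hπ hord hlc (htrO ⟨f, hf⟩)) ?_ H w hw hH ?_ ?_
  · intro f hf a b hb hτ
    apply Subtype.ext
    rw [MulMemClass.coe_mul, hcoe, hcoe, ← hredO ⟨f, hf⟩, ← hyb]
    exact redOxHom_mul_aeval hπ hord hlc (htrO ⟨f, hf⟩) a b hb hτ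
  · rw [hdlog]
    exact htransfer _ hΨ
  · refine ⟨φ, hφO, htransfer _ hφint, q, ?_, hq0⟩
    rw [← hq]
    congr 1
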