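/-
P-S16, block U2, input (I5) (helper16): the genus of `X₀(9p)` for a prime `p ≥ 5` is `p - 2`:
numerics of the genus formula at `9p` (`ψ(9p) = 12 (p + 1)`, `ν₂ = ν₃ = 0`, `8` cusps),
`dim S₂(Γ₀(9p)) = p - 2` (from `S20.result`) and `genusFF Qbar (FBar Qbar (9p)) = p - 2`
(from `C0.genusFF_eq_finrank_cuspForm`).
-/
import Fermat.Agent.Gateway.C0.GenusForms

set_option autoImplicit false

namespace Fermat.Agent.S16.Two

open ModularCurve

/-! ### Numerics at level `9p` -/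

/-- the divisors of `9 p` for a prime `p`. -/
theorem divisors_nine_mul {p : ℕ} (hp : p.Prime) :
    (9 * p).divisors = {1, 3, 9, p, 3 * p, 9 * p} := by
  have h9 : (9 : ℕ).divisors = {1, 3, 9} := by decide
  rw [Nat.divisors_mul, h9, hp.divisors]
  ext d
  simp only [Finset.mem_mul, Finset.mem_insert, Finset.mem_singleton]
  constructor
  · rintro ⟨a, (rfl | rfl | rfl), b, (rfl | rfl), rfl⟩ <;> simp
  · rintro (rfl | rfl | rfl | rfl | rfl | rfl)
    · exact ⟨1, Or.inl rfl, 1, Or.inl rfl, rfl⟩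
    · exact ⟨3, Or.inr (Or.inl rfl), 1, Or.inl rfl, rfl⟩
    · exact ⟨9, Or.inr (Or.inr rfl), 1, Or.inl rfl, rfl⟩
    · exact ⟨1, Or.inl rfl, d, Or.inr rfl, by simp⟩
    · exact ⟨3, Or.inr (Or.inl rfl), p, Or.inr rfl, rfl⟩
    · exact ⟨9, Or.inr (Or.inr rfl), p, Or.inr rfl, rfl⟩

theorem sum_divisors_nine_mul' {M : Type*} [AddCommMonoid M] {p : ℕ} (hp : p.Prime) (hp3 : p ≠ 3)
    (f : ℕ → M) :
    ∑ d ∈ (9 * p).divisors, f d = f 1 + (f 3 + (f 9 + (f p + (f (3 * p) + f (9 * p))))) := by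
  have hp9 : p ≠ 9 := by rintro rfl; norm_num at hp
  have hp2 : 2 ≤ p := hp.two_le
  rw [divisors_nine_mul hp]
  rw [Finset.sum_insert, Finset.sum_insert, Finset.sum_insert, Finset.sum_insert,
    Finset.sum_insert, Finset.sum_singleton]
  all_goals simp only [Finset.mem_insert, Finset.mem_singleton]; omega

theorem sum_divisors_nine_mul {M : Type*} [AddCommMonoid M] {p : ℕ} (hp : p.Prime) (hp5 : 5 ≤ p)
    (f : ℕ → M) :
    ∑ d ∈ (9 * p).divisors, f d = f 1 + (f 3 + (f 9 + (f p + (f (3 * p) + f (9 * p))))) :=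
  sum_divisors_nine_mul' hp (by omega) f

/-- `ψ(9p) = 12 (p + 1)` for a prime `p ≠ 3`. -/
theorem dedekindPsi_nine_mul_prime {p : ℕ} (hp : p.Prime) (hp3 : p ≠ 3) :
    dedekindPsi (9 * p) = 12 * (p + 1) := by
  have hsq3 : Squarefree 3 := Nat.prime_three.prime.squarefree
  have hsqp : Squarefree p := hp.prime.squarefree
  have hsq3p : Squarefree (3 * p) := by
    rw [Nat.squarefree_mul_iff]
    exact ⟨(Nat.coprime_primes Nat.prime_three hp).mpr (Ne.symm hp3), hsq3, hsqp⟩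
  have hn9 : ¬ Squarefree 9 := by
    intro h
    have := h 3 (by norm_num)
    simp at this
  have hn9p : ¬ Squarefree (9 * p) := by
    intro h
    have := h 3 ⟨p, by ring⟩
    simp at this
  unfold dedekindPsi
  rw [Finset.sum_filter, sum_divisors_nine_mul' hp hp3]
  simp only [squarefree_one, hsq3, hsqp, hsq3p, hn9, hn9p, if_true, if_false]
  have e1 : 9 * p / 3 = 3 * p := by omega
  have e2 : 9 * p / p = 9 := Nat.mul_div_cancel _ hp.pos
  have e3 : 9 * p / (3 * p) = 3 := by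
    rw [show 9 * p = 3 * (3 * p) by ring]
    exact Nat.mul_div_cancel _ (Nat.mul_pos (by norm_num) hp.pos)
  rw [Nat.div_one, e1, e2, e3]
  ring

theorem dedekindPsi_nine_mul {p : ℕ} (hp : p.Prime) (hp5 : 5 ≤ p) :
    dedekindPsi (9 * p) = 12 * (p + 1) :=
  dedekindPsi_nine_mul_prime hp (by omega)

theorem cuspCount_nine_mul {p : ℕ} (hp : p.Prime) (hp5 : 5 ≤ p) : cuspCount (9 * p) = 8 := by
  have hc3 : Nat.Coprime 3 p := (Nat.coprime_primes Nat.prime_three hp).mpr (by omega)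
  have hc9 : Nat.Coprime 9 p := by
    have : Nat.Coprime (3 ^ 2) p := Nat.Coprime.pow_left 2 hc3
    simpa using this
  unfold cuspCount
  rw [sum_divisors_nine_mul hp hp5]
  have e1 : 9 * p / 3 = 3 * p := by omega
  have e2 : 9 * p / p = 9 := Nat.mul_div_cancel _ hp.pos
  have e3 : 9 * p / (3 * p) = 3 := by
    rw [show 9 * p = 3 * (3 * p) by ring]
    exact Nat.mul_div_cancel _ (by positivity)
  have e4 : 9 * p / 9 = p := by omega
  have e5 : 9 * p / (9 * p) = 1 := Nat.div_self (by positivity)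
  rw [Nat.div_one, e1, e2, e3, e4, e5]
  have g1 : Nat.gcd 1 (9 * p) = 1 := Nat.gcd_one_left _
  have g2 : Nat.gcd 3 (3 * p) = 3 := Nat.gcd_eq_left ⟨p, rfl⟩
  have g3 : Nat.gcd 9 p = 1 := hc9
  have g4 : Nat.gcd p 9 = 1 := hc9.symm
  have g5 : Nat.gcd (3 * p) 3 = 3 := Nat.gcd_eq_right ⟨p, rfl⟩
  have g6 : Nat.gcd (9 * p) 1 = 1 := Nat.gcd_one_right _
  rw [g1, g2, g3, g4, g5, g6]
  have t3 : Nat.totient 3 = 2 := by decide
  simp [t3]

theorem nuTwo_nine_mul (p : ℕ) : nuTwo (9 * p) = 0 := by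
  unfold nuTwo
  have : IsEmpty {x : ZMod (9 * p) // x ^ 2 + 1 = 0} := by
    refine ⟨fun ⟨x, hx⟩ => ?_⟩
    have hdvd : 3 ∣ 9 * p := ⟨3 * p, by ring⟩
    have h := congrArg (ZMod.castHom hdvd (ZMod 3)) hx
    simp only [map_add, map_pow, map_one, map_zero] at h
    revert h
    generalize (ZMod.castHom hdvd (ZMod 3)) x = y
    revert y
    decide
  exact Nat.card_of_isEmpty

theorem nuThree_nine_mul (p : ℕ) : nuThree (9 * p) = 0 := by
  unfold nuThree
  have : IsEmpty {x : ZMod (9 * p) // x ^ 2 + x + 1 = 0} := by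
    refine ⟨fun ⟨x, hx⟩ => ?_⟩
    have hdvd : 9 ∣ 9 * p := ⟨p, rfl⟩
    have h := congrArg (ZMod.castHom hdvd (ZMod 9)) hx
    simp only [map_add, map_pow, map_one, map_zero] at h
    revert h
    generalize (ZMod.castHom hdvd (ZMod 9)) x = y
    revert y
    decide
  exact Nat.card_of_isEmpty

/-- the genus formula at level `9p`. -/
theorem genusFormula_nine_mul {p : ℕ} (hp : p.Prime) (hp5 : 5 ≤ p) :
    genusFormula (9 * p) = ((p - 2 : ℕ) : ℚ) := by
  unfold genusFormula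
  rw [dedekindPsi_nine_mul hp hp5, nuTwo_nine_mul, nuThree_nine_mul, cuspCount_nine_mul hp hp5]
  rw [Nat.cast_sub (by omega)]
  push_cast
  ring

/-! ### The genus of `X₀(9p)` -/

theorem neZero_nine_mul (p : ℕ) [Fact p.Prime] : NeZero (9 * p) :=
  ⟨by have := (Fact.out : p.Prime).pos; omega⟩

/-- `dim S₂(Γ₀(9p)) = p - 2` for a prime `p ≥ 5`. -/
theorem finrank_cuspForm_nine_mul (p : ℕ) [Fact p.Prime] (hp : 5 ≤ p) :
    Module.finrank ℂ (CuspForm (CongruenceSubgroup.Gamma0 (9 * p)) 2) = p - 2 := by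
  have hpp : p.Prime := Fact.out
  have : NeZero (9 * p) := neZero_nine_mul p
  have h := Fermat.Agent.S20.result (9 * p)
  rw [genusFormula_nine_mul hpp hp] at h
  exact_mod_cast h

/-- the genus of the function field of `X₀(9p)` over `Qbar` is `p - 2`. -/
theorem genusFF_nine_mul (p : ℕ) [Fact p.Prime] [NeZero (9 * p)] (hp : 5 ≤ p) :
    AlgebraicCurve.genusFF (AlgebraicClosure ℚ)
      (Fermat.Agent.Gateway.GoodRed.FBar (AlgebraicClosure ℚ) (9 * p)) = p - 2 := by
  rw [Fermat.Agent.Gateway.C0.genusFF_eq_finrank_cuspForm (9 * p)]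
  exact finrank_cuspForm_nine_mul p hp

/-! ### Versions at a variable level `M = 9 p`
(stating things at the literal level `9 * p` makes instance search slow downstream) -/

theorem dedekindPsi_of_eq {M p : ℕ} (hM : M = 9 * p) (hp : p.Prime) (hp3 : p ≠ 3) :
    dedekindPsi M = 12 * (p + 1) := by
  subst hM
  exact dedekindPsi_nine_mul_prime hp hp3

theorem cuspCount_of_eq {M p : ℕ} (hM : M = 9 * p) (hp : p.Prime) (hp5 : 5 ≤ p) :
    cuspCount M = 8 := by
  subst hM
  exact cuspCount_nine_mul hp hp5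

theorem finrank_cuspForm_of_eq {M p : ℕ} [Fact p.Prime] (hM : M = 9 * p) (hp : 5 ≤ p) :
    Module.finrank ℂ (CuspForm (CongruenceSubgroup.Gamma0 M) 2) = p - 2 := by
  subst hM
  exact finrank_cuspForm_nine_mul p hp

theorem genusFF_of_eq {M p : ℕ} [Fact p.Prime] [NeZero M] (hM : M = 9 * p) (hp : 5 ≤ p) :
    AlgebraicCurve.genusFF (AlgebraicClosure ℚ)
      (Fermat.Agent.Gateway.GoodRed.FBar (AlgebraicClosure ℚ) M) = p - 2 := by
  subst hM
  exact genusFF_nine_mul p hp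

end Fermat.Agent.S16.Two
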