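import Mathlib
import Fermat.Agent.Gateway.GoodRed.Forms
import Fermat.Agent.Gateway.AuxLevel.Forms

/-!
# P-S16 (U2), analytic step: `Ψ = G / (q dt/dq)` for a weight two MODULAR form `G`

`Gateway/GoodRed/Forms.lean` (WP-GR8, helper56) treats weight two CUSP forms.  The block (U2) of
P-S16 (no form `≡ 1 mod 8` on `Γ₀(p)`) needs the same dictionary for arbitrary weight two
MODULAR forms `G ∈ M₂(Γ₀(M))` (in the application `M = 9p`, `G` a form on `Γ₀(p)`, `t = y₉`):
`Ψ := G / (q dt/dq)` is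

* (α1) an element of the function field `F_M = modularFunctionFieldBar M`;
* (α2) integral over `K[j]` (no poles off the cusps);
* (∞) `Ψ * (q dt/dq) = G` on `q`-expansions;
* (β) integral `q`-expansion over any subring `A ⊆ K` containing the coefficients of `G`, when
  `q dt/dq` has an integral `q`-expansion with unit lowest coefficient.

The proofs are those of `Forms/Analytic.lean` and `Forms.lean` with "zero at the cusps"
replaced by "bounded at the cusps" (only (γ), regularity of `h dt` at the cusps, is lost).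
-/

set_option autoImplicit false
set_option linter.unusedSectionVars false

open UpperHalfPlane Complex Filter ModularForm ModularCurve CongruenceSubgroup
open scoped Manifold MatrixGroups ModularForm

noncomputable section

namespace Fermat.Agent.S16.Two.PsiForm

open Fermat.Agent.S24 Fermat.Agent.S24.QExp Fermat.Agent.S24.Setup Derivative
open Fermat.Agent.S24.CuspOrd (cuspFnAlg IsCuspFn IsCuspMer)
open Fermat.Agent.Gateway.Dict Fermat.Agent.Gateway.GoodRed.Forms

variable {M : ℕ} [NeZero M]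

/-! ### Slashes of modular forms -/

theorem isCuspFn_slash_mf {k : ℤ}
    (f : ModularForm ((Gamma0 M : Subgroup SL(2, ℤ)) : Subgroup (GL (Fin 2) ℝ)) k)
    (g : SL(2, ℤ)) : IsCuspFn M ((f : ℍ → ℂ) ∣[k] g) ∧ IsBoundedAtImInfty ((f : ℍ → ℂ) ∣[k] g) := by
  obtain ⟨h1, h2, h3⟩ := (Fermat.Agent.S20.Free.isMF_iff (Γ := Gamma0 M) (k := k)
    (f := (f : ℍ → ℂ))).mp ⟨f, rfl⟩
  refine ⟨⟨?_, isPer_slash h2 g, ?_⟩, h3 g⟩
  · exact h1.slash k _
  · exact ModGrowth.of_isBoundedAtImInfty (h3 g)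

section Form

variable (T : HauptAn M)
  (f : ModularForm ((Gamma0 M : Subgroup SL(2, ℤ)) : Subgroup (GL (Fin 2) ℝ)) 2)

/-- The cusp function `f ∣[2] g⁻¹`. -/
def fslM (g : SL(2, ℤ)) : cuspFnAlg M :=
  ⟨⟨(f : ℍ → ℂ) ∣[(2 : ℤ)] g⁻¹, (isCuspFn_slash_mf f g⁻¹).1.mdiff⟩, (isCuspFn_slash_mf f g⁻¹).1⟩

theorem fslM_apply (g : SL(2, ℤ)) (z : ℍ) :
    (((fslM f g : cuspFnAlg M) : HolFun) : ℍ → ℂ) z =
      f (g⁻¹ • z) * UpperHalfPlane.denom (g⁻¹ : SL(2, ℤ)) z ^ (-(2 : ℤ)) := by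
  show ((f : ℍ → ℂ) ∣[(2 : ℤ)] g⁻¹) z = _
  rw [ModularForm.SL_slash_apply]

/-- The holomorphic function `Ψ = f / D θ`. -/
def hanM : HolFun :=
  ⟨fun z => f z / D (T.θ : ℍ → ℂ) z, by
    have hf := UpperHalfPlane.mdifferentiable_iff.mp f.holo'
    have hd := UpperHalfPlane.mdifferentiable_iff.mp
      (normalizedDerivOfComplex_mdifferentiable T.θ.2)
    refine UpperHalfPlane.mdifferentiable_iff.mpr ((hf.div hd ?_).congr ?_)
    · intro w hw
      exact T.dne _
    · intro w hw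
      rfl⟩

theorem hanM_apply (z : ℍ) : ((hanM T f : HolFun) : ℍ → ℂ) z = f z / D (T.θ : ℍ → ℂ) z := rfl

/-- `(g • Ψ) * D (g • θ) = f ∣[2] g⁻¹`. -/
theorem smul_hanM_mul (g : SL(2, ℤ)) :
    (g • hanM T f) * ((T.dtr g : cuspFnAlg M) : HolFun) = ((fslM f g : cuspFnAlg M) : HolFun) := by
  apply HolFun.ext
  intro z
  rw [HolFun.coe_mul_apply, HolFun.sl_smul_apply, hanM_apply, T.dtr_apply, fslM_apply]
  have := T.dne (g⁻¹ • z)
  field_simp

theorem smul_hanM_mem (g : SL(2, ℤ)) : g • hanM T f ∈ cuspFnAlg M :=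
  mem_cuspFnAlg_of_mul_eq (Nat.pos_of_ne_zero (NeZero.ne M)) (fslM f g).2 (T.dtr g).2
    (dtr_ne_zero' T g) (smul_hanM_mul T f g)

theorem hanM_inv (γ : SL(2, ℤ)) (hγ : γ ∈ Gamma0 M) : γ • hanM T f = hanM T f := by
  apply HolFun.ext
  intro z
  rw [HolFun.sl_smul_apply, hanM_apply, hanM_apply]
  obtain ⟨-, h2, -⟩ := (Fermat.Agent.S20.Free.isMF_iff (Γ := Gamma0 M) (k := 2)
    (f := (f : ℍ → ℂ))).mp ⟨f, rfl⟩
  have hγ' : γ⁻¹ ∈ Gamma0 M := inv_mem hγ
  have e1 := congrFun (h2 γ⁻¹ hγ') z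
  rw [ModularForm.SL_slash_apply] at e1
  have e2 : D (T.θ : ℍ → ℂ) (γ⁻¹ • z) * UpperHalfPlane.denom (γ⁻¹ : SL(2, ℤ)) z ^ (-(2 : ℤ))
      = D (T.θ : ℍ → ℂ) z := by
    have := congrFun (D_smul T.θ γ) z
    rw [T.inv γ hγ, ModularForm.SL_slash_apply] at this
    exact this.symm
  have hden : UpperHalfPlane.denom (γ⁻¹ : SL(2, ℤ)) z ^ (-(2 : ℤ)) ≠ 0 :=
    zpow_ne_zero _ (UpperHalfPlane.denom_ne_zero _ _)
  rw [← e1, ← e2, mul_div_mul_right _ _ hden]

theorem hanM_mem_growthAlg : hanM T f ∈ SymmFn.growthAlg :=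
  fun γ => (smul_hanM_mem T f γ).growth

/-- `Ψ` lies in the image of the analytic embedding of `ℂ(X₀(M))`. -/
theorem exists_embC_eq_hanM :
    ∃ x : SetupC.FC M, EmbedC.embC M x = algebraMap HolFun MerFun (hanM T f) := by
  have := (RangeC.mem_range_embC_iff M (algebraMap HolFun MerFun (hanM T f))).mpr ⟨?_, ?_⟩
  · exact this
  · intro γ hγ
    rw [MerFun.sl_smul_algebraMap, hanM_inv T f γ hγ]
  · intro g
    rw [MerFun.sl_smul_algebraMap]
    exact CuspOrd.isCuspMer_algebraMap (smul_hanM_mem T f g)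

theorem hanM_mem_perFun : hanM T f ∈ PerFun := by
  refine ⟨isPer_one_of_inv (hanM_inv T f), ?_⟩
  have := (smul_hanM_mem T f 1).growth
  rwa [one_smul] at this

theorem formM_isBounded : IsBoundedAtImInfty (f : ℍ → ℂ) := by
  have := (isCuspFn_slash_mf f 1).2
  rwa [SlashAction.slash_one] at this

theorem formM_mem_perFun : (⟨f, f.holo'⟩ : HolFun) ∈ PerFun := by
  refine ⟨?_, ModGrowth.of_isBoundedAtImInfty (formM_isBounded f)⟩
  obtain ⟨-, h2, -⟩ := (Fermat.Agent.S20.Free.isMF_iff (Γ := Gamma0 M) (k := 2)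
    (f := (f : ℍ → ℂ))).mp ⟨f, rfl⟩
  intro z
  have h1 := congrFun (h2 _ (T_mem_Gamma0 (M := M))) z
  rw [ModularForm.SL_slash_apply, ModularGroup.denom_apply] at h1
  have hT10 : (ModularGroup.T : SL(2, ℤ)) 1 0 = 0 := by simp [ModularGroup.T]
  have hT11 : (ModularGroup.T : SL(2, ℤ)) 1 1 = 1 := by simp [ModularGroup.T]
  rw [hT10, hT11, UpperHalfPlane.modular_T_smul] at h1
  simpa using h1

/-- **`q`-expansion of `Ψ`**: `Ψ * q dθ/dq = f` as Laurent series. -/
theorem qLaurent_hanM_mul :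
    qLaurent ⟨hanM T f, hanM_mem_perFun T f⟩ *
        (HahnSeries.single (1 : ℤ) (1 : ℂ) *
          Fermat.Agent.Lib.Residue.D (qLaurent ⟨T.θ, theta_mem_perFun T⟩)) =
      HahnSeries.ofPowerSeries ℤ ℂ (qExpansion 1 (f : ℍ → ℂ)) := by
  rw [← qLaurent_dPer, ← map_mul]
  have h1 : (⟨hanM T f, hanM_mem_perFun T f⟩ : PerFun) * dPer ⟨T.θ, theta_mem_perFun T⟩ =
      ⟨⟨f, f.holo'⟩, formM_mem_perFun f⟩ := by
    apply fn_injective
    funext z
    show (f z / D (T.θ : ℍ → ℂ) z) * D (T.θ : ℍ → ℂ) z = f z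
    exact div_mul_cancel₀ _ (T.dne z)
  rw [h1]
  exact qLaurent_of_bdd _ (formM_isBounded f)

/-- **Integrality over `ℂ[j]`** of the preimage of `Ψ` in the function field. -/
theorem exists_monic_relationM (x : SetupC.FC M)
    (hx : EmbedC.embC M x = algebraMap HolFun MerFun (hanM T f)) :
    ∃ (n : ℕ) (p : ℕ → Polynomial ℂ),
      x ^ n + ∑ i ∈ Finset.range n, Polynomial.aeval (SetupC.jF M) (p i) * x ^ i = 0 := by
  obtain ⟨p, hp1, hrel⟩ := SymmFn.exists_relation (Gamma0 M) (hanM T f) (hanM_inv T f)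
    (hanM_mem_growthAlg T f)
  refine ⟨(Gamma0 M).index, p, ?_⟩
  apply EmbedC.embC_injective M
  have hae : ∀ q : Polynomial ℂ, EmbedC.embC M (Polynomial.aeval (SetupC.jF M) q) =
      algebraMap HolFun MerFun (Polynomial.aeval jHol q) := fun q =>
    DegreeC.emb_aeval (EmbedC.embData M) q
  rw [map_add, map_pow, map_sum, map_zero, hx]
  simp only [map_mul, map_pow, hae, hx]
  rw [Finset.sum_range_succ, hp1, one_mul] at hrel
  have := congrArg (algebraMap HolFun MerFun) hrel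
  rw [map_add, map_sum, map_pow, map_zero] at this
  simp only [map_mul, map_pow] at this
  rw [add_comm]
  exact this

end Form

/-! ### The algebraic statements -/

section Alg

variable (A : FormsData M)
  (f : ModularForm ((Gamma0 M : Subgroup SL(2, ℤ)) : Subgroup (GL (Fin 2) ℝ)) 2)
  (qf : PowerSeries Kbar) (hqf : qExpansion 1 (f : ℍ → ℂ) = qf.map iota)

include hqf

/-- The base change of `Ψ = qf / G` to `ℂ` is the `q`-expansion of the analytic function
`f / D θ`. -/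
theorem coeffMap_hqM :
    coeffMap iota (hq A.tq qf) = qLaurent ⟨hanM A.hauptAn f, hanM_mem_perFun A.hauptAn f⟩ := by
  have h1 := qLaurent_hanM_mul A.hauptAn f
  rw [A.qLaurent_hauptAn, ← coeffMap_Gq, hqf, ← coeffMap_ofPowerSeries] at h1
  rw [hq, map_div₀, div_eq_iff A.coeffMap_Gq_ne_zero]
  exact h1.symm

/-- The preimage of `Ψ` in `ℂ(X₀(M))`. -/
theorem exists_xCM : ∃ x : SetupC.FC M,
    EmbedC.embC M x = algebraMap HolFun MerFun (hanM A.hauptAn f) ∧
      (x : LaurentSeries ℂ) = coeffMap iota (hq A.tq qf) := by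
  obtain ⟨x, hx⟩ := exists_embC_eq_hanM A.hauptAn f
  refine ⟨x, hx, ?_⟩
  rw [coeffMap_hqM A f qf hqf]
  exact (EmbedC.qLaurent_eq_of_embC_eq M x (hanM_mem_perFun A.hauptAn f) hx).symm

/-- **(α1)** `Ψ = qf / (q dt/dq)` lies in the function field `F_M`, for every weight two modular
form `f` on `Γ₀(M)` with `q`-expansion `qf`. -/
theorem hq_memM : hq A.tq qf ∈ modularFunctionFieldBar M := by
  obtain ⟨x, -, hx⟩ := exists_xCM A f qf hqf
  apply mem_bar_of_coeffMap_mem M
  rw [← hx]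
  exact x.2

/-- `Ψ` as an element of the function field. -/
def hFM : FF M := ⟨hq A.tq qf, hq_memM A f qf hqf⟩

/-- **(α2)** `Ψ` is integral over `K[j]`. -/
theorem hFM_isIntegral : IsIntegral (Algebra.adjoin Kbar {jF M}) (hFM A f qf hqf) := by
  obtain ⟨x, hx1, hx2⟩ := exists_xCM A f qf hqf
  obtain ⟨n, p, hrel⟩ := exists_monic_relationM A.hauptAn f x hx1
  exact isIntegral_of_relation M (hFM A f qf hqf) x hx2 n p hrel

/-- **(∞)** `Ψ * (q dt/dq) = qf`. -/
theorem hFM_mul_Gq : ((hFM A f qf hqf : FF M) : LaurentSeries Kbar) * Gq A.tq =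
    HahnSeries.ofPowerSeries ℤ Kbar qf :=
  A.hq_mul_Gq qf

end Alg

/-! ### (β): integrality of the `q`-expansion of `Ψ` over a subring -/

/-- The coefficients of a product of two Laurent series with coefficients in a subring lie in
that subring. -/
theorem coeff_mul_mem {K : Type*} [CommRing K] (R : Subring K) {x y : LaurentSeries K}
    (hx : ∀ n, x.coeff n ∈ R) (hy : ∀ n, y.coeff n ∈ R) (n : ℤ) : (x * y).coeff n ∈ R := by
  rw [HahnSeries.coeff_mul]
  exact R.sum_mem fun ij _ => R.mul_mem (hx _) (hy _)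

/-- **(β)** if `t` has an integral `q`-expansion `tqZ` such that `q dt/dq` has a unit lowest
coefficient, and the power series `qf` has coefficients in a subring `R` of `K`, then so has
`Ψ = qf / (q dt/dq)`. -/
theorem hq_coeff_mem (A : FormsData M) (tqZ : LaurentSeries ℤ)
    (htq : A.tq = coeffMap (Int.castRingHom Kbar) tqZ)
    (hu : IsUnit (HahnSeries.single (1 : ℤ) (1 : ℤ) *
      Fermat.Agent.Lib.Residue.D tqZ).leadingCoeff) (R : Subring Kbar) (qf : PowerSeries Kbar)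
    (hqf : ∀ n, PowerSeries.coeff n qf ∈ R) (n : ℤ) : (hq A.tq qf).coeff n ∈ R := by
  have hU : IsUnit (HahnSeries.single (1 : ℤ) (1 : ℤ) * Fermat.Agent.Lib.Residue.D tqZ) :=
    HahnSeries.isUnit_iff.mpr hu
  obtain ⟨u, hu'⟩ := hU
  have hG : coeffMap (Int.castRingHom Kbar)
      (HahnSeries.single (1 : ℤ) (1 : ℤ) * Fermat.Agent.Lib.Residue.D tqZ) = Gq A.tq := by
    rw [Gq, htq, map_mul, coeffMap_single, map_one, coeffMap_D]
  have h1 : hq A.tq qf = HahnSeries.ofPowerSeries ℤ Kbar qf *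
      coeffMap (Int.castRingHom Kbar) (↑u⁻¹ : LaurentSeries ℤ) := by
    rw [hq, div_eq_iff A.Gq_ne_zero, ← hG, ← hu', mul_assoc, ← map_mul, Units.inv_mul, map_one,
      mul_one]
  rw [h1]
  apply coeff_mul_mem R
  · intro m
    by_cases hm : 0 ≤ m
    · obtain ⟨k, rfl⟩ := Int.eq_ofNat_of_zero_le hm
      rw [HahnSeries.ofPowerSeries_apply_coeff]
      exact hqf k
    · have : (HahnSeries.ofPowerSeries ℤ Kbar qf).coeff m = 0 := by
        rw [HahnSeries.ofPowerSeries_apply]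
        apply HahnSeries.embDomain_of_notMem_range
        rintro ⟨k, hk⟩
        apply hm
        rw [← hk]
        exact Int.natCast_nonneg k
      rw [this]
      exact R.zero_mem
  · intro m
    rw [coeffMap_coeff]
    exact intCast_mem R _

/-! ### Packaged statement, with change of level -/

/-- **Packaged (α1) + (α2) + (∞), with change of level.**  `d ∣ M`, `A : FormsData M` (a function
`t ∈ F_M` with an analytic avatar whose derivative vanishes nowhere on `ℍ`), `G` a weight two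
modular form on `Γ₀(d)` whose `q`-expansion `qG` has coefficients in `K = ℚ̄`.  Then
`Ψ := qG / (q dt/dq)` is an element of `F_M`, integral over `K[j]`. -/
theorem exists_psi {d : ℕ} (hd : d ∣ M) (A : FormsData M)
    (G : ModularForm ((Gamma0 d : Subgroup SL(2, ℤ)) : Subgroup (GL (Fin 2) ℝ)) 2)
    (qG : PowerSeries Kbar) (hqG : qExpansion 1 (G : ℍ → ℂ) = qG.map iota) :
    ∃ Ψ : FF M, (Ψ : LaurentSeries Kbar) = hq A.tq qG ∧
      (Ψ : LaurentSeries Kbar) * Gq A.tq = HahnSeries.ofPowerSeries ℤ Kbar qG ∧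
      IsIntegral (Algebra.adjoin Kbar {jF M}) Ψ := by
  set G' : ModularForm ((Gamma0 M : Subgroup SL(2, ℤ)) : Subgroup (GL (Fin 2) ℝ)) 2 :=
    Fermat.Agent.S28.restrictLevel
      (Subgroup.map_mono (Fermat.Agent.Gateway.AuxLevel.Gamma0_le_Gamma0 hd)) G with hG'
  have hq' : qExpansion 1 (G' : ℍ → ℂ) = qG.map iota := by
    rw [hG', Fermat.Agent.S28.coe_restrictLevel]
    exact hqG
  exact ⟨hFM A G' qG hq', rfl, hFM_mul_Gq A G' qG hq', hFM_isIntegral A G' qG hq'⟩

end Fermat.Agent.S16.Two.PsiForm
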