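import Mathlib
import Fermat.Agent.S16.Two.PsiForm
import Fermat.Agent.Gateway.GoodRed.Forms.AuxData

/-!
# P-S16 (U2-DICT), instantiation at level `9p` with the Hauptmodul `y₉`

For a weight two modular form `G` on `Γ₀(d)` with rational `q`-expansion `∑ r_k q^k` and every
level `M` divisible by `9` and `d`, the Laurent series `Ψ = G(q) / (q dy₉/dq)` is an element of
the function field `F_M = modularFunctionFieldBar M`, integral over `ℚ̄[j]`, with coefficients in
every subring of `ℚ̄` containing the `r_k`.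
-/

set_option autoImplicit false

open UpperHalfPlane ModularCurve CongruenceSubgroup
open scoped MatrixGroups

noncomputable section

namespace Fermat.Agent.S16.Two.PsiNine

open Fermat.Agent.S24.Setup Fermat.Agent.Gateway.GoodRed.Forms Fermat.Agent.Gateway.AuxLevel

/-- The power series `∑ r_k q^k` over `ℚ̄`. -/
def qK (r : ℕ → ℚ) : PowerSeries Kbar := PowerSeries.mk fun k => algebraMap ℚ Kbar (r k)

@[simp] theorem coeff_qK (r : ℕ → ℚ) (k : ℕ) :
    PowerSeries.coeff k (qK r) = algebraMap ℚ Kbar (r k) := by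
  rw [qK, PowerSeries.coeff_mk]

/-- The `q`-expansion of a form with rational coefficients `r`. -/
theorem qExpansion_eq_map_qK {F : ℍ → ℂ} (r : ℕ → ℚ)
    (hr : ∀ k, ModularFormClass.qCoeff F k = (r k : ℂ)) :
    qExpansion 1 F = (qK r).map iota := by
  ext k
  rw [PowerSeries.coeff_map, coeff_qK]
  have h1 : iota (algebraMap ℚ Kbar (r k)) = algebraMap ℚ ℂ (r k) :=
    RingHom.congr_fun iota_comp_algebraMap (r k)
  rw [h1]
  exact hr k

/-- `θ y₉ = q dy₉/dq` over `ℚ̄`. -/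
def thetaY9 : LaurentSeries Kbar :=
  HahnSeries.single (1 : ℤ) (1 : Kbar) * Fermat.Agent.Lib.Residue.D L9.y9K

/-- **U2-DICT.**  `M` divisible by `9` and by `d`; `G` a weight two modular form on `Γ₀(d)` with
rational `q`-coefficients `r k`.  Then there is `Ψ ∈ F_M` with `Ψ * θ(y₉) = ∑ r_k q^k`, integral
over `ℚ̄[j]`, whose coefficients lie in every subring of `ℚ̄` containing all `r k`. -/
theorem exists_psi_nine {M d : ℕ} [NeZero M] (h9 : 9 ∣ M) (hd : d ∣ M)
    (G : ModularForm ((Gamma0 d : Subgroup SL(2, ℤ)) : Subgroup (GL (Fin 2) ℝ)) 2) (r : ℕ → ℚ)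
    (hr : ∀ k, ModularFormClass.qCoeff G k = (r k : ℂ)) :
    ∃ Ψ : FF M,
      (Ψ : LaurentSeries Kbar) * thetaY9 = HahnSeries.ofPowerSeries ℤ Kbar (qK r) ∧
      IsIntegral (Algebra.adjoin Kbar {jF M}) Ψ ∧
      ∀ R : Subring Kbar, (∀ k, algebraMap ℚ Kbar (r k) ∈ R) →
        ∀ n : ℤ, (Ψ : LaurentSeries Kbar).coeff n ∈ R := by
  obtain ⟨A, hA⟩ := exists_formsData 9 h9 no_elliptic_nine L9.y9K L9.y9K_mem L9.FF_nine_eq
    isIntegral_y9K
  obtain ⟨Ψ, h1, h2, h3⟩ := PsiForm.exists_psi hd A G (qK r) (qExpansion_eq_map_qK r hr)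
  refine ⟨Ψ, ?_, h3, ?_⟩
  · rw [thetaY9, ← hA]
    exact h2
  · intro R hR n
    rw [h1]
    exact PsiForm.hq_coeff_mem A L9.y9 hA L9.isUnit_leadingCoeff_y9 R (qK r)
      (fun k => by rw [coeff_qK]; exact hR k) n

end Fermat.Agent.S16.Two.PsiNine
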