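import Mathlib
import Fermat.Agent.S16.SD.Ramanujan
import Fermat.Agent.Gateway.AuxLevel.Level9Cusps
import Fermat.Agent.Lib.Residue.Basic
import Fermat.Agent.S16.Two.Annulus

set_option autoImplicit false

/-!
# WP-U2-QS: formal q-series identities for block U2 of P-S16

* `thetaL` : the derivation `θ = q d/dq` on Laurent series, with its calculus
  (`thetaL_mul`, `thetaL_pow_succ`, `thetaL_aeval`, `thetaL_qExpand`, `thetaL_ofPowerSeries`);
* `thetaL_jq` : `E₄ · θ j = - E₆ · j` in `ℤ((q))`;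
* `thetaL_y9` : `E₄(q⁹) · θ(y₉) · W9(y₉) = - 9 E₆(q⁹) · N9(y₉) · D9(y₉)`;
* `W9_eq`, `W9_mul_R4` : the Wronskian of `J9 = N9 / D9` in terms of `R4 = X (X³ - 24)`,
  `cusp27` and `numJ` of `Annulus.lean` (`R4` is the polynomial defined there, at `R = ℤ`).
-/

namespace Fermat.Agent.S16.Two

open Polynomial ModularCurve
open Fermat.Agent.S23.IntSeries Fermat.Agent.S16.SD Fermat.Agent.Gateway.AuxLevel

noncomputable section

/-- `θ = q d/dq` on Laurent series. -/
def thetaL {R : Type*} [CommRing R] (f : LaurentSeries R) : LaurentSeries R :=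
  HahnSeries.single (1 : ℤ) (1 : R) * Fermat.Agent.Lib.Residue.D f

section ThetaL

variable {R : Type*} [CommRing R]

open Fermat.Agent.Lib.Residue

theorem thetaL_coeff (f : LaurentSeries R) (n : ℤ) :
    (thetaL f).coeff n = (n : R) * f.coeff n := by
  rw [thetaL, coeff_single_mul', D_coeff, one_mul, sub_add_cancel]

@[simp] theorem thetaL_add (f g : LaurentSeries R) : thetaL (f + g) = thetaL f + thetaL g := by
  simp [thetaL, mul_add]

@[simp] theorem thetaL_zero : thetaL (0 : LaurentSeries R) = 0 := by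
  simp [thetaL]

@[simp] theorem thetaL_neg (f : LaurentSeries R) : thetaL (-f) = -thetaL f := by
  simp [thetaL]

@[simp] theorem thetaL_sub (f g : LaurentSeries R) : thetaL (f - g) = thetaL f - thetaL g := by
  simp [thetaL, mul_sub]

/-- Leibniz rule for `θ`. -/
theorem thetaL_mul (f g : LaurentSeries R) :
    thetaL (f * g) = thetaL f * g + f * thetaL g := by
  simp only [thetaL, D_mul]
  ring

theorem thetaL_one : thetaL (1 : LaurentSeries R) = 0 := by
  simp [thetaL, D_one]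

theorem thetaL_pow_succ (f : LaurentSeries R) (n : ℕ) :
    thetaL (f ^ (n + 1)) = ((n + 1 : ℕ) : LaurentSeries R) * f ^ n * thetaL f := by
  simp only [thetaL, D_pow]
  ring

theorem thetaL_intCast (a : ℤ) : thetaL ((a : LaurentSeries R)) = 0 := by
  ext n
  rw [thetaL_coeff]
  by_cases hn : n = 0
  · subst hn; simp
  · have : ((a : LaurentSeries R)).coeff n = 0 := by
      have h : ((a : LaurentSeries R)) = HahnSeries.C (a : R) := by simp
      rw [h, HahnSeries.C_apply, HahnSeries.coeff_single_of_ne hn]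
    rw [this, mul_zero, HahnSeries.coeff_zero]

theorem thetaL_intCast_mul (a : ℤ) (f : LaurentSeries R) :
    thetaL ((a : LaurentSeries R) * f) = (a : LaurentSeries R) * thetaL f := by
  rw [thetaL_mul, thetaL_intCast, zero_mul, zero_add]

/-- On power series `θ` is `SD.theta`. -/
theorem thetaL_ofPowerSeries (f : PowerSeries R) :
    thetaL (HahnSeries.ofPowerSeries ℤ R f) = HahnSeries.ofPowerSeries ℤ R (theta f) := by
  ext n
  rw [thetaL_coeff]
  rcases lt_or_ge n 0 with hn | hn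
  · rw [ofPowerSeries_coeff_of_neg _ hn, ofPowerSeries_coeff_of_neg _ hn, mul_zero]
  · lift n to ℕ using hn
    rw [HahnSeries.ofPowerSeries_apply_coeff, HahnSeries.ofPowerSeries_apply_coeff, coeff_theta]
    simp

/-- `θ (f(q^N)) = N (θ f)(q^N)`. -/
theorem thetaL_qExpand (N : ℕ) [NeZero N] (f : LaurentSeries R) :
    thetaL (qExpand R N f) = (N : LaurentSeries R) * qExpand R N (thetaL f) := by
  have hN : ((N : LaurentSeries R)) = HahnSeries.C (N : R) := by simp
  ext k
  rw [thetaL_coeff, hN, HahnSeries.C_mul_eq_smul, HahnSeries.coeff_smul, smul_eq_mul]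
  by_cases hk : (N : ℤ) ∣ k
  · obtain ⟨m, rfl⟩ := hk
    rw [qExpand_coeff_mul, qExpand_coeff_mul, thetaL_coeff]
    push_cast
    ring
  · rw [qExpand_coeff_of_not_dvd N _ hk, qExpand_coeff_of_not_dvd N _ hk, mul_zero, mul_zero]

end ThetaL

/-- Chain rule for `θ` and integer polynomials. -/
theorem thetaL_aeval (f : LaurentSeries ℤ) (P : ℤ[X]) :
    thetaL (aeval f P) = aeval f (derivative P) * thetaL f := by
  induction P using Polynomial.induction_on' with
  | add p q hp hq => simp only [map_add, thetaL_add, hp, hq, add_mul]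
  | monomial n a =>
    rw [← C_mul_X_pow_eq_monomial]
    cases n with
    | zero =>
      simp only [pow_zero, mul_one, aeval_C, derivative_C, map_zero, zero_mul]
      have : algebraMap ℤ (LaurentSeries ℤ) a = ((a : ℤ) : LaurentSeries ℤ) := by simp
      rw [this, thetaL_intCast]
    | succ n =>
      simp only [map_mul, aeval_C, map_pow, aeval_X, derivative_mul, derivative_C, zero_mul,
        zero_add, derivative_X_pow, map_natCast, Nat.add_sub_cancel]
      have : algebraMap ℤ (LaurentSeries ℤ) a = ((a : ℤ) : LaurentSeries ℤ) := by simp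
      rw [this, thetaL_intCast_mul, thetaL_pow_succ]
      push_cast
      ring

/-- the polynomials of the level 9 relation `j(q⁹) = N9(y)/D9(y)`. -/
def N9 : ℤ[X] := X ^ 3 * (X ^ 3 - 24) ^ 3
def D9 : ℤ[X] := X ^ 3 - 27
def W9 : ℤ[X] := derivative N9 * D9 - N9 * derivative D9

local notation "ι" => HahnSeries.ofPowerSeries ℤ ℤ

theorem E4Z_eq_one_add : E4Z = 1 + 8 * (30 * sigmaSeries 3) := by
  rw [E4Z]
  ring

theorem E6Z_eq_one_sub : E6Z = 1 - 8 * (63 * sigmaSeries 5) := by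
  rw [E6Z]
  ring

/-! ### Identification of the Prelude series with the `S23.IntSeries` ones -/

namespace QS

theorem eisenstein4_eq_E4Z : eisenstein4 = E4Z := by
  ext n
  rw [coeff_E4Z, eisenstein4, PowerSeries.coeff_mk]
  split_ifs with h
  · rfl
  · rw [ArithmeticFunction.sigma_apply]
    push_cast
    rfl

theorem DeltaZ_eq : DeltaZ = PowerSeries.X * dedekindEtaUnit := by
  apply map_injective_int_complex
  rw [← Fermat.Agent.S23.IntSeries.qExpansion_discriminant]
  exact Fermat.Agent.S28.H2.deltaBridge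

/-- `θ Δ = E₂ Δ` over `ℤ`. -/
theorem theta_DeltaZ : theta DeltaZ = E2Z * DeltaZ := by
  have h4 := ramanujanZ.r4
  have h6 := ramanujanZ.r6
  have hΔ := E4Z_cube_sub_E6Z_sq
  have h1 : theta (E4Z ^ 3 - E6Z ^ 2) = theta (1728 * DeltaZ) := by rw [hΔ]
  rw [theta_sub, theta_pow, theta_pow] at h1
  have h1728 : theta ((1728 : PowerSeries ℤ) * DeltaZ) = 1728 * theta DeltaZ := by
    have : (1728 : PowerSeries ℤ) = PowerSeries.C (1728 : ℤ) := by
      simp
    rw [this, theta_C_mul]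
  rw [h1728] at h1
  have h2 : (1728 : PowerSeries ℤ) * theta DeltaZ = 1728 * (E2Z * DeltaZ) := by
    rw [← h1]
    have e1 : ((3 : ℕ) : PowerSeries ℤ) * E4Z ^ (3 - 1) * theta E4Z =
        E4Z ^ 2 * (3 * theta E4Z) := by
      norm_num; ring
    have e2 : ((2 : ℕ) : PowerSeries ℤ) * E6Z ^ (2 - 1) * theta E6Z =
        E6Z * (2 * theta E6Z) := by
      norm_num; ring
    rw [e1, e2, h4, h6]
    linear_combination E2Z * hΔ
  have h1728' : (1728 : PowerSeries ℤ) ≠ 0 := by
    intro h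
    have := congrArg (PowerSeries.constantCoeff (R := ℤ)) h
    rw [map_ofNat] at this
    norm_num at this
  exact mul_left_cancel₀ h1728' h2

/-- `Δ · j = E₄³` in `ℤ((q))`. -/
theorem DeltaZ_mul_jq : ι DeltaZ * jqModC ℤ = ι E4Z ^ 3 := by
  rw [Fermat.Agent.S28.H2.jqModC_int, DeltaZ_eq, ← eisenstein4_eq_E4Z, ← map_pow,
    ← L4.eta_mul_jNum, map_mul, map_mul]
  have h := Fermat.Agent.S28.H2.qInv_mul_X
  linear_combination (ι dedekindEtaUnit * ι jNum) * h

theorem ofPowerSeries_DeltaZ_ne_zero : ι DeltaZ ≠ 0 := by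
  intro h
  have h1 : (ι DeltaZ).coeff ((1 : ℕ) : ℤ) = 1 := by
    rw [HahnSeries.ofPowerSeries_apply_coeff, coeff_one_DeltaZ]
  rw [h] at h1
  simp at h1

end QS

open QS

/-- (QS2) `θ j = - j E₆/E₄` as an identity of integral Laurent series. -/
theorem thetaL_jq : ι E4Z * thetaL (jqModC ℤ) = -(ι E6Z * jqModC ℤ) := by
  have hJ := DeltaZ_mul_jq
  have h1 : thetaL (ι DeltaZ * jqModC ℤ) = thetaL (ι E4Z ^ 3) := by rw [hJ]
  rw [thetaL_mul, thetaL_pow_succ, thetaL_ofPowerSeries, thetaL_ofPowerSeries, theta_DeltaZ,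
    map_mul] at h1
  have h4 : (3 : LaurentSeries ℤ) * ι (theta E4Z) = ι E2Z * ι E4Z - ι E6Z := by
    have := congrArg ι ramanujanZ.r4
    rw [map_mul, map_sub, map_mul] at this
    rw [← this]
    congr 1
    exact (map_ofNat ι 3).symm
  apply mul_left_cancel₀ ofPowerSeries_DeltaZ_ne_zero
  push_cast at h1
  linear_combination (ι E4Z) * h1 + (ι E4Z) ^ 3 * h4 + (ι E6Z - ι E2Z * ι E4Z) * hJ

/-- the level 9 relation `j(q⁹) · D9(y₉) = N9(y₉)`. -/
theorem jq9_rel : qExpand ℤ 9 (jqModC ℤ) * aeval L9.y9 D9 = aeval L9.y9 N9 := by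
  have h := L9.jq9_y9'
  simp only [N9, D9, map_mul, map_pow, map_sub, aeval_X, map_ofNat]
  exact h

/-- `E₄(q⁹) · (θ j)(q⁹) = - E₆(q⁹) · j(q⁹)`. -/
theorem thetaL_jq9 :
    ι (PowerSeries.expand 9 (by norm_num) E4Z) * qExpand ℤ 9 (thetaL (jqModC ℤ)) =
      -(ι (PowerSeries.expand 9 (by norm_num) E6Z) * qExpand ℤ 9 (jqModC ℤ)) := by
  have := congrArg (qExpand ℤ 9) thetaL_jq
  rw [map_mul, map_neg, map_mul, Fermat.Agent.S28.H2.qExpand_ofPowerSeries,
    Fermat.Agent.S28.H2.qExpand_ofPowerSeries] at this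
  exact this

/-- (QS3) the formula for `θ y₉`. -/
theorem thetaL_y9 :
    ι (PowerSeries.expand 9 (by norm_num) E4Z) * thetaL L9.y9 * aeval L9.y9 W9 =
      -(9 * ι (PowerSeries.expand 9 (by norm_num) E6Z) * aeval L9.y9 N9 * aeval L9.y9 D9) := by
  have hrel := jq9_rel
  have hd : thetaL (qExpand ℤ 9 (jqModC ℤ) * aeval L9.y9 D9) = thetaL (aeval L9.y9 N9) := by
    rw [hrel]
  rw [thetaL_mul, thetaL_aeval, thetaL_aeval] at hd
  have hθ := thetaL_qExpand (R := ℤ) 9 (jqModC ℤ)
  have hE := thetaL_jq9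
  have hW : aeval L9.y9 W9 = aeval L9.y9 (derivative N9) * aeval L9.y9 D9 -
      aeval L9.y9 N9 * aeval L9.y9 (derivative D9) := by
    simp only [W9, map_sub, map_mul]
  rw [hW]
  push_cast at hθ
  linear_combination
    (-(ι (PowerSeries.expand 9 (by norm_num) E4Z)) * aeval L9.y9 D9) * hd +
    (ι (PowerSeries.expand 9 (by norm_num) E4Z) * aeval L9.y9 (derivative D9) * thetaL L9.y9
      - 9 * ι (PowerSeries.expand 9 (by norm_num) E6Z) * aeval L9.y9 D9) * hrel +
    (ι (PowerSeries.expand 9 (by norm_num) E4Z) * (aeval L9.y9 D9) ^ 2) * hθ +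
    (9 * (aeval L9.y9 D9) ^ 2) * hE

/-- the Wronskian in terms of `R4`: `W9 = 3 R4^2 * (R4' D9 - ...)`:
`J9'/J9 = 3 R4'/R4 - D9'/D9`. -/
theorem W9_eq : W9 * (X : ℤ[X]) * (X ^ 3 - 24) =
    N9 * (3 * derivative R4 * D9 - R4 * derivative D9) := by
  have hC3 : (C (3 : ℤ) : ℤ[X]) = 3 := by simp
  have hC4 : (C (4 : ℤ) : ℤ[X]) = 4 := by simp
  have hC24 : (C (24 : ℤ) : ℤ[X]) = 24 := by simp
  simp only [W9, N9, D9, R4, derivative_mul, derivative_pow, derivative_sub, derivative_X,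
    derivative_ofNat, derivative_C]
  push_cast
  rw [hC3, hC4, hC24]
  ring

/-- `R4 = X (X³ - 24)` (the `R4` of `Annulus.lean` at `R = ℤ`). -/
theorem R4_eq : (R4 : ℤ[X]) = X * (X ^ 3 - 24) := by
  have hC24 : (C (24 : ℤ) : ℤ[X]) = 24 := by simp
  rw [R4, hC24]
  ring

/-- `N9 = R4 ^ 3`. -/
theorem N9_eq_R4_pow : N9 = R4 ^ 3 := by
  rw [R4_eq, N9]
  ring

/-- `D9` is the cusp polynomial `cusp27` of `Annulus.lean`. -/
theorem D9_eq_cusp27 : D9 = cusp27 := by
  have hC27 : (C (27 : ℤ) : ℤ[X]) = 27 := by simp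
  rw [D9, cusp27, hC27]

/-- The Wronskian of `J9 = N9 / D9` in terms of the polynomials of `Annulus.lean`:
`J9'/J9 = W9 / (N9 D9) = numJ / (R4 cusp27)`. -/
theorem W9_mul_R4 : W9 * R4 = N9 * numJ := by
  have hC3 : (C (3 : ℤ) : ℤ[X]) = 3 := by simp
  have hC4 : (C (4 : ℤ) : ℤ[X]) = 4 := by simp
  have hC24 : (C (24 : ℤ) : ℤ[X]) = 24 := by simp
  have hC27 : (C (27 : ℤ) : ℤ[X]) = 27 := by simp
  simp only [W9, N9, D9, R4, numJ, cusp27, derivative_mul, derivative_pow, derivative_sub,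
    derivative_X, derivative_ofNat, derivative_C]
  push_cast
  rw [hC3, hC4, hC24, hC27]
  ring

end

end Fermat.Agent.S16.Two
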