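import Mathlib
import Fermat.Agent.S16.Two.PsiNine
import Fermat.Agent.S16.Two.QSeries
import Fermat.Agent.Gateway.GoodRed.GaussBar
import Fermat.Agent.S16.Defs

/-!
# P-S16 block U2, input (I2): the function `H = G_q · E₄(q⁹) / E₆(q⁹)` of level `M`

(helper80; plan: team note 775, statement: helper15's msg 5381 with a VARIABLE level `M`,
`9 ∣ M`, `p ∣ M`.)

Let `G` be a weight two modular form on `Γ₀(p)` with rational `2`-integral `q`-expansion
`G_q = ∑ r_k q^k`, `r_0 = 1`, `8 ∣ r_k` for `k ≥ 1`.  With `Ψ = G_q / θ y₉ ∈ F_M`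
(`PsiNine.exists_psi_nine`) and the formula `E₄(q⁹) θy₉ numJ(y₉) = -9 E₆(q⁹) R4(y₉) cusp27(y₉)`
(`QSeries.thetaL_y9`, `W9_mul_R4`) put `H := -9 Ψ R4(y₉) cusp27(y₉) / numJ(y₉) ∈ F_M`.  Then

* `H · E₆(q⁹) = G_q · E₄(q⁹)` as Laurent series, hence `H = 1 + 8 w` with `w` having coefficients
  in every valuation ring `A` of `ℚ̄` above `2` (`HForm.sub_one_div_mem`);
* `H · numJ(y₉)/(R4(y₉) cusp27(y₉)) = -9 Ψ` is integral over `ℚ̄[j]`.

Main results: `exists_H_w`, `exists_H_w_of_not_noUnitForm`.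
-/

set_option autoImplicit false

namespace Fermat.Agent.S16.Two

open Polynomial ModularCurve
open Fermat.Agent.S24.Setup Fermat.Agent.Gateway.AuxLevel Fermat.Agent.Gateway.Red
open Fermat.Agent.S23.IntSeries Fermat.Agent.S16.SD

noncomputable section

local notation "cK" => coeffMap (Int.castRingHom Kbar)
local notation "ιZ" => HahnSeries.ofPowerSeries ℤ ℤ
local notation "ιK" => HahnSeries.ofPowerSeries ℤ Kbar

namespace HForm


/-- `E₄(q⁹)`, `E₆(q⁹)` over `ℚ̄`. -/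
def E4K9 : PowerSeries Kbar :=
  (PowerSeries.expand 9 (by norm_num) E4Z).map (Int.castRingHom Kbar)

def E6K9 : PowerSeries Kbar :=
  (PowerSeries.expand 9 (by norm_num) E6Z).map (Int.castRingHom Kbar)

theorem cK_thetaL (x : LaurentSeries ℤ) : cK (thetaL x) = thetaL (cK x) := by
  rw [thetaL, thetaL, map_mul, coeffMap_single, map_one,
    Fermat.Agent.Gateway.GoodRed.Forms.coeffMap_D]

theorem thetaY9_eq : PsiNine.thetaY9 = thetaL L9.y9K := rfl

theorem map_R4 : (R4 : ℤ[X]).map (Int.castRingHom Kbar) = (R4 : Kbar[X]) := by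
  simp only [R4, Polynomial.map_sub, Polynomial.map_mul, Polynomial.map_pow, map_X,
    map_ofNat, Polynomial.map_ofNat]

theorem map_cusp27 : (cusp27 : ℤ[X]).map (Int.castRingHom Kbar) = (cusp27 : Kbar[X]) := by
  simp only [cusp27, Polynomial.map_sub, Polynomial.map_pow, map_X,
    map_ofNat, Polynomial.map_ofNat]

theorem map_numJ : (numJ : ℤ[X]).map (Int.castRingHom Kbar) = (numJ : Kbar[X]) := by
  simp only [numJ, Polynomial.map_sub, Polynomial.map_mul, Polynomial.map_pow, map_X,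
    ← Polynomial.derivative_map, map_R4, map_cusp27, map_ofNat, Polynomial.map_ofNat]

/-- the `θ y₉` formula over `ℚ̄`. -/
theorem thetaL_y9K :
    ιK E4K9 * thetaL L9.y9K * aeval L9.y9K (W9.map (Int.castRingHom Kbar)) =
      -(9 * ιK E6K9 * aeval L9.y9K (N9.map (Int.castRingHom Kbar)) *
        aeval L9.y9K (D9.map (Int.castRingHom Kbar))) := by
  have h := congrArg cK thetaL_y9
  simp only [map_mul, map_neg, coeffMap_ofPowerSeries, cK_thetaL,
    Fermat.Agent.S28.CruxInstance.coeffMap_aeval, map_ofNat] at h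
  exact h

theorem coeff_y9K_neg_one : L9.y9K.coeff (-1) = 1 := by
  rw [L9.y9K, coeffMap_coeff, L9.y9]
  have : (Fermat.Agent.S28.H2.qInv * ιZ L9.u9).coeff (-1) = 1 := by
    rw [Fermat.Agent.S28.H2.qInv, HahnSeries.coeff_single_mul, one_mul, sub_self,
      show (0 : ℤ) = ((0 : ℕ) : ℤ) from rfl, HahnSeries.ofPowerSeries_apply_coeff,
      PowerSeries.coeff_zero_eq_constantCoeff_apply, L9.constantCoeff_u9]
  rw [this]
  simp

theorem transcendental_y9K : Transcendental Kbar L9.y9K := by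
  apply Fermat.Agent.S28.transcendental_of_order_neg
  have h : L9.y9K.coeff (-1) ≠ 0 := by rw [coeff_y9K_neg_one]; exact one_ne_zero
  exact lt_of_le_of_lt (HahnSeries.order_le_of_coeff_ne_zero h) (by norm_num)

theorem aeval_y9K_ne_zero {P : Kbar[X]} (hP : P ≠ 0) : aeval L9.y9K P ≠ 0 := fun h =>
  transcendental_y9K ⟨P, hP, h⟩

theorem numJ_ne_zero : (numJ : Kbar[X]) ≠ 0 := by
  intro h
  have h1 : (numJ : Kbar[X]).eval 0 = 1944 := by
    simp only [numJ, cusp27, R4, eval_sub, eval_mul, eval_C, eval_pow, eval_X]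
    norm_num
  rw [h, eval_zero] at h1
  norm_num at h1

/-- `E₄(q⁹) · θ y₉ · numJ(y₉) = - 9 E₆(q⁹) R4(y₉) cusp27(y₉)`. -/
theorem thetaL_y9K_numJ :
    ιK E4K9 * thetaL L9.y9K * aeval L9.y9K (numJ : Kbar[X]) =
      -(9 * ιK E6K9 * aeval L9.y9K (R4 : Kbar[X]) * aeval L9.y9K (cusp27 : Kbar[X])) := by
  have hθ := thetaL_y9K
  have hW : aeval L9.y9K (W9.map (Int.castRingHom Kbar)) * aeval L9.y9K (R4 : Kbar[X]) =
      aeval L9.y9K (R4 : Kbar[X]) ^ 3 * aeval L9.y9K (numJ : Kbar[X]) := by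
    have h := congrArg (fun P : ℤ[X] => aeval L9.y9K (P.map (Int.castRingHom Kbar))) W9_mul_R4
    simp only [Polynomial.map_mul, map_mul, map_R4, map_numJ, N9_eq_R4_pow, Polynomial.map_pow,
      map_pow] at h
    exact h
  rw [N9_eq_R4_pow, D9_eq_cusp27, Polynomial.map_pow, map_R4, map_cusp27, map_pow] at hθ
  have hr4 : aeval L9.y9K (R4 : Kbar[X]) ≠ 0 := aeval_y9K_ne_zero R4_monic.ne_zero
  apply mul_left_cancel₀ (pow_ne_zero 3 hr4)
  linear_combination (aeval L9.y9K (R4 : Kbar[X])) * hθ - (ιK E4K9 * thetaL L9.y9K) * hW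

section Integrality

variable (A : ValuationSubring Kbar)

theorem cK_mem_intLS (z : LaurentSeries ℤ) : cK z ∈ intLS A := by
  rw [mem_intLS_iff_coeff]
  intro n
  rw [coeffMap_coeff]
  exact intCast_mem A _

theorem ofPowerSeries_map_mem_intLS (f : PowerSeries ℤ) :
    ιK (f.map (Int.castRingHom Kbar)) ∈ intLS A := by
  rw [← coeffMap_ofPowerSeries]
  exact cK_mem_intLS A _

theorem valuation_natCast_of_odd (h2A : A.valuation (2 : Kbar) < 1) {n : ℕ} (hn : ¬ 2 ∣ n) :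
    A.valuation (n : Kbar) = 1 := by
  obtain ⟨t, rfl⟩ : ∃ t, n = 2 * t + 1 := by
    have : n % 2 = 1 := by omega
    exact ⟨n / 2, by omega⟩
  push_cast
  have ht : A.valuation (t : Kbar) ≤ 1 := (A.valuation_le_one_iff _).mpr (natCast_mem A t)
  have h1 : A.valuation ((2 : Kbar) * t) < A.valuation (1 : Kbar) := by
    rw [map_mul, map_one]
    calc A.valuation (2 : Kbar) * A.valuation (t : Kbar) ≤ A.valuation (2 : Kbar) * 1 := by
          gcongr
      _ < 1 := by rwa [mul_one]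
  rw [Valuation.map_add_eq_of_lt_right _ h1, map_one]

theorem ratCast_div_mem (h2A : A.valuation (2 : Kbar) < 1) {r : ℚ} (hden : ¬ 2 ∣ r.den)
    (h8 : (2 : ℤ) ^ 3 ∣ r.num) : algebraMap ℚ Kbar (r / 8) ∈ A := by
  obtain ⟨m, hm⟩ := h8
  have hr : r / 8 = (m : ℚ) / (r.den : ℚ) := by
    have hd : (r.den : ℚ) ≠ 0 := Nat.cast_ne_zero.mpr r.den_ne_zero
    have hm' : (r.num : ℚ) = 8 * m := by rw [hm]; push_cast; norm_num
    rw [div_eq_div_iff (by norm_num) hd, Rat.mul_den_eq_num, hm']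
    ring
  rw [hr, map_div₀, map_intCast, map_natCast, div_eq_mul_inv]
  refine mul_mem (intCast_mem A m) ?_
  rw [← A.valuation_le_one_iff, map_inv₀, valuation_natCast_of_odd A h2A hden, inv_one]

end Integrality


section Key

variable (A : ValuationSubring Kbar)

/-- `∑_{k ≥ 1} (r_k / 8) q^k`. -/
def gK (r : ℕ → ℚ) : PowerSeries Kbar :=
  PowerSeries.mk fun k => if k = 0 then 0 else algebraMap ℚ Kbar (r k / 8)

theorem qK_eq (r : ℕ → ℚ) (h0 : r 0 = 1) :
    ιK (PsiNine.qK r) = 1 + 8 * ιK (gK r) := by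
  have h : PsiNine.qK r = 1 + PowerSeries.C (8 : Kbar) * gK r := by
    ext k
    rw [PsiNine.coeff_qK, map_add, PowerSeries.coeff_one, PowerSeries.coeff_C_mul, gK,
      PowerSeries.coeff_mk]
    split_ifs with hk
    · rw [hk, h0, map_one, mul_zero, add_zero]
    · rw [zero_add, map_div₀, map_ofNat, mul_div_cancel₀ _ (by norm_num : (8 : Kbar) ≠ 0)]
  rw [h, map_add, map_one, map_mul, HahnSeries.ofPowerSeries_C, map_ofNat]

theorem gK_mem (h2A : A.valuation (2 : Kbar) < 1) (r : ℕ → ℚ) (hden : ∀ k, ¬ 2 ∣ (r k).den)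
    (h8 : ∀ k, 1 ≤ k → (2 : ℤ) ^ 3 ∣ (r k).num) : ιK (gK r) ∈ intLS A := by
  rw [mem_intLS_iff_coeff]
  intro n
  rcases lt_or_ge n 0 with hn | hn
  · rw [ofPowerSeries_coeff_of_neg _ hn]
    exact zero_mem A
  · lift n to ℕ using hn
    rw [HahnSeries.ofPowerSeries_apply_coeff, gK, PowerSeries.coeff_mk]
    split_ifs with hk
    · exact zero_mem A
    · exact ratCast_div_mem A h2A (hden n) (h8 n (Nat.one_le_iff_ne_zero.mpr hk))

/-- the `q⁹`-expanded corrections: `E₄(q⁹) = 1 + 8 a`, `E₆(q⁹) = 1 - 8 b`. -/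
def aZ : PowerSeries ℤ := PowerSeries.expand 9 (by norm_num) (30 * sigmaSeries 3)

def bZ : PowerSeries ℤ := PowerSeries.expand 9 (by norm_num) (63 * sigmaSeries 5)

/-- the inverse of `E₆(q⁹)` over `ℤ`. -/
def eZ : PowerSeries ℤ := PowerSeries.invOfUnit (PowerSeries.expand 9 (by norm_num) E6Z) 1

theorem E4K9_eq : ιK E4K9 = 1 + 8 * ιK (aZ.map (Int.castRingHom Kbar)) := by
  rw [E4K9, aZ, E4Z_eq_one_add]
  simp only [map_add, map_one, map_mul, map_ofNat]

theorem E6K9_eq : ιK E6K9 = 1 - 8 * ιK (bZ.map (Int.castRingHom Kbar)) := by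
  rw [E6K9, bZ, E6Z_eq_one_sub]
  simp only [map_sub, map_one, map_mul, map_ofNat]

theorem E6K9_mul_eZ : ιK E6K9 * ιK (eZ.map (Int.castRingHom Kbar)) = 1 := by
  have h : PowerSeries.expand 9 (by norm_num) E6Z * eZ = 1 := by
    apply PowerSeries.mul_invOfUnit
    rw [PowerSeries.constantCoeff_expand, constantCoeff_E6Z]
    rfl
  rw [E6K9, ← map_mul, ← map_mul, h, map_one, map_one]

/-- **Key congruence.**  If `H · E₆(q⁹) = G_q · E₄(q⁹)` with `G_q ≡ 1 mod 8`, then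
`(H - 1) / 8` has `A`-integral coefficients. -/
theorem sub_one_div_mem (h2A : A.valuation (2 : Kbar) < 1) (r : ℕ → ℚ)
    (hden : ∀ k, ¬ 2 ∣ (r k).den) (h0 : r 0 = 1) (h8 : ∀ k, 1 ≤ k → (2 : ℤ) ^ 3 ∣ (r k).num)
    {HL : LaurentSeries Kbar} (hH : HL * ιK E6K9 = ιK (PsiNine.qK r) * ιK E4K9) :
    (HL - 1) / 8 ∈ intLS A := by
  have hg := gK_mem A h2A r hden h8
  have ha := ofPowerSeries_map_mem_intLS A aZ
  have hb := ofPowerSeries_map_mem_intLS A bZ
  have he := ofPowerSeries_map_mem_intLS A eZ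
  have he1 := E6K9_mul_eZ
  rw [qK_eq r h0, E4K9_eq, E6K9_eq] at hH
  rw [E6K9_eq] at he1
  have h8' : (8 : LaurentSeries Kbar) ≠ 0 := by
    intro h
    have := congrArg (fun x : LaurentSeries Kbar => x.coeff 0) h
    simp only [HahnSeries.coeff_zero] at this
    rw [show (8 : LaurentSeries Kbar) = HahnSeries.C (8 : Kbar) from (map_ofNat _ 8).symm,
      HahnSeries.C_apply, HahnSeries.coeff_single_same] at this
    norm_num at this
  have hw : (HL - 1) / 8 = (ιK (gK r) + ιK (aZ.map (Int.castRingHom Kbar)) +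
      8 * ιK (gK r) * ιK (aZ.map (Int.castRingHom Kbar)) + ιK (bZ.map (Int.castRingHom Kbar))) *
        ιK (eZ.map (Int.castRingHom Kbar)) := by
    rw [div_eq_iff h8']
    linear_combination (ιK (eZ.map (Int.castRingHom Kbar))) * hH + (1 - HL) * he1
  rw [hw]
  exact mul_mem (add_mem (add_mem (add_mem hg ha) (mul_mem (mul_mem (ofNat_mem _ 8) hg) ha)) hb) he

end Key

end HForm

open HForm in
/-- **(I2) of block U2.**  For a weight two form `G` on `Γ₀(p)` with `2`-integral rational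
`q`-expansion `≡ 1 mod 8`, the function `H = G_q E₄(q⁹)/E₆(q⁹)` of level `M` (`9 ∣ M`, `p ∣ M`)
is `1 + 8 w` with `w` Gauss-integral, and `H · numJ(y₉)/(R4(y₉) cusp27(y₉)) = -9 Ψ` is integral
over `ℚ̄[j]`. -/
theorem exists_H_w {M p : ℕ} [NeZero M] (h9 : 9 ∣ M) (hp : p ∣ M)
    (A : ValuationSubring Kbar) {κ : Type*} [Field κ] (π : ↥A →+* κ)
    (h2A : A.valuation (2 : Kbar) < 1)
    (G : ModularForm ((CongruenceSubgroup.Gamma0 p : Subgroup (Matrix.SpecialLinearGroup (Fin 2) ℤ)) :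
      Subgroup (GL (Fin 2) ℝ)) 2) (r : ℕ → ℚ)
    (hr : ∀ k, ModularFormClass.qCoeff G k = (r k : ℂ)) (hden : ∀ k, ¬ 2 ∣ (r k).den)
    (h0 : r 0 = 1) (h8 : ∀ k, 1 ≤ k → (2 : ℤ) ^ 3 ∣ (r k).num) :
    ∃ H w : FF M, ((w : FF M) : LaurentSeries Kbar) ∈ gaussRing A π ∧ H = 1 + 8 * w ∧
      IsIntegral (Algebra.adjoin Kbar {jF M})
        (H * (aeval (⟨L9.y9K, L9.y9K_mem_of_dvd h9⟩ : FF M) (numJ : Kbar[X]) /
          (aeval (⟨L9.y9K, L9.y9K_mem_of_dvd h9⟩ : FF M) (R4 : Kbar[X]) *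
            aeval (⟨L9.y9K, L9.y9K_mem_of_dvd h9⟩ : FF M) (cusp27 : Kbar[X])))) := by
  obtain ⟨Ψ, hΨ, hΨint, -⟩ := PsiNine.exists_psi_nine h9 hp G r hr
  set yF : FF M := ⟨L9.y9K, L9.y9K_mem_of_dvd h9⟩ with hyF
  have hcoe : ∀ P : Kbar[X], ((aeval yF P : FF M) : LaurentSeries Kbar) = aeval L9.y9K P := by
    intro P
    exact (Polynomial.aeval_algHom_apply (modularFunctionFieldBar M).val yF P).symm
  have hne : ∀ P : Kbar[X], P ≠ 0 → aeval yF P ≠ 0 := by
    intro P hP h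
    apply aeval_y9K_ne_zero hP
    rw [← hcoe, h]
    rfl
  have hnj := hne _ numJ_ne_zero
  have hr4 := hne _ (R4_monic (R := Kbar)).ne_zero
  have hc27 := hne _ (cusp27_monic (R := Kbar)).ne_zero
  set H : FF M := -9 * Ψ * (aeval yF (R4 : Kbar[X]) * aeval yF (cusp27 : Kbar[X])) /
    aeval yF (numJ : Kbar[X]) with hH
  refine ⟨H, (H - 1) / 8, ?_, ?_, ?_⟩
  · apply intLS_le_gaussRing
    have hHL : (H : LaurentSeries Kbar) * ιK E6K9 = ιK (PsiNine.qK r) * ιK E4K9 := by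
      have hid := thetaL_y9K_numJ
      rw [thetaY9_eq] at hΨ
      have hnjL : aeval L9.y9K (numJ : Kbar[X]) ≠ 0 := aeval_y9K_ne_zero numJ_ne_zero
      have h9c : ((9 : FF M) : LaurentSeries Kbar) = 9 :=
        map_ofNat (modularFunctionFieldBar M).val 9
      rw [hH]
      push_cast
      rw [hcoe, hcoe, hcoe, h9c, div_mul_eq_mul_div, div_eq_iff hnjL]
      linear_combination (-(Ψ : LaurentSeries Kbar)) * hid +
        (ιK E4K9 * aeval L9.y9K (numJ : Kbar[X])) * hΨ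
    have := sub_one_div_mem A h2A r hden h0 h8 hHL
    push_cast
    exact this
  · rw [mul_div_cancel₀ _ (by norm_num : (8 : FF M) ≠ 0)]
    ring
  · have h1 : H * (aeval yF (numJ : Kbar[X]) /
        (aeval yF (R4 : Kbar[X]) * aeval yF (cusp27 : Kbar[X]))) = -9 * Ψ := by
      rw [hH]
      field_simp
    rw [h1]
    have h9int : IsIntegral (Algebra.adjoin Kbar {jF M}) (-9 : FF M) := by
      have : (-9 : FF M) = algebraMap (Algebra.adjoin Kbar {jF M}) (FF M) (-9) := by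
        rw [map_neg, map_ofNat]
      rw [this]
      exact isIntegral_algebraMap
    exact h9int.mul hΨint

/-- `exists_H_w` in the shape of the negation of `NoUnitForm p 2 3`. -/
theorem exists_H_w_of_not_noUnitForm {M p : ℕ} [NeZero M] (h9 : 9 ∣ M) (hp : p ∣ M)
    (A : ValuationSubring Kbar) {κ : Type*} [Field κ] (π : ↥A →+* κ)
    (h2A : A.valuation (2 : Kbar) < 1) (h : ¬ Fermat.Agent.S16.NoUnitForm p 2 3) :
    ∃ H w : FF M, ((w : FF M) : LaurentSeries Kbar) ∈ gaussRing A π ∧ H = 1 + 8 * w ∧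
      IsIntegral (Algebra.adjoin Kbar {jF M})
        (H * (aeval (⟨L9.y9K, L9.y9K_mem_of_dvd h9⟩ : FF M) (numJ : Kbar[X]) /
          (aeval (⟨L9.y9K, L9.y9K_mem_of_dvd h9⟩ : FF M) (R4 : Kbar[X]) *
            aeval (⟨L9.y9K, L9.y9K_mem_of_dvd h9⟩ : FF M) (cusp27 : Kbar[X])))) := by
  rw [Fermat.Agent.S16.NoUnitForm, not_not] at h
  obtain ⟨G, r, hr, hden, h0, h8⟩ := h
  exact exists_H_w h9 hp A π h2A G r hr hden h0 (fun k hk => by simpa using h8 k hk)

end

end Fermat.Agent.S16.Two
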