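import Fermat.Agent.S16.Two.TraceUnit

/-!
# P-S16 block U2, input (I4b): the counting form of `TraceUnit`

helper26.  `K` algebraically closed (any characteristic), `F / K(x)` finite separable of degree
`n`, `R ⊂ K` a finite set of nonzero values.  Call a place `v` a *cusp* if `x` has a pole at `v`
or `x - a` vanishes at `v` for some `a ∈ R`.  If

`2 g - 2 + 2 n + #cusps ≤ (#R + 1) n`        (`g ≥ g(F)`),

then there is `φ ∈ F`, integral over `K[x]`, whose trace to `K(x)` is a polynomial `q(x)` with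
`q(0) ≠ 0`.

Proof: the divisor `E := (x)_∞ + ∑_{a ∈ R} (x - a)_0` is effective of degree `(#R + 1) n`, its
support is the cusp set, and `E v` is the ramification index of `v` over the `x`-line.  Hence
`∑_{cusps} (e_v - 1) = (#R + 1) n - #cusps` and helper8's
`exists_isIntegral_trace_eval_ne_zero` applies.
-/

set_option autoImplicit false
set_option linter.unusedSectionVars false
set_option linter.style.haveILetI false

noncomputable section

namespace Fermat.Agent.S16.Two

open AlgebraicCurve Polynomial IntermediateField Module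
open Fermat.Agent.Lib.RiemannRoch Fermat.Agent.Lib.RiemannRoch.FunctionFieldRR

section CuspSum

variable {K F : Type*} [Field K] [Field F] [Algebra K F]

/-- If `x - a` vanishes at `c`, then `x` is regular at `c`. -/
theorem ord_nonneg_of_ord_sub_pos (c : Place K F) {x : F} {a : K}
    (h : 0 < c.ord (x - algebraMap K F a)) : 0 ≤ c.ord x := by
  have h1 : c.adicValuation (x - algebraMap K F a) ≤ 1 :=
    c.adicValuation_le_one_iff.mpr (Or.inr h.le)
  have h2 : c.adicValuation (algebraMap K F a) ≤ 1 := c.adicValuation_algebraMap_le_one a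
  have h3 : c.adicValuation x ≤ 1 := by
    have hxa : x = (x - algebraMap K F a) + algebraMap K F a := by ring
    rw [hxa]
    exact (Valuation.map_add _ _ _).trans (max_le h1 h2)
  rcases c.adicValuation_le_one_iff.mp h3 with h0 | h0
  · rw [h0, Place.ord_zero]
  · exact h0

/-- Two different values are not taken at the same place. -/
theorem ord_sub_nonpos_of_ord_sub_pos (c : Place K F) {x : F} {a b : K} (hab : a ≠ b)
    (h : 0 < c.ord (x - algebraMap K F a)) : c.ord (x - algebraMap K F b) ≤ 0 := by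
  refine ord_nonpos_of_ord_sub_pos c (f := x - algebraMap K F b) (a := a - b)
    (sub_ne_zero.mpr hab) ?_
  have : x - algebraMap K F b - algebraMap K F (a - b) = x - algebraMap K F a := by
    rw [map_sub]; ring
  rwa [this]

variable [IsAlgClosed K] {x : F} (hx : Transcendental K x) [FiniteDimensional K⟮x⟯ F]
  [Algebra.IsSeparable K⟮x⟯ F]

include hx in
/-- The *cusp divisor* `E = (x)_∞ + ∑_{a ∈ R} (x - a)_0`: it is effective of degree
`(#R + 1) [F : K(x)]`. -/
theorem exists_cuspDivisor (R : Finset K) :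
    ∃ E : Divisor K F,
      (∀ v : Place K F,
        E v = max 0 (-(v.ord x)) + ∑ a ∈ R, max 0 (v.ord (x - algebraMap K F a))) ∧
      Divisor.degree E = ((R.card : ℤ) + 1) * (finrank K⟮x⟯ F : ℤ) := by
  classical
  haveI := nonempty_place hx
  haveI : ∀ v : Place K F, v.FiniteResidue := FunctionField.finiteResidue K x
  haveI := hasPrincipalDivisors hx
  have hl0 : finrank K (riemannRochSpace (0 : Divisor K F)) = 1 := ell_zero_eq_one
  have h0fin : Module.Finite K (riemannRochSpace (0 : Divisor K F)) :=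
    Module.finite_of_finrank_pos (by omega)
  have hdiv : ∀ f : F, f ≠ 0 → ∃ D : Divisor K F, ∀ v, D v = v.ord f := fun f hf => by
    obtain ⟨D, hD, -⟩ := HasPrincipalDivisors.exists_divisor (K := K) f hf
    exact ⟨D, hD⟩
  set n : ℤ := (finrank K⟮x⟯ F : ℤ) with hn
  -- the functions `x - a` are transcendental
  have htr : ∀ a : K, Transcendental K (x - algebraMap K F a) := fun a h =>
    hx (by simpa using h.add (isAlgebraic_algebraMap (R := K) (A := F) a))
  have hne : ∀ a : K, x - algebraMap K F a ≠ 0 := fun a h => by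
    have := htr a
    rw [h] at this
    exact this isAlgebraic_zero
  have hadj : ∀ a : K, K⟮x - algebraMap K F a⟯ = K⟮x⟯ := fun a => by
    apply le_antisymm
    · rw [adjoin_simple_le_iff]
      exact sub_mem (mem_adjoin_simple_self K x) (IntermediateField.algebraMap_mem _ a)
    · rw [adjoin_simple_le_iff]
      have := add_mem (mem_adjoin_simple_self K (x - algebraMap K F a))
        (IntermediateField.algebraMap_mem K⟮x - algebraMap K F a⟯ a)
      rwa [sub_add_cancel] at this
  -- divisors of `x - a`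
  choose Da hDa hDa0 using fun a : K =>
    HasPrincipalDivisors.exists_divisor (K := K) (x - algebraMap K F a) (hne a)
  -- the pole divisor of `x - a` has degree `n`
  have hpole : ∀ a : K, Divisor.degree (0 ⊔ -Da a) = n := fun a => by
    haveI : FiniteDimensional K⟮x - algebraMap K F a⟯ F := by rw [hadj a]; infer_instance
    have hB : ∀ v : Place K F, (0 ⊔ -Da a) v = max 0 (-(v.ord (x - algebraMap K F a))) :=
      fun v => by
        rw [Finsupp.sup_apply, Finsupp.neg_apply, hDa a v]
        rfl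
    rw [FunctionFieldDeg.degree_poles_eq_finrank (x - algebraMap K F a) (htr a) h0fin hdiv hB, hn,
      hadj a]
  -- the zero divisor of `x - a` has degree `n`
  have hsplit : ∀ a : K, (0 ⊔ Da a) = Da a + (0 ⊔ -Da a) := fun a => by
    ext v
    rw [Finsupp.add_apply, Finsupp.sup_apply, Finsupp.sup_apply, Finsupp.neg_apply]
    simp only [Finsupp.coe_zero, Pi.zero_apply]
    rcases le_total 0 (Da a v) with h | h
    · rw [sup_eq_right.mpr h, sup_eq_left.mpr (by omega)]; omega
    · rw [sup_eq_left.mpr h, sup_eq_right.mpr (by omega)]; omega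
  have hzero : ∀ a : K, Divisor.degree (0 ⊔ Da a) = n := fun a => by
    rw [hsplit a, map_add, hDa0 a, hpole a, zero_add]
  -- the divisor `E`
  have hBv : ∀ v : Place K F, (0 ⊔ -Da 0) v = max 0 (-(v.ord x)) := fun v => by
    rw [Finsupp.sup_apply, Finsupp.neg_apply, hDa 0 v, map_zero, sub_zero]
    rfl
  have hZv : ∀ (a : K) (v : Place K F), (0 ⊔ Da a) v = max 0 (v.ord (x - algebraMap K F a)) :=
    fun a v => by
      rw [Finsupp.sup_apply, hDa a v]
      rfl
  refine ⟨(0 ⊔ -Da 0) + ∑ a ∈ R, (0 ⊔ Da a), fun v => ?_, ?_⟩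
  · rw [Finsupp.add_apply, Finsupp.finsetSum_apply, hBv]
    congr 1
    exact Finset.sum_congr rfl fun a _ => hZv a v
  · rw [map_add, map_sum, hpole 0, Finset.sum_congr rfl fun a _ => hzero a,
      Finset.sum_const, nsmul_eq_mul]
    ring

omit [IsAlgClosed K] [FiniteDimensional K⟮x⟯ F] [Algebra.IsSeparable K⟮x⟯ F] in
/-- The support of the cusp divisor is the cusp set. -/
theorem mem_support_iff_of_cuspDivisor {R : Finset K} {E : Divisor K F}
    (hEv : ∀ v : Place K F,
      E v = max 0 (-(v.ord x)) + ∑ a ∈ R, max 0 (v.ord (x - algebraMap K F a)))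
    (v : Place K F) :
    v ∈ E.support ↔ (v.ord x < 0 ∨ ∃ a ∈ R, 0 < v.ord (x - algebraMap K F a)) := by
  rw [Finsupp.mem_support_iff, hEv]
  constructor
  · intro h
    by_contra hcon
    push Not at hcon
    apply h
    rw [max_eq_left (by linarith [hcon.1]), zero_add]
    exact Finset.sum_eq_zero fun a ha => max_eq_left (hcon.2 a ha)
  · rintro (h | ⟨a, ha, h⟩)
    · have h1 : 0 < max 0 (-(v.ord x)) := lt_max_of_lt_right (by omega)
      have h2 : 0 ≤ ∑ a ∈ R, max 0 (v.ord (x - algebraMap K F a)) :=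
        Finset.sum_nonneg fun a _ => le_max_left _ _
      omega
    · have h1 : 0 ≤ max 0 (-(v.ord x)) := le_max_left _ _
      have h2 : 0 < ∑ a ∈ R, max 0 (v.ord (x - algebraMap K F a)) :=
        Finset.sum_pos' (fun a _ => le_max_left _ _) ⟨a, ha, lt_max_of_lt_right h⟩
      omega

include hx in
/-- The cusp set (poles of `x` and zeros of `x - a`, `a ∈ R`) is finite. -/
theorem finite_cusps (R : Finset K) :
    {v : Place K F | v.ord x < 0 ∨ ∃ a ∈ R, 0 < v.ord (x - algebraMap K F a)}.Finite := by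
  obtain ⟨E, hEv, -⟩ := exists_cuspDivisor hx R
  refine E.support.finite_toSet.subset fun v hv => ?_
  exact Finset.mem_coe.mpr ((mem_support_iff_of_cuspDivisor hEv v).mpr hv)

include hx in
/-- **Input (I4b) of (U2)**, with a genus bound `g`. -/
theorem exists_trace_unit_of_card_cusps_of_le (g : ℕ) (hg : genusFF K F ≤ g) (R : Finset K)
    (h0 : (0 : K) ∉ R)
    (hcount : 2 * (g : ℤ) - 2 + 2 * (finrank K⟮x⟯ F : ℤ) +
        (Nat.card {v : Place K F //
          v.ord x < 0 ∨ ∃ a ∈ R, 0 < v.ord (x - algebraMap K F a)} : ℤ) ≤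
      ((R.card : ℤ) + 1) * (finrank K⟮x⟯ F : ℤ)) :
    ∃ φ : F, IsIntegral (Algebra.adjoin K {x}) φ ∧ ∃ q : K[X],
      algebraMap K⟮x⟯ F (Algebra.trace K⟮x⟯ F φ) = aeval x q ∧ q.eval 0 ≠ 0 := by
  classical
  have hdeg1 : ∀ v : Place K F, v.deg = 1 := deg_eq_one x
  set n : ℤ := (finrank K⟮x⟯ F : ℤ) with hn
  obtain ⟨E, hEv, hEdeg⟩ := exists_cuspDivisor hx R
  have hE0 : ∀ v : Place K F, 0 ≤ E v := fun v => by
    rw [hEv]
    exact add_nonneg (le_max_left _ _) (Finset.sum_nonneg fun a _ => le_max_left _ _)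
  have hEsupp := mem_support_iff_of_cuspDivisor hEv
  have hcard : Nat.card {v : Place K F //
      v.ord x < 0 ∨ ∃ a ∈ R, 0 < v.ord (x - algebraMap K F a)} = E.support.card := by
    rw [← Nat.card_eq_finsetCard E.support]
    exact Nat.card_congr (Equiv.subtypeEquivRight fun v => (hEsupp v).symm)
  -- the sum of the coefficients of `E`
  have hsum : ∑ c ∈ E.support, E c = ((R.card : ℤ) + 1) * n := by
    rw [← hEdeg, degree_eq_sum, Finsupp.sum]
    exact Finset.sum_congr rfl fun v _ => by rw [hdeg1 v]; simp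
  -- ramification indices
  set e : Place K F → ℕ := fun v => (E v).toNat with hedef
  have he : ∀ v : Place K F, (e v : ℤ) = E v := fun v => Int.toNat_of_nonneg (hE0 v)
  have hS : ∀ c ∈ E.support, 1 ≤ e c ∧ (c.ord x = -(e c : ℤ) ∨
      ∃ a : K, a ≠ 0 ∧ c.ord (x - algebraMap K F a) = e c) := by
    intro c hc
    have hc0 : E c ≠ 0 := Finsupp.mem_support_iff.mp hc
    have hpos : 0 < E c := lt_of_le_of_ne (hE0 c) (Ne.symm hc0)
    refine ⟨by have := he c; omega, ?_⟩
    rw [he c]
    rcases (hEsupp c).mp hc with h | ⟨a, ha, h⟩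
    · left
      rw [hEv, max_eq_right (by omega : (0 : ℤ) ≤ -(c.ord x)),
        Finset.sum_eq_zero fun a _ => max_eq_left ?_]
      · ring
      · by_contra hcon
        push Not at hcon
        have := ord_nonneg_of_ord_sub_pos c hcon
        omega
    · right
      refine ⟨a, fun ha0 => h0 (ha0 ▸ ha), ?_⟩
      have hx0 : 0 ≤ c.ord x := ord_nonneg_of_ord_sub_pos c h
      rw [hEv, max_eq_left (by omega : -(c.ord x) ≤ 0), zero_add,
        Finset.sum_eq_single_of_mem a ha, max_eq_right h.le]
      intro b _ hba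
      exact max_eq_left (ord_sub_nonpos_of_ord_sub_pos c (Ne.symm hba) h)
  refine exists_isIntegral_trace_eval_ne_zero hx g hg E.support e hS ?_
  rw [Finset.sum_sub_distrib, Finset.sum_congr rfl fun c _ => he c, hsum, Finset.sum_const,
    nsmul_eq_mul, mul_one]
  rw [hcard] at hcount
  linarith

include hx in
/-- **Input (I4b) of (U2)**, with a genus bound `g` and a bound `c` for the number of cusps. -/
theorem exists_trace_unit_of_card_cusps_le (g : ℕ) (hg : genusFF K F ≤ g) (R : Finset K)
    (h0 : (0 : K) ∉ R) (c : ℕ)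
    (hc : Nat.card {v : Place K F //
      v.ord x < 0 ∨ ∃ a ∈ R, 0 < v.ord (x - algebraMap K F a)} ≤ c)
    (hcount : 2 * (g : ℤ) - 2 + 2 * (finrank K⟮x⟯ F : ℤ) + (c : ℤ) ≤
      ((R.card : ℤ) + 1) * (finrank K⟮x⟯ F : ℤ)) :
    ∃ φ : F, IsIntegral (Algebra.adjoin K {x}) φ ∧ ∃ q : K[X],
      algebraMap K⟮x⟯ F (Algebra.trace K⟮x⟯ F φ) = aeval x q ∧ q.eval 0 ≠ 0 := by
  refine exists_trace_unit_of_card_cusps_of_le hx g hg R h0 ?_
  have : (Nat.card {v : Place K F //
      v.ord x < 0 ∨ ∃ a ∈ R, 0 < v.ord (x - algebraMap K F a)} : ℤ) ≤ c := by exact_mod_cast hc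
  linarith

include hx in
/-- **Input (I4b) of (U2)**: the counting corollary of `exists_isIntegral_trace_eval_ne_zero`. -/
theorem exists_trace_unit_of_card_cusps (R : Finset K) (h0 : (0 : K) ∉ R)
    (hcount : 2 * (genusFF K F : ℤ) - 2 + 2 * (finrank K⟮x⟯ F : ℤ) +
        (Nat.card {v : Place K F //
          v.ord x < 0 ∨ ∃ a ∈ R, 0 < v.ord (x - algebraMap K F a)} : ℤ) ≤
      ((R.card : ℤ) + 1) * (finrank K⟮x⟯ F : ℤ)) :
    ∃ φ : F, IsIntegral (Algebra.adjoin K {x}) φ ∧ ∃ q : K[X],
      algebraMap K⟮x⟯ F (Algebra.trace K⟮x⟯ F φ) = aeval x q ∧ q.eval 0 ≠ 0 :=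
  exists_trace_unit_of_card_cusps_of_le hx (genusFF K F) le_rfl R h0 hcount

end CuspSum

end Fermat.Agent.S16.Two
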