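import Mathlib

/-!
# S16, block U2: degrees of the level 9 rational functions (WP U2-DEG)

Mathlib only.  For a field `K`:

* `num_div_of_isCoprime`, `denom_div_of_isCoprime`: numerator and denominator of `p / q` for coprime
  `p`, `q` with `q` monic;
* `finrank_adjoin_div`: `[K(X) : K(p/q)] = max (deg p) (deg q)` (from Mathlib's Lüroth file);
* `finrank_adjoin_div_le`: the inequality `≤` for an arbitrary presentation `p / q`;
* `isIntegral_X_adjoin_div`: if `p` is monic and `deg q < deg p` then `X` is integral over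
  `K[p/q]` (monic relation `p(T) - r q(T)`);
* the two functions of level 9: `J1 K = (X+6)^3 (X^3+234X^2+756X+2160)^3 / ((X-3)^8 (X^3-27))`
  (`= j` in terms of `y₉`, `L9.jq_y9'`) and `J9 K = X^3 (X^3-24)^3 / (X^3-27)` (`= j(q^9)`,
  `L9.jq9_y9'`): both have degree `12` over every field in which `3 ≠ 0` (in particular in
  characteristic `0` and `2`), and `X` is integral over `K[J1]` and over `K[J9]` (any field).
-/

set_option autoImplicit false

open Polynomial IntermediateField

namespace Fermat.Agent.S16.Two.Degree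

noncomputable section

variable {K : Type*} [Field K]

/-! ### Numerator and denominator of a reduced fraction -/

theorem denom_div_of_isCoprime {p q : K[X]} (h : IsCoprime p q) (hq : q.Monic) :
    (algebraMap K[X] (RatFunc K) p / algebraMap K[X] (RatFunc K) q).denom = q := by
  set x : RatFunc K := algebraMap K[X] (RatFunc K) p / algebraMap K[X] (RatFunc K) q with hx
  have hq0 : q ≠ 0 := hq.ne_zero
  have h1 : x.num * q = p * x.denom := (RatFunc.num_mul_eq_mul_denom_iff hq0).mpr rfl
  have h2 : x.denom ∣ q := RatFunc.denom_div_dvd p q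
  have h3 : q ∣ x.denom := by
    have : q ∣ p * x.denom := ⟨x.num, by rw [← h1, mul_comm]⟩
    exact h.symm.dvd_of_dvd_mul_left this
  exact Polynomial.eq_of_monic_of_associated (RatFunc.monic_denom x) hq
    (associated_of_dvd_dvd h2 h3)

theorem num_div_of_isCoprime {p q : K[X]} (h : IsCoprime p q) (hq : q.Monic) :
    (algebraMap K[X] (RatFunc K) p / algebraMap K[X] (RatFunc K) q).num = p := by
  set x : RatFunc K := algebraMap K[X] (RatFunc K) p / algebraMap K[X] (RatFunc K) q with hx
  have hq0 : q ≠ 0 := hq.ne_zero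
  have h1 : x.num * q = p * x.denom := (RatFunc.num_mul_eq_mul_denom_iff hq0).mpr rfl
  rw [denom_div_of_isCoprime h hq] at h1
  exact mul_right_cancel₀ hq0 h1

/-- **Degree of `K(X)` over `K(p/q)`** for a reduced fraction. -/
theorem finrank_adjoin_div {p q : K[X]} (h : IsCoprime p q) (hq : q.Monic) :
    Module.finrank K⟮algebraMap K[X] (RatFunc K) p / algebraMap K[X] (RatFunc K) q⟯ (RatFunc K) =
      max p.natDegree q.natDegree := by
  rw [RatFunc.finrank_eq_max_natDegree, num_div_of_isCoprime h hq, denom_div_of_isCoprime h hq]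

/-- The inequality for an arbitrary presentation. -/
theorem finrank_adjoin_div_le {p q : K[X]} (hp : p ≠ 0) (hq : q ≠ 0) :
    Module.finrank K⟮algebraMap K[X] (RatFunc K) p / algebraMap K[X] (RatFunc K) q⟯ (RatFunc K) ≤
      max p.natDegree q.natDegree := by
  rw [RatFunc.finrank_eq_max_natDegree]
  exact max_le_max (natDegree_le_of_dvd (RatFunc.num_div_dvd p hq) hp)
    (natDegree_le_of_dvd (RatFunc.denom_div_dvd p q) hq)

/-- `p / q` is not constant if `p`, `q` are coprime, `q` monic and one of them is not constant. -/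
theorem div_ne_C {p q : K[X]} (h : IsCoprime p q) (hq : q.Monic)
    (hdeg : 0 < max p.natDegree q.natDegree) :
    ¬ ∃ c : K, algebraMap K[X] (RatFunc K) p / algebraMap K[X] (RatFunc K) q = RatFunc.C c := by
  rintro ⟨c, hc⟩
  have h1 := finrank_adjoin_div h hq
  rw [hc, RatFunc.finrank_eq_max_natDegree] at h1
  simp only [RatFunc.num_C, RatFunc.denom_C, natDegree_C, natDegree_one, max_self] at h1
  omega

theorem transcendental_div {p q : K[X]} (h : IsCoprime p q) (hq : q.Monic)
    (hdeg : 0 < max p.natDegree q.natDegree) :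
    Transcendental K (algebraMap K[X] (RatFunc K) p / algebraMap K[X] (RatFunc K) q) :=
  RatFunc.transcendental_of_ne_C _ (div_ne_C h hq hdeg)

/-! ### Integrality of `X` over `K[p/q]` -/

/-- If `p` is monic and `deg q < deg p`, then `X` is integral over `K[r]`, `r = p / q`: it is a
root of the monic polynomial `p(T) - r q(T)`. -/
theorem isIntegral_X_adjoin_div {p q : K[X]} (hp : p.Monic) (hq : q ≠ 0)
    (hdeg : q.natDegree < p.natDegree) :
    IsIntegral (Algebra.adjoin K
      {algebraMap K[X] (RatFunc K) p / algebraMap K[X] (RatFunc K) q}) (RatFunc.X : RatFunc K) := by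
  set r : RatFunc K := algebraMap K[X] (RatFunc K) p / algebraMap K[X] (RatFunc K) q with hr
  set S := Algebra.adjoin K {r} with hS
  have hrS : r ∈ S := Algebra.self_mem_adjoin_singleton K r
  let rS : S := ⟨r, hrS⟩
  let P : S[X] := p.map (algebraMap K S) - Polynomial.C rS * q.map (algebraMap K S)
  have hpm : (p.map (algebraMap K S)).Monic := hp.map _
  have hdeg' : (Polynomial.C rS * q.map (algebraMap K S)).degree <
      (p.map (algebraMap K S)).degree := by
    apply degree_lt_degree
    calc (Polynomial.C rS * q.map (algebraMap K S)).natDegree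
        ≤ (q.map (algebraMap K S)).natDegree := natDegree_C_mul_le _ _
      _ ≤ q.natDegree := natDegree_map_le
      _ < p.natDegree := hdeg
      _ = (p.map (algebraMap K S)).natDegree := (hp.natDegree_map _).symm
  have hPm : P.Monic := hpm.sub_of_left hdeg'
  refine ⟨P, hPm, ?_⟩
  have hqne : algebraMap K[X] (RatFunc K) q ≠ 0 := RatFunc.algebraMap_ne_zero hq
  have e1 : ∀ f : K[X], eval₂ (algebraMap S (RatFunc K)) RatFunc.X (f.map (algebraMap K S)) =
      algebraMap K[X] (RatFunc K) f := by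
    intro f
    rw [eval₂_map, ← IsScalarTower.algebraMap_eq K S (RatFunc K)]
    have : eval₂ (algebraMap K (RatFunc K)) (RatFunc.X : RatFunc K) f =
        aeval (RatFunc.X : RatFunc K) f := rfl
    rw [this, RatFunc.aeval_X_left_eq_algebraMap]
  show eval₂ (algebraMap S (RatFunc K)) RatFunc.X P = 0
  rw [eval₂_sub, eval₂_mul, eval₂_C, e1, e1]
  show algebraMap K[X] (RatFunc K) p - r * algebraMap K[X] (RatFunc K) q = 0
  rw [hr, div_mul_cancel₀ _ hqne, sub_self]

/-! ### The two functions of level 9 -/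

section level9

variable (K)

/-- numerator of `j` in terms of `y₉` -/
def N1 : K[X] := (X + 6) ^ 3 * (X ^ 3 + 234 * X ^ 2 + 756 * X + 2160) ^ 3

/-- denominator of `j` in terms of `y₉` -/
def D1 : K[X] := (X - 3) ^ 8 * (X ^ 3 - 27)

/-- numerator of `j(q⁹)` in terms of `y₉` -/
def N9 : K[X] := X ^ 3 * (X ^ 3 - 24) ^ 3

/-- denominator of `j(q⁹)` in terms of `y₉` -/
def D9 : K[X] := X ^ 3 - 27

/-- `j` as a rational function of `y₉`. -/
def J1 : RatFunc K := algebraMap K[X] (RatFunc K) (N1 K) / algebraMap K[X] (RatFunc K) (D1 K)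

/-- `j(q⁹)` as a rational function of `y₉`. -/
def J9 : RatFunc K := algebraMap K[X] (RatFunc K) (N9 K) / algebraMap K[X] (RatFunc K) (D9 K)

theorem C6 : (6 : K[X]) = C (6 : K) := (map_ofNat C 6).symm
theorem C3 : (3 : K[X]) = C (3 : K) := (map_ofNat C 3).symm
theorem C24 : (24 : K[X]) = C (24 : K) := (map_ofNat C 24).symm
theorem C27 : (27 : K[X]) = C (27 : K) := (map_ofNat C 27).symm

theorem monic_lin6 : (X + 6 : K[X]).Monic := by rw [C6]; exact monic_X_add_C _
theorem monic_lin3 : (X - 3 : K[X]).Monic := by rw [C3]; exact monic_X_sub_C _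
theorem natDegree_lin6 : (X + 6 : K[X]).natDegree = 1 := by rw [C6]; exact natDegree_X_add_C _
theorem natDegree_lin3 : (X - 3 : K[X]).natDegree = 1 := by rw [C3]; exact natDegree_X_sub_C _

theorem cubB_eq : (X ^ 3 + 234 * X ^ 2 + 756 * X + 2160 : K[X]) =
    X ^ 3 + (C 234 * X ^ 2 + C 756 * X + C 2160) := by
  simp only [map_ofNat]; ring

theorem degree_cubB_tail : (C 234 * X ^ 2 + C 756 * X + C 2160 : K[X]).degree < 3 := by
  have : (C 234 * X ^ 2 + C 756 * X + C 2160 : K[X]).degree ≤ 2 := by compute_degree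
  exact lt_of_le_of_lt this (by norm_num)

theorem monic_cubB : (X ^ 3 + 234 * X ^ 2 + 756 * X + 2160 : K[X]).Monic := by
  rw [cubB_eq]
  exact monic_X_pow_add (degree_cubB_tail K)

theorem natDegree_cubB : (X ^ 3 + 234 * X ^ 2 + 756 * X + 2160 : K[X]).natDegree = 3 := by
  rw [cubB_eq]
  have h : (X ^ 3 + (C 234 * X ^ 2 + C 756 * X + C 2160) : K[X]).degree = ((3 : ℕ) : WithBot ℕ) := by
    rw [add_comm]
    rw [degree_add_eq_right_of_degree_lt]
    · exact degree_X_pow 3
    · rw [degree_X_pow]; exact degree_cubB_tail K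
  exact natDegree_eq_of_degree_eq_some h

theorem monic_cub27 : (X ^ 3 - 27 : K[X]).Monic := by
  rw [C27]; exact monic_X_pow_sub_C _ (by norm_num)

theorem natDegree_cub27 : (X ^ 3 - 27 : K[X]).natDegree = 3 := by
  rw [C27]; exact natDegree_X_pow_sub_C

theorem monic_cub24 : (X ^ 3 - 24 : K[X]).Monic := by
  rw [C24]; exact monic_X_pow_sub_C _ (by norm_num)

theorem natDegree_cub24 : (X ^ 3 - 24 : K[X]).natDegree = 3 := by
  rw [C24]; exact natDegree_X_pow_sub_C

theorem monic_N1 : (N1 K).Monic :=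
  ((monic_lin6 K).pow 3).mul ((monic_cubB K).pow 3)

theorem monic_D1 : (D1 K).Monic :=
  ((monic_lin3 K).pow 8).mul (monic_cub27 K)

theorem monic_N9 : (N9 K).Monic :=
  (monic_X_pow 3).mul ((monic_cub24 K).pow 3)

theorem monic_D9 : (D9 K).Monic := monic_cub27 K

theorem natDegree_N1 : (N1 K).natDegree = 12 := by
  rw [N1, ((monic_lin6 K).pow 3).natDegree_mul ((monic_cubB K).pow 3),
    (monic_lin6 K).natDegree_pow, (monic_cubB K).natDegree_pow, natDegree_lin6, natDegree_cubB]

theorem natDegree_D1 : (D1 K).natDegree = 11 := by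
  rw [D1, ((monic_lin3 K).pow 8).natDegree_mul (monic_cub27 K),
    (monic_lin3 K).natDegree_pow, natDegree_lin3, natDegree_cub27]

theorem natDegree_N9 : (N9 K).natDegree = 12 := by
  rw [N9, (monic_X_pow 3).natDegree_mul ((monic_cub24 K).pow 3), natDegree_X_pow,
    (monic_cub24 K).natDegree_pow, natDegree_cub24]

theorem natDegree_D9 : (D9 K).natDegree = 3 := natDegree_cub27 K

/-- `X` is integral over `K[J1]` (any field). -/
theorem isIntegral_X_J1 : IsIntegral (Algebra.adjoin K {J1 K}) (RatFunc.X : RatFunc K) :=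
  isIntegral_X_adjoin_div (monic_N1 K) (monic_D1 K).ne_zero
    (by rw [natDegree_N1, natDegree_D1]; norm_num)

/-- `X` is integral over `K[J9]` (any field). -/
theorem isIntegral_X_J9 : IsIntegral (Algebra.adjoin K {J9 K}) (RatFunc.X : RatFunc K) :=
  isIntegral_X_adjoin_div (monic_N9 K) (monic_D9 K).ne_zero
    (by rw [natDegree_N9, natDegree_D9]; norm_num)

theorem finrank_J1_le : Module.finrank K⟮J1 K⟯ (RatFunc K) ≤ 12 := by
  have := finrank_adjoin_div_le (monic_N1 K).ne_zero (monic_D1 K).ne_zero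
  rwa [natDegree_N1, natDegree_D1] at this

theorem finrank_J9_le : Module.finrank K⟮J9 K⟯ (RatFunc K) ≤ 12 := by
  have := finrank_adjoin_div_le (monic_N9 K).ne_zero (monic_D9 K).ne_zero
  rwa [natDegree_N9, natDegree_D9] at this

variable {K}

theorem cub27_eq : (X ^ 3 - 27 : K[X]) = (X - 3) * (X ^ 2 + 3 * X + 9) := by ring

section coprime

variable (h3 : (3 : K) ≠ 0)
include h3

theorem isUnit_C_of_pow {n : ℕ} : IsUnit (C ((3 : K) ^ n) : K[X]) :=
  isUnit_C.mpr (isUnit_iff_ne_zero.mpr (pow_ne_zero n h3))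

/-- `IsCoprime a b` from a relation `u * a + v * b = C (3 ^ n)`. -/
theorem isCoprime_of_rel {a b u v : K[X]} {n : ℕ} (h : u * a + v * b = C ((3 : K) ^ n)) :
    IsCoprime a b := by
  have hne : ((3 : K) ^ n) ≠ 0 := pow_ne_zero n h3
  refine ⟨C ((3 : K) ^ n)⁻¹ * u, C ((3 : K) ^ n)⁻¹ * v, ?_⟩
  rw [mul_assoc, mul_assoc, ← mul_add, h, ← C_mul, inv_mul_cancel₀ hne, C_1]

theorem isCoprime_lin6_lin3 : IsCoprime (X + 6 : K[X]) (X - 3) := by
  refine isCoprime_of_rel h3 (n := 2) (u := 1) (v := -1) ?_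
  simp only [map_pow, map_ofNat]; ring

theorem isCoprime_cubB_lin3 :
    IsCoprime (X ^ 3 + 234 * X ^ 2 + 756 * X + 2160 : K[X]) (X - 3) := by
  refine isCoprime_of_rel h3 (n := 8) (u := 1) (v := -(X ^ 2 + 237 * X + 1467)) ?_
  simp only [map_pow, map_ofNat]; ring

theorem isCoprime_lin6_quad : IsCoprime (X + 6 : K[X]) (X ^ 2 + 3 * X + 9) := by
  refine isCoprime_of_rel h3 (n := 3) (u := -(X - 3)) (v := 1) ?_
  simp only [map_pow, map_ofNat]; ring

theorem isCoprime_cubB_quad :
    IsCoprime (X ^ 3 + 234 * X ^ 2 + 756 * X + 2160 : K[X]) (X ^ 2 + 3 * X + 9) := by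
  refine isCoprime_of_rel h3 (n := 6) (u := -(2 * X + 3))
    (v := (2 * X + 3) * (X + 231) + 108) ?_
  simp only [map_pow, map_ofNat]; ring

theorem isCoprime_N1_D1 : IsCoprime (N1 K) (D1 K) := by
  have hA : IsCoprime (X + 6 : K[X]) (X ^ 3 - 27) := by
    rw [cub27_eq]
    exact (isCoprime_lin6_lin3 h3).mul_right (isCoprime_lin6_quad h3)
  have hB : IsCoprime (X ^ 3 + 234 * X ^ 2 + 756 * X + 2160 : K[X]) (X ^ 3 - 27) := by
    rw [cub27_eq]
    exact (isCoprime_cubB_lin3 h3).mul_right (isCoprime_cubB_quad h3)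
  have hA' : IsCoprime (X + 6 : K[X]) (D1 K) :=
    ((isCoprime_lin6_lin3 h3).pow_right (n := 8)).mul_right hA
  have hB' : IsCoprime (X ^ 3 + 234 * X ^ 2 + 756 * X + 2160 : K[X]) (D1 K) :=
    ((isCoprime_cubB_lin3 h3).pow_right (n := 8)).mul_right hB
  exact (hA'.pow_left (m := 3)).mul_left (hB'.pow_left (m := 3))

theorem isCoprime_N9_D9 : IsCoprime (N9 K) (D9 K) := by
  have hX : IsCoprime (X : K[X]) (X ^ 3 - 27) := by
    refine isCoprime_of_rel h3 (n := 3) (u := X ^ 2) (v := -1) ?_
    simp only [map_pow, map_ofNat]; ring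
  have h24 : IsCoprime (X ^ 3 - 24 : K[X]) (X ^ 3 - 27) := by
    refine isCoprime_of_rel h3 (n := 1) (u := 1) (v := -1) ?_
    simp only [map_pow, map_ofNat]; ring
  exact (hX.pow_left (m := 3)).mul_left (h24.pow_left (m := 3))

/-- **`[K(y) : K(J1(y))] = 12`** over every field with `3 ≠ 0`. -/
theorem finrank_J1 : Module.finrank K⟮J1 K⟯ (RatFunc K) = 12 := by
  have := finrank_adjoin_div (isCoprime_N1_D1 h3) (monic_D1 K)
  rwa [natDegree_N1, natDegree_D1] at this

/-- **`[K(y) : K(J9(y))] = 12`** over every field with `3 ≠ 0`. -/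
theorem finrank_J9 : Module.finrank K⟮J9 K⟯ (RatFunc K) = 12 := by
  have := finrank_adjoin_div (isCoprime_N9_D9 h3) (monic_D9 K)
  rwa [natDegree_N9, natDegree_D9] at this

theorem num_J1 : (J1 K).num = N1 K := num_div_of_isCoprime (isCoprime_N1_D1 h3) (monic_D1 K)
theorem denom_J1 : (J1 K).denom = D1 K := denom_div_of_isCoprime (isCoprime_N1_D1 h3) (monic_D1 K)
theorem num_J9 : (J9 K).num = N9 K := num_div_of_isCoprime (isCoprime_N9_D9 h3) (monic_D9 K)
theorem denom_J9 : (J9 K).denom = D9 K := denom_div_of_isCoprime (isCoprime_N9_D9 h3) (monic_D9 K)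

theorem transcendental_J1 : Transcendental K (J1 K) :=
  transcendental_div (isCoprime_N1_D1 h3) (monic_D1 K) (by rw [natDegree_N1]; simp)

theorem transcendental_J9 : Transcendental K (J9 K) :=
  transcendental_div (isCoprime_N9_D9 h3) (monic_D9 K) (by rw [natDegree_N9]; simp)

end coprime

/-- In characteristic `0`, `3 ≠ 0`. -/
theorem three_ne_zero_of_charZero [CharZero K] : (3 : K) ≠ 0 := by norm_num

/-- In characteristic `2`, `3 = 1 ≠ 0`. -/
theorem three_ne_zero_of_charTwo [CharP K 2] : (3 : K) ≠ 0 := by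
  have h2 : (2 : K) = 0 := by
    have := CharP.cast_eq_zero K 2
    simpa using this
  have : (3 : K) = 1 := by
    have : (3 : K) = 2 + 1 := by norm_num
    rw [this, h2, zero_add]
  rw [this]; exact one_ne_zero

/-- In characteristic `2`: `N1 = X^12`. -/
theorem N1_charTwo [CharP K 2] : N1 K = X ^ 12 := by
  have h2 : (2 : K[X]) = 0 := by
    have : (2 : K) = 0 := by
      have := CharP.cast_eq_zero K 2
      simpa using this
    have h : (2 : K[X]) = C (2 : K) := (map_ofNat C 2).symm
    rw [h, this, C_0]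
  have e6 : (6 : K[X]) = 2 * 3 := by norm_num
  have e234 : (234 : K[X]) = 2 * 117 := by norm_num
  have e756 : (756 : K[X]) = 2 * 378 := by norm_num
  have e2160 : (2160 : K[X]) = 2 * 1080 := by norm_num
  rw [N1, e6, e234, e756, e2160, h2]
  ring

/-- In characteristic `2`: `D1 = (X + 1)^8 (X^3 + 1)`. -/
theorem D1_charTwo [CharP K 2] : D1 K = (X + 1) ^ 8 * (X ^ 3 + 1) := by
  have h2 : (2 : K[X]) = 0 := by
    have : (2 : K) = 0 := by
      have := CharP.cast_eq_zero K 2
      simpa using this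
    have h : (2 : K[X]) = C (2 : K) := (map_ofNat C 2).symm
    rw [h, this, C_0]
  have e3 : (3 : K[X]) = 2 * 2 - 1 := by norm_num
  have e27 : (27 : K[X]) = 2 * 14 - 1 := by norm_num
  rw [D1, e3, e27, h2]
  ring

end level9

end

end Fermat.Agent.S16.Two.Degree
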