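import Mathlib
import Fermat.Agent.Gateway.AuxLevel.Membership

/-!
# P-S16 (U2): integrality over `K[j]` versus integrality over `K[j(9z)]`

The analytic dictionary (U2-DICT) and the GoodRed lifting produce elements of the function field
`F_M` (`9 ∣ M`) which are integral over `K[j]`; the core of U2 (`Two/Core.lean`) works on the
`y₉`-line and wants integrality over `K[J9(y₉)] = K[j(9z)]`.  Both integral closures are the ring
of functions regular off the cusps; this file proves the inclusion needed: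

* `isIntegral_j` : in any field containing `y, j, j₉` with the two level nine relations
  `j₉ (y³ - 27) = y³ (y³ - 24)³` and `j (y - 3)⁸ (y³ - 27) = (y + 6)³ (y³ + 234 y² + 756 y + 2160)³`,
  `j` is integral over `K[j₉]` (explicitly: `1/(y³ - 27)` is a polynomial in `y` and `j₉`);
* `isIntegral_adjoin_trans` : transitivity for one-generator subalgebras;
* `isIntegral_gen9_of_isIntegral_jF` : `x : FF M` integral over `Kbar[jF M]` is integral over
  `Kbar[j(9z)]`;
* `isIntegral_adjoin_of_algebraMap` : transfer of integrality along an algebra map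
  (to pass from the subalgebra `K[φ a] ⊆ F` to the subalgebra `K[a]` of the source of `φ`).
-/

set_option autoImplicit false

namespace Fermat.Agent.S16.Two.IntegralBridge

open Polynomial

section General

variable {K E : Type*} [Field K] [Field E] [Algebra K E]

theorem isIntegral_of_mem (S : Subalgebra K E) {e : E} (he : e ∈ S) : IsIntegral S e :=
  isIntegral_algebraMap (R := S) (A := E) (x := (⟨e, he⟩ : S))

theorem isIntegral_ofNat (S : Subalgebra K E) (n : ℕ) [n.AtLeastTwo] :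
    IsIntegral S (OfNat.ofNat n : E) := by
  have : (OfNat.ofNat n : E) = algebraMap K E (OfNat.ofNat n) := (map_ofNat _ n).symm
  rw [this]
  exact isIntegral_of_mem S (S.algebraMap_mem _)

/-- Transitivity of integrality over one-generator subalgebras. -/
theorem isIntegral_adjoin_trans {a b x : E} (ha : IsIntegral (Algebra.adjoin K {b}) a)
    (hx : IsIntegral (Algebra.adjoin K {a}) x) : IsIntegral (Algebra.adjoin K {b}) x := by
  have hle : Algebra.adjoin K {a} ≤
      (integralClosure (Algebra.adjoin K {b}) E).restrictScalars K := by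
    apply Algebra.adjoin_le
    intro z hz
    rw [Set.mem_singleton_iff] at hz
    subst hz
    exact ha
  obtain ⟨p, hp, hpx⟩ := hx
  let incl : (Algebra.adjoin K {a}) →+* (integralClosure (Algebra.adjoin K {b}) E) :=
    { toFun := fun z => ⟨z.1, hle z.2⟩
      map_one' := rfl
      map_mul' := fun _ _ => rfl
      map_zero' := rfl
      map_add' := fun _ _ => rfl }
  have hxC : IsIntegral (integralClosure (Algebra.adjoin K {b}) E) x := by
    refine ⟨p.map incl, hp.map _, ?_⟩
    rw [eval₂_map]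
    exact hpx
  exact isIntegral_trans (R := Algebra.adjoin K {b})
    (A := integralClosure (Algebra.adjoin K {b}) E) x hxC

end General

section Nine

variable {K E : Type*} [Field K] [Field E] [Algebra K E]

/-- the Hauptmodul `y` of level nine is integral over `K[j₉]`, `j₉ = j(9z)`. -/
theorem isIntegral_y {y j9 : E} (h9 : j9 * (y ^ 3 - 27) = y ^ 3 * (y ^ 3 - 24) ^ 3) :
    IsIntegral (Algebra.adjoin K {j9}) y := by
  have hj9 : j9 ∈ Algebra.adjoin K {j9} := Algebra.subset_adjoin (Set.mem_singleton j9)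
  refine ⟨X ^ 3 * (X ^ 3 - C 24) ^ 3 - C (⟨j9, hj9⟩ : Algebra.adjoin K {j9}) * (X ^ 3 - C 27),
    ?_, ?_⟩
  · apply Monic.sub_of_left
    · exact (monic_X_pow 3).mul ((monic_X_pow_sub_C _ (by norm_num)).pow 3)
    · have h1 : (C (⟨j9, hj9⟩ : Algebra.adjoin K {j9}) * (X ^ 3 - C 27) :
          (Algebra.adjoin K {j9})[X]).degree ≤ 3 := by
        compute_degree
      have h2 : (X ^ 3 * (X ^ 3 - C 24) ^ 3 : (Algebra.adjoin K {j9})[X]).degree = 12 := by
        compute_degree!
      rw [h2]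
      exact lt_of_le_of_lt h1 (by norm_num)
  · have e24 : algebraMap (Algebra.adjoin K {j9}) E 24 = 24 := map_ofNat _ 24
    have e27 : algebraMap (Algebra.adjoin K {j9}) E 27 = 27 := map_ofNat _ 27
    have ea : algebraMap (Algebra.adjoin K {j9}) E ⟨j9, hj9⟩ = j9 := rfl
    simp only [eval₂_sub, eval₂_mul, eval₂_pow, eval₂_X, eval₂_C, e24, e27, ea]
    linear_combination -h9


/-- `1/(y³ - 27)` is integral over `K[j₉]`: it is a polynomial in `y` and `j₉`. -/
theorem isIntegral_inv_cube_sub [CharZero K] {y j9 : E}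
    (h9 : j9 * (y ^ 3 - 27) = y ^ 3 * (y ^ 3 - 24) ^ 3) (hs : y ^ 3 - 27 ≠ 0) :
    IsIntegral (Algebra.adjoin K {j9}) (y ^ 3 - 27)⁻¹ := by
  have hj9 : j9 ∈ Algebra.adjoin K {j9} := Algebra.subset_adjoin (Set.mem_singleton j9)
  have hy := isIntegral_y (K := K) h9
  have hI : ∀ n : ℕ, [n.AtLeastTwo] → IsIntegral (Algebra.adjoin K {j9}) (OfNat.ofNat n : E) :=
    fun n _ => isIntegral_ofNat _ n
  have hsI : IsIntegral (Algebra.adjoin K {j9}) (y ^ 3 - 27) := (hy.pow 3).sub (hI 27)
  have hc : IsIntegral (Algebra.adjoin K {j9}) (algebraMap K E (729 : K)⁻¹) :=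
    isIntegral_of_mem _ (Subalgebra.algebraMap_mem _ _)
  have h729 : (729 : E) ≠ 0 := by
    have : (729 : E) = algebraMap K E 729 := (map_ofNat _ 729).symm
    rw [this]
    exact (_root_.map_ne_zero _).mpr (by norm_num)
  have hc' : algebraMap K E (729 : K)⁻¹ = (729 : E)⁻¹ := by
    rw [map_inv₀, map_ofNat]
  have key : (y ^ 3 - 27)⁻¹ = -(algebraMap K E (729 : K)⁻¹) *
      ((y ^ 3 - 27) ^ 3 + 36 * (y ^ 3 - 27) ^ 2 + 270 * (y ^ 3 - 27) + (756 - j9)) := by
    rw [hc']
    field_simp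
    linear_combination -h9
  rw [key]
  exact hc.neg.mul (((((hsI.pow 3).add ((hI 36).mul (hsI.pow 2))).add ((hI 270).mul hsI))).add
    ((hI 756).sub (isIntegral_of_mem _ hj9)))

/-- **`j` is integral over `K[j₉]`** (`j₉ = j(9z)`). -/
theorem isIntegral_j [CharZero K] {y j j9 : E}
    (h9 : j9 * (y ^ 3 - 27) = y ^ 3 * (y ^ 3 - 24) ^ 3)
    (h1 : j * ((y - 3) ^ 8 * (y ^ 3 - 27)) =
      (y + 6) ^ 3 * (y ^ 3 + 234 * y ^ 2 + 756 * y + 2160) ^ 3)
    (hs : y ^ 3 - 27 ≠ 0) : IsIntegral (Algebra.adjoin K {j9}) j := by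
  have hy := isIntegral_y (K := K) h9
  have hu := isIntegral_inv_cube_sub (K := K) h9 hs
  have hI : ∀ n : ℕ, [n.AtLeastTwo] → IsIntegral (Algebra.adjoin K {j9}) (OfNat.ofNat n : E) :=
    fun n _ => isIntegral_ofNat _ n
  have hy3 : y - 3 ≠ 0 := by
    intro h
    apply hs
    have : y = 3 := sub_eq_zero.mp h
    rw [this]; norm_num
  have hv : IsIntegral (Algebra.adjoin K {j9}) ((y ^ 2 + 3 * y + 9) * (y ^ 3 - 27)⁻¹) :=
    (((hy.pow 2).add ((hI 3).mul hy)).add (hI 9)).mul hu
  have key : j = (y + 6) ^ 3 * (y ^ 3 + 234 * y ^ 2 + 756 * y + 2160) ^ 3 *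
      ((y ^ 2 + 3 * y + 9) * (y ^ 3 - 27)⁻¹) ^ 8 * (y ^ 3 - 27)⁻¹ := by
    rw [eq_comm]
    field_simp
    linear_combination (-(y ^ 2 + 3 * y + 9) ^ 8) * h1
  rw [key]
  exact ((((hy.add (hI 6)).pow 3).mul
    (((((hy.pow 3).add ((hI 234).mul (hy.pow 2))).add ((hI 756).mul hy)).add (hI 2160)).pow 3)).mul
      (hv.pow 8)).mul hu

end Nine


/-! ### Transfer along an algebra map -/

section Transfer

variable {L R F : Type*} [Field L] [CommRing R] [Field F] [Algebra L R] [Algebra R F]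
  [Algebra L F] [IsScalarTower L R F]

/-- Integrality over the subalgebra `L[φ a] ⊆ F` (`φ = algebraMap R F`) gives integrality over
the subalgebra `L[a] ⊆ R`. -/
theorem isIntegral_adjoin_of_algebraMap (a : R) (x : F)
    (hx : IsIntegral (Algebra.adjoin L {algebraMap R F a}) x) :
    IsIntegral (Algebra.adjoin L {a}) x := by
  have hmap : (Algebra.adjoin L {a}).map (IsScalarTower.toAlgHom L R F) =
      Algebra.adjoin L {algebraMap R F a} := by
    rw [AlgHom.map_adjoin, Set.image_singleton]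
    rfl
  -- the surjection `L[a] → L[φ a]`
  let ψ : (Algebra.adjoin L {a}) →+* (Algebra.adjoin L {algebraMap R F a}) :=
    { toFun := fun z => ⟨algebraMap R F z.1, by
        rw [← hmap]
        exact ⟨z.1, z.2, rfl⟩⟩
      map_one' := Subtype.ext (map_one _)
      map_mul' := fun _ _ => Subtype.ext (map_mul _ _ _)
      map_zero' := Subtype.ext (map_zero _)
      map_add' := fun _ _ => Subtype.ext (map_add _ _ _) }
  have hψ : Function.Surjective ψ := by
    rintro ⟨t, ht⟩
    rw [← hmap] at ht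
    obtain ⟨z, hz, rfl⟩ := ht
    exact ⟨⟨z, hz⟩, rfl⟩
  obtain ⟨p, hp, hpx⟩ := hx
  obtain ⟨q, hq, -, hqm⟩ := Polynomial.lifts_and_degree_eq_and_monic
    (Polynomial.mem_lifts_of_surjective hψ p) hp
  refine ⟨q, hqm, ?_⟩
  have hcomp : algebraMap (Algebra.adjoin L {a}) F =
      (algebraMap (Algebra.adjoin L {algebraMap R F a}) F).comp ψ := rfl
  rw [hcomp, ← eval₂_map, hq]
  exact hpx

end Transfer

/-! ### The function field `F_M`, `9 ∣ M` -/

section FF

open ModularCurve Fermat.Agent.S24.Setup Fermat.Agent.Gateway.AuxLevel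

variable {M : ℕ} [NeZero M]

/-- The Hauptmodul `y₉` as an element of `F_M`, `9 ∣ M`. -/
noncomputable def y9F (h9 : 9 ∣ M) : FF M := ⟨L9.y9K, L9.y9K_mem_of_dvd h9⟩

@[simp] theorem coe_y9F (h9 : 9 ∣ M) : ((y9F h9 : FF M) : LaurentSeries Kbar) = L9.y9K := rfl

theorem y9F_rel9 (h9 : 9 ∣ M) :
    gen M h9 * (y9F h9 ^ 3 - 27) = y9F h9 ^ 3 * (y9F h9 ^ 3 - 24) ^ 3 := by
  apply Subtype.ext
  push_cast
  exact L9.jq9_y9K

theorem y9F_rel1 (h9 : 9 ∣ M) :
    jF M * ((y9F h9 - 3) ^ 8 * (y9F h9 ^ 3 - 27)) =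
      (y9F h9 + 6) ^ 3 * (y9F h9 ^ 3 + 234 * y9F h9 ^ 2 + 756 * y9F h9 + 2160) ^ 3 := by
  apply Subtype.ext
  push_cast
  exact L9.jq_y9K

theorem y9F_cube_sub_ne_zero (h9 : 9 ∣ M) : y9F h9 ^ 3 - 27 ≠ 0 := by
  intro h
  apply L9.y9K_cube_sub_ne_zero
  have h' : ((y9F h9 ^ 3 - 27 : FF M) : LaurentSeries Kbar) = ((0 : FF M) : LaurentSeries Kbar) :=
    congrArg _ h
  push_cast at h'
  exact h'

/-- `y₉` is integral over `Kbar[j(9z)]`. -/
theorem isIntegral_y9F (h9 : 9 ∣ M) : IsIntegral (Algebra.adjoin Kbar {gen M h9}) (y9F h9) :=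
  isIntegral_y (y9F_rel9 h9)

/-- `j` is integral over `Kbar[j(9z)]`. -/
theorem isIntegral_jF (h9 : 9 ∣ M) : IsIntegral (Algebra.adjoin Kbar {gen M h9}) (jF M) :=
  isIntegral_j (y9F_rel9 h9) (y9F_rel1 h9) (y9F_cube_sub_ne_zero h9)

/-- **The bridge**: integral over `Kbar[j]` implies integral over `Kbar[j(9z)]`. -/
theorem isIntegral_gen9_of_isIntegral_jF (h9 : 9 ∣ M) {x : FF M}
    (hx : IsIntegral (Algebra.adjoin Kbar {jF M}) x) :
    IsIntegral (Algebra.adjoin Kbar {gen M h9}) x :=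
  isIntegral_adjoin_trans (isIntegral_jF h9) hx

end FF

end Fermat.Agent.S16.Two.IntegralBridge
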