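import Mathlib

/-!
# U2: two models of the base field `k(ȳ)` of the special fibre

(P-S16 block U2, helper15.)  `κ ⊆ E` fields over `k`, `y : κ`.  The subfield `k⟮y⟯ ⊆ κ`
(an intermediate field of `κ / k`) and the subfield `k⟮(y : E)⟯ ⊆ E` acting on `κ` by inclusion
have the same trace form on `κ`.
-/

set_option autoImplicit false

namespace Fermat.Agent.S16.Two

open Polynomial IntermediateField

noncomputable section

variable {k E : Type*} [Field k] [Field E] [Algebra k E] (κ : IntermediateField k E) (y : κ)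

theorem coe_mem_adjoin_of_mem_adjoin {c : κ} (hc : c ∈ k⟮y⟯) : (c : E) ∈ k⟮(y : E)⟯ := by
  obtain ⟨r, s, rfl⟩ := (IntermediateField.mem_adjoin_simple_iff k c).mp hc
  rw [IntermediateField.mem_adjoin_simple_iff]
  refine ⟨r, s, ?_⟩
  have h1 : ∀ P : k[X], ((aeval y P : κ) : E) = aeval (y : E) P := fun P =>
    (Polynomial.aeval_algHom_apply κ.val y P).symm
  rw [IntermediateField.coe_div, h1, h1]

/-- the comparison map `k⟮y⟯ → k⟮(y : E)⟯`. -/
def adjoinCoe : k⟮y⟯ →+* k⟮(y : E)⟯ where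
  toFun c := ⟨((c : κ) : E), coe_mem_adjoin_of_mem_adjoin κ y c.2⟩
  map_one' := rfl
  map_mul' _ _ := rfl
  map_zero' := rfl
  map_add' _ _ := rfl

theorem adjoinCoe_bijective : Function.Bijective (adjoinCoe κ y) := by
  refine ⟨(adjoinCoe κ y).injective, ?_⟩
  rintro ⟨d, hd⟩
  obtain ⟨r, s, rfl⟩ := (IntermediateField.mem_adjoin_simple_iff k d).mp hd
  have hmem : aeval y r / aeval y s ∈ k⟮y⟯ :=
    (IntermediateField.mem_adjoin_simple_iff k _).mpr ⟨r, s, rfl⟩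
  refine ⟨⟨aeval y r / aeval y s, hmem⟩, ?_⟩
  apply Subtype.ext
  have h1 : ∀ P : k[X], ((aeval y P : κ) : E) = aeval (y : E) P := fun P =>
    (Polynomial.aeval_algHom_apply κ.val y P).symm
  show ((aeval y r / aeval y s : κ) : E) = _
  rw [IntermediateField.coe_div, h1, h1]

/-- **Comparison of traces.**  `[Algebra k⟮(y : E)⟯ κ]` is any algebra structure given by the
inclusion (`hincl`). -/
theorem trace_adjoin_coe_eq [Algebra k⟮(y : E)⟯ κ]
    (hincl : ∀ c : k⟮(y : E)⟯, ((algebraMap k⟮(y : E)⟯ κ c : κ) : E) = (c : E))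
    (φ : κ) (q : k[X])
    (h : algebraMap k⟮y⟯ κ (Algebra.trace k⟮y⟯ κ φ) = aeval y q) :
    Algebra.trace k⟮(y : E)⟯ κ φ = aeval (AdjoinSimple.gen k (y : E)) q := by
  let e : k⟮y⟯ ≃+* k⟮(y : E)⟯ := RingEquiv.ofBijective (adjoinCoe κ y) (adjoinCoe_bijective κ y)
  have he : (algebraMap k⟮(y : E)⟯ κ).comp (e : k⟮y⟯ →+* k⟮(y : E)⟯) = algebraMap k⟮y⟯ κ := by
    ext c
    rw [RingHom.comp_apply, hincl]
    rfl
  have h1 := Algebra.trace_eq_of_ringEquiv e he φ
  rw [← h1]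
  apply Subtype.ext
  have h2 : ((e (Algebra.trace k⟮y⟯ κ φ) : k⟮(y : E)⟯) : E) =
      ((algebraMap k⟮y⟯ κ (Algebra.trace k⟮y⟯ κ φ) : κ) : E) := rfl
  rw [h2, h]
  have h3 : ((aeval y q : κ) : E) = aeval (y : E) q :=
    (Polynomial.aeval_algHom_apply κ.val y q).symm
  rw [h3]
  have h4 := Polynomial.aeval_algHom_apply (k⟮(y : E)⟯.val) (AdjoinSimple.gen k (y : E)) q
  rw [IntermediateField.val_mk] at h4
  exact h4

/-- **Comparison of degrees.** -/
theorem finrank_adjoin_coe_eq [Algebra k⟮(y : E)⟯ κ]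
    (hincl : ∀ c : k⟮(y : E)⟯, ((algebraMap k⟮(y : E)⟯ κ c : κ) : E) = (c : E)) :
    Module.finrank k⟮y⟯ κ = Module.finrank k⟮(y : E)⟯ κ := by
  let e : k⟮y⟯ ≃+* k⟮(y : E)⟯ := RingEquiv.ofBijective (adjoinCoe κ y) (adjoinCoe_bijective κ y)
  refine Algebra.finrank_eq_of_equiv_equiv e (RingEquiv.refl κ) ?_
  ext c
  rw [RingHom.comp_apply, hincl]
  rfl

end

end Fermat.Agent.S16.Two
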