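import Mathlib
import Fermat.Agent.S16.Two.CuspSum
import Fermat.Agent.S16.Two.Degree
import Fermat.Agent.S16.Two.TraceBridge
import Fermat.Agent.S16.Two.IntegralBridge
import Fermat.Agent.Gateway.GoodRed.PolesOfRel
import Fermat.Agent.Gateway.GoodRed.TLine9
import Fermat.Agent.Gateway.GoodRed.Instantiate.GaussDataHaupt
import Fermat.Agent.Gateway.C0.LevelFactsK
import Fermat.Agent.Gateway.C0.ExportsModular
import Fermat.Agent.Gateway.GoodRed.Instantiate.CuspPlaces
import Fermat.Agent.S16.Two.Genus9p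

/-!
# U2, input (I4c): the trace unit on the special fibre

(P-S16 block U2, helper21; plan = team note 775.)
-/

set_option autoImplicit false
set_option linter.unusedSectionVars false
set_option linter.style.haveILetI false

noncomputable section

namespace Fermat.Agent.S16.Two.SpecialFibre

open AlgebraicCurve Polynomial IntermediateField Module
open Fermat.Agent.Lib.RiemannRoch Fermat.Agent.Lib.RiemannRoch.FunctionFieldRR
open Fermat.Agent.S16.Two.Degree

section Abstract

variable {K F : Type*} [Field K] [Field F] [Algebra K F]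

/-- a root of a monic relation `j * q(x) = p(x)`, `deg q < deg p`, is integral over `K[j]`. -/
theorem isIntegral_of_rel (p q : K[X]) (hp : p.Monic) (hdeg : q.natDegree < p.natDegree)
    (x j : F) (hrel : j * aeval x q = aeval x p) : IsIntegral (Algebra.adjoin K {j}) x := by
  set S := Algebra.adjoin K {j} with hS
  have hjS : j ∈ S := Algebra.self_mem_adjoin_singleton K j
  let jS : S := ⟨j, hjS⟩
  let P : S[X] := p.map (algebraMap K S) - C jS * q.map (algebraMap K S)
  have hpS : (p.map (algebraMap K S)).Monic := hp.map _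
  have hdegS : (C jS * q.map (algebraMap K S)).degree < (p.map (algebraMap K S)).degree := by
    have h1 : (C jS * q.map (algebraMap K S)).degree ≤ (q.map (algebraMap K S)).degree := by
      refine (degree_mul_le _ _).trans ?_
      have : (C jS).degree ≤ 0 := degree_C_le
      calc (C jS).degree + (q.map (algebraMap K S)).degree
          ≤ 0 + (q.map (algebraMap K S)).degree := by gcongr
        _ = (q.map (algebraMap K S)).degree := zero_add _
    refine h1.trans_lt ?_
    rw [degree_map, degree_map]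
    exact degree_lt_degree hdeg
  refine ⟨P, hpS.sub_of_left hdegS, ?_⟩
  have e1 : ∀ r : K[X], eval₂ (algebraMap S F) x (r.map (algebraMap K S)) = aeval x r := by
    intro r
    rw [eval₂_map, ← IsScalarTower.algebraMap_eq K S F]
    rfl
  show eval₂ (algebraMap S F) x P = 0
  rw [eval₂_sub, eval₂_mul, eval₂_C, e1, e1]
  show aeval x p - j * aeval x q = 0
  rw [hrel, sub_self]

theorem finiteDimensional_of_adjoin_le {A B : IntermediateField K F} (h : A ≤ B)
    [FiniteDimensional A F] : FiniteDimensional B F := by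
  letI : Algebra A B := (IntermediateField.inclusion h).toRingHom.toAlgebra
  haveI : IsScalarTower A B F := IsScalarTower.of_algebraMap_eq fun _ => rfl
  exact Module.Finite.of_restrictScalars_finite A B F

theorem isSeparable_of_adjoin_le {A B : IntermediateField K F} (h : A ≤ B)
    [Algebra.IsSeparable A F] : Algebra.IsSeparable B F := by
  letI : Algebra A B := (IntermediateField.inclusion h).toRingHom.toAlgebra
  haveI : IsScalarTower A B F := IsScalarTower.of_algebraMap_eq fun _ => rfl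
  exact Algebra.isSeparable_tower_top_of_isSeparable A B F

variable [IsAlgClosed K]

/-- three distinct nonzero roots of `X³ - 27` (`3 ≠ 0`). -/
theorem exists_roots27 (h3 : (3 : K) ≠ 0) :
    ∃ R : Finset K, R.card = 3 ∧ (0 : K) ∉ R ∧ ∀ a ∈ R, (D1 K).IsRoot a := by
  classical
  obtain ⟨w, hw⟩ : ∃ w : K, w ^ 2 + w + 1 = 0 := by
    have hdeg : (X ^ 2 + X + 1 : K[X]).degree ≠ 0 := by
      have : (X ^ 2 + X + 1 : K[X]).degree = 2 := by compute_degree!
      rw [this]; norm_num
    obtain ⟨w, hw⟩ := IsAlgClosed.exists_root (X ^ 2 + X + 1 : K[X]) hdeg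
    refine ⟨w, ?_⟩
    simpa using hw
  have hw3 : w ^ 3 = 1 := Fermat.Agent.Gateway.GoodRed.TLine9.w_cube hw
  have hw0 : w ≠ 0 := by
    rintro rfl
    simp at hw3
  refine ⟨{3, 3 * w, 3 * w ^ 2}, ?_, ?_, ?_⟩
  · rw [Finset.card_insert_of_notMem, Finset.card_insert_of_notMem, Finset.card_singleton]
    · rw [Finset.mem_singleton]
      exact (Fermat.Agent.Gateway.GoodRed.TLine9.three_w_sq_ne_three_w h3 hw).symm
    · rw [Finset.mem_insert, Finset.mem_singleton]
      rintro (h | h)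
      · exact Fermat.Agent.Gateway.GoodRed.TLine9.three_w_ne_three h3 hw h.symm
      · exact Fermat.Agent.Gateway.GoodRed.TLine9.three_w_sq_ne_three h3 hw h.symm
  · rw [Finset.mem_insert, Finset.mem_insert, Finset.mem_singleton]
    rintro (h | h | h)
    · exact h3 h.symm
    · exact mul_ne_zero h3 hw0 h.symm
    · exact mul_ne_zero h3 (pow_ne_zero 2 hw0) h.symm
  · intro a ha
    rw [Finset.mem_insert, Finset.mem_insert, Finset.mem_singleton] at ha
    have ha3 : a ^ 3 = 27 := by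
      rcases ha with rfl | rfl | rfl
      · norm_num
      · rw [mul_pow, hw3]; norm_num
      · rw [mul_pow, ← pow_mul, mul_comm 2 3, pow_mul, hw3]; norm_num
    rw [Polynomial.IsRoot, D1]
    simp only [eval_mul, eval_pow, eval_sub, eval_X, eval_ofNat]
    rw [ha3, sub_self, mul_zero]

/-- **(I4c), abstract form.**  `j = N1(x)/D1(x)`; if the number `c` of poles of `j` and a genus
bound `g` satisfy `2 g - 2 + c ≤ 2 [F : K(x)]`, there is a function integral over `K[x]` and
over `K[j]` whose trace to `K(x)` is a polynomial in `x` not vanishing at `0`. -/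
theorem exists_trace_unit_of_rel (h3 : (3 : K) ≠ 0) {x j : F} (hx : Transcendental K x)
    [FiniteDimensional K⟮x⟯ F] [Algebra.IsSeparable K⟮x⟯ F]
    (hrel : j * aeval x (D1 K) = aeval x (N1 K))
    (g : ℕ) (hg : genusFF K F ≤ g) (c : ℕ)
    (hfin : {P : Place K F | P.ord j < 0}.Finite)
    (hc : Nat.card {P : Place K F // P.ord j < 0} ≤ c)
    (hcount : 2 * (g : ℤ) - 2 + (c : ℤ) ≤ 2 * (finrank K⟮x⟯ F : ℤ)) :
    ∃ φ : F, IsIntegral (Algebra.adjoin K {x}) φ ∧ IsIntegral (Algebra.adjoin K {j}) φ ∧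
      ∃ q : K[X], algebraMap K⟮x⟯ F (Algebra.trace K⟮x⟯ F φ) = aeval x q ∧ q.eval 0 ≠ 0 := by
  obtain ⟨R, hR3, hR0, hRroot⟩ := exists_roots27 h3
  -- the cusp set is contained in the set of poles of `j`
  have hsub : ∀ v : Place K F,
      (v.ord x < 0 ∨ ∃ a ∈ R, 0 < v.ord (x - algebraMap K F a)) → v.ord j < 0 := by
    intro v hv
    refine Fermat.Agent.Gateway.GoodRed.PolesOfRel.ord_neg_of_rel v (N1 K) (D1 K)
      (isCoprime_N1_D1 h3) (by rw [natDegree_N1, natDegree_D1]; norm_num) x j hrel ?_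
    rcases hv with h | ⟨a, ha, h⟩
    · exact Or.inl h
    · exact Or.inr ⟨a, hRroot a ha, h⟩
  have hcard : Nat.card {v : Place K F //
      v.ord x < 0 ∨ ∃ a ∈ R, 0 < v.ord (x - algebraMap K F a)} ≤ c := by
    haveI : Finite {P : Place K F // P.ord j < 0} := hfin.to_subtype
    refine le_trans ?_ hc
    exact Nat.card_le_card_of_injective (fun v => ⟨v.1, hsub v.1 v.2⟩)
      (fun a b h => Subtype.ext (congrArg (fun z => z.1) h))
  obtain ⟨φ, hφ, q, hq, hq0⟩ := exists_trace_unit_of_card_cusps_le hx g hg R hR0 c hcard (by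
    rw [hR3]; push_cast; linarith)
  refine ⟨φ, hφ, ?_, q, hq, hq0⟩
  have hxj : IsIntegral (Algebra.adjoin K {j}) x :=
    isIntegral_of_rel (N1 K) (D1 K) (monic_N1 K) (by rw [natDegree_N1, natDegree_D1]; norm_num)
      x j hrel
  exact Fermat.Agent.S16.Two.IntegralBridge.isIntegral_adjoin_trans hxj hφ

end Abstract

/-! ### The modular instantiation -/

section Modular

open ModularCurve Fermat.Agent.Gateway.GoodRed Fermat.Agent.Gateway.GoodRed.ConjFamily
open Fermat.Agent.Gateway.AuxLevel Fermat.Agent.Gateway.GoodRed.GaussDataHaupt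

variable (k : Type) [Field k] [IsAlgClosed k] (M : ℕ) [NeZero M]
  (hmemk : L9.y9R k ∈ modularFunctionFieldFullC k M)

/-- `ȳ₉` as an element of `κ = Fk k M`. -/
def ybar : Fk k M := ⟨L9.y9R k, hmemk⟩

theorem coe_ybar : ((ybar k M hmemk : Fk k M) : LaurentSeries k) = L9.y9R k := rfl

theorem coe_aeval_ybar (P : k[X]) :
    ((aeval (ybar k M hmemk) P : Fk k M) : LaurentSeries k) = aeval (L9.y9R k) P :=
  (Polynomial.aeval_algHom_apply (Fk k M).val (ybar k M hmemk) P).symm

theorem transcendental_ybar : Transcendental k (ybar k M hmemk) := by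
  apply (transcendental_algebraMap_iff
    (algebraMap (Fk k M) (LaurentSeries k)).injective).mp
  exact transcendental_y9k k

/-- `j̄ · D1(ȳ₉) = N1(ȳ₉)` in `κ`. -/
theorem jFk_mul_D1 :
    jFk k M * aeval (ybar k M hmemk) (D1 k) = aeval (ybar k M hmemk) (N1 k) := by
  apply Subtype.ext
  rw [MulMemClass.coe_mul, coe_aeval_ybar, coe_aeval_ybar]
  exact (TLine9.rel_inf (k := k)).symm

theorem aeval_ybar_D1_ne_zero : aeval (ybar k M hmemk) (D1 k) ≠ 0 := by
  intro h
  exact transcendental_ybar k M hmemk ⟨D1 k, (monic_D1 k).ne_zero, h⟩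

theorem jFk_mem_adjoin_ybar : jFk k M ∈ k⟮ybar k M hmemk⟯ := by
  have h : jFk k M = aeval (ybar k M hmemk) (N1 k) / aeval (ybar k M hmemk) (D1 k) := by
    rw [eq_div_iff (aeval_ybar_D1_ne_zero k M hmemk)]
    exact jFk_mul_D1 k M hmemk
  rw [h, IntermediateField.mem_adjoin_simple_iff]
  exact ⟨N1 k, D1 k, rfl⟩

theorem adjoin_jFk_le : k⟮jFk k M⟯ ≤ k⟮ybar k M hmemk⟯ :=
  IntermediateField.adjoin_simple_le_iff.mpr (jFk_mem_adjoin_ybar k M hmemk)

theorem finiteDimensional_ybar (hMk : (M : k) ≠ 0) :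
    FiniteDimensional k⟮ybar k M hmemk⟯ (Fk k M) := by
  haveI := Fermat.Agent.Gateway.C0.LevelFacts.finiteDimensional_jFk hMk
  exact finiteDimensional_of_adjoin_le (adjoin_jFk_le k M hmemk)

theorem isSeparable_ybar (hMk : (M : k) ≠ 0) :
    Algebra.IsSeparable k⟮ybar k M hmemk⟯ (Fk k M) := by
  haveI := Fermat.Agent.Gateway.C0.LevelFacts.isSeparable_jFk hMk
  exact isSeparable_of_adjoin_le (adjoin_jFk_le k M hmemk)

theorem finite_poles_jFk (hMk : (M : k) ≠ 0) :
    {P : Place k (Fk k M) | P.ord (jFk k M) < 0}.Finite := by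
  haveI := Fermat.Agent.Gateway.C0.LevelFacts.finiteDimensional_jFk hMk
  haveI := Fermat.Agent.Gateway.C0.LevelFacts.isSeparable_jFk hMk
  refine (finite_cusps (Fermat.Agent.Gateway.C0.LevelFacts.transcendental_jFk k M) ∅).subset ?_
  intro P hP
  exact Or.inl hP

/-- **Input (I4c) of (U2)**, in the shape of `hunit` of `Two/FinalGlue.false_of_inputs`
(base field `k⟮ȳ₉⟯ ⊆ k((q))` acting on `κ` through helper61's `algebraKy`). -/
theorem exists_hunit (h3 : (3 : k) ≠ 0) (hMk : (M : k) ≠ 0) (g c : ℕ)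
    (hg : genusFF k (Fk k M) ≤ g)
    (hc : Nat.card {P : Place k (Fk k M) // P.ord (jFk k M) < 0} ≤ c)
    (hcount : 2 * (g : ℤ) - 2 + (c : ℤ) ≤
      2 * (@Module.finrank (k⟮L9.y9R k⟯) (Fk k M) _ _ (algebraKy k M hmemk).toModule : ℤ)) :
    letI := algebraKy k M hmemk
    ∃ φb : Fk k M, IsIntegral (Algebra.adjoin k {jFk k M}) φb ∧
      ∃ q : k[X], Algebra.trace (k⟮L9.y9R k⟯) (Fk k M) φb =
        aeval (AdjoinSimple.gen k (L9.y9R k)) q ∧ q.eval 0 ≠ 0 := by
  haveI := finiteDimensional_ybar k M hmemk hMk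
  haveI := isSeparable_ybar k M hmemk hMk
  have hincl : ∀ c : k⟮L9.y9R k⟯,
      ((@algebraMap (k⟮L9.y9R k⟯) (Fk k M) _ _ (algebraKy k M hmemk) c : Fk k M) :
        LaurentSeries k) = (c : LaurentSeries k) := coe_algebraMap_Ky k M hmemk
  have hfr := @finrank_adjoin_coe_eq k (LaurentSeries k) _ _ _ (Fk k M) (ybar k M hmemk)
    (algebraKy k M hmemk) hincl
  obtain ⟨φ, -, hφj, q, hq, hq0⟩ := exists_trace_unit_of_rel h3
    (transcendental_ybar k M hmemk) (jFk_mul_D1 k M hmemk) g hg c (finite_poles_jFk k M hMk) hc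
    (by rw [hfr]; exact hcount)
  exact ⟨φ, hφj, q, @trace_adjoin_coe_eq k (LaurentSeries k) _ _ _ (Fk k M) (ybar k M hmemk)
    (algebraKy k M hmemk) hincl φ q hq, hq0⟩

/-- **Input (I4c) of (U2)** with the numbers of level `9p`: genus `≤ p - 2`, at most `8` cusps,
`[κ : k(ȳ₉)] ≥ p + 1`. -/
theorem exists_hunit_nine_mul [CharP k 2] (hMk : (M : k) ≠ 0) (p : ℕ) (hp5 : 5 ≤ p)
    (hg : genusFF k (Fk k M) ≤ p - 2)
    (hc : Nat.card {P : Place k (Fk k M) // P.ord (jFk k M) < 0} ≤ 8)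
    (hn : p + 1 ≤ @Module.finrank (k⟮L9.y9R k⟯) (Fk k M) _ _ (algebraKy k M hmemk).toModule) :
    letI := algebraKy k M hmemk
    ∃ φb : Fk k M, IsIntegral (Algebra.adjoin k {jFk k M}) φb ∧
      ∃ q : k[X], Algebra.trace (k⟮L9.y9R k⟯) (Fk k M) φb =
        aeval (AdjoinSimple.gen k (L9.y9R k)) q ∧ q.eval 0 ≠ 0 := by
  refine exists_hunit k M hmemk three_ne_zero_of_charTwo hMk (p - 2) 8 hg hc ?_
  have h1 : ((p - 2 : ℕ) : ℤ) = (p : ℤ) - 2 := by omega
  have h2 : ((p : ℤ) + 1) ≤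
      (@Module.finrank (k⟮L9.y9R k⟯) (Fk k M) _ _ (algebraKy k M hmemk).toModule : ℤ) := by
    exact_mod_cast hn
  rw [h1]
  push_cast
  linarith

end Modular

/-! ### In the setting of a valuation subring over `2` -/

section Model

open ModularCurve Fermat.Agent.Gateway.GoodRed Fermat.Agent.Gateway.GoodRed.ConjFamily
open Fermat.Agent.Gateway.AuxLevel Fermat.Agent.Gateway.GoodRed.GaussDataHaupt
open Fermat.Agent.S24.Setup (Kbar)

variable (A : ValuationSubring Kbar) {k : Type} [Field k] (π : ↥A →+* k) (M : ℕ)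
  [IsAlgClosed k] [Fact (Nat.Prime 2)] [CharP k 2] [NeZero M]
  (hπ : Function.Surjective π) (hℓM : ¬ 2 ∣ M) (h9 : 9 ∣ M)

/-- `[κ : k(ȳ₉)] = p + 1` at level `M = 9p`. -/
theorem finrank_Ky_nine_mul (p : ℕ) (hp : p.Prime) (hp5 : 5 ≤ p) (hM : M = 9 * p) :
    @Module.finrank (k⟮L9.y9R k⟯) (Fk k M) _ _
      (algebraKy k M (y9R_mem_Fk A π M 2 hπ hℓM h9)).toModule = p + 1 := by
  have h1 := finrank_Ky_eq A π M 2 hπ hℓM h9 (y9R_mem_Fk A π M 2 hπ hℓM h9)
  have h2 := twelve_mul_finrank_RFy M h9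
  have h3 := Fermat.Agent.S16.Two.dedekindPsi_of_eq hM hp (by omega)
  rw [h1]
  omega

/-- **Input (I4c) of (U2)**, with the pole count and the degree discharged: only the genus bound
remains. -/
theorem exists_hunit_of_model (p : ℕ) (hp : p.Prime) (hp5 : 5 ≤ p) (hM : M = 9 * p)
    (hg : genusFF k (Fk k M) ≤ p - 2) :
    letI := algebraKy k M (y9R_mem_Fk A π M 2 hπ hℓM h9)
    ∃ φb : Fk k M, IsIntegral (Algebra.adjoin k {jFk k M}) φb ∧
      ∃ q : k[X], Algebra.trace (k⟮L9.y9R k⟯) (Fk k M) φb =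
        aeval (AdjoinSimple.gen k (L9.y9R k)) q ∧ q.eval 0 ≠ 0 := by
  have hMk : ((M : ℕ) : k) ≠ 0 := natCast_ne_zero_k M 2 hℓM
  have hc : Nat.card {P : Place k (Fk k M) // P.ord (jFk k M) < 0} ≤ 8 := by
    have h := Fermat.Agent.Gateway.GoodRed.CuspPlaces.card_polePlaces_le A π M 2 hπ hℓM
    rwa [Fermat.Agent.S16.Two.cuspCount_of_eq hM hp hp5] at h
  exact exists_hunit_nine_mul k M (y9R_mem_Fk A π M 2 hπ hℓM h9) hMk p hp5 hg hc
    (le_of_eq (finrank_Ky_nine_mul A π M hπ hℓM h9 p hp hp5 hM).symm)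

/-- **Input (I4c) of (U2)** from the level facts `GoodLevelFacts` (genus equality of C0). -/
theorem exists_hunit_of_facts (hA : A.LiesOverPrime 2)
    (H : Fermat.Agent.Gateway.C0.GoodLevelFacts A π M 2 hπ hℓM)
    (p : ℕ) [Fact p.Prime] (hp5 : 5 ≤ p) (hM : M = 9 * p) :
    letI := algebraKy k M (y9R_mem_Fk A π M 2 hπ hℓM h9)
    ∃ φb : Fk k M, IsIntegral (Algebra.adjoin k {jFk k M}) φb ∧
      ∃ q : k[X], Algebra.trace (k⟮L9.y9R k⟯) (Fk k M) φb =
        aeval (AdjoinSimple.gen k (L9.y9R k)) q ∧ q.eval 0 ≠ 0 := by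
  refine exists_hunit_of_model A π M hπ hℓM h9 p Fact.out hp5 hM (le_of_eq ?_)
  rw [Fermat.Agent.Gateway.C0.genusFF_Fk_eq A π M 2 hπ hℓM hA H]
  exact Fermat.Agent.S16.Two.genusFF_of_eq hM hp5

end Model

end Fermat.Agent.S16.Two.SpecialFibre

end
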