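import Mathlib
import Fermat.Agent.S16.Two.FinalGlue
import Fermat.Agent.S16.Two.HForm
import Fermat.Agent.S16.Two.Genus9p
import Fermat.Agent.S16.Two.AModel
import Fermat.Agent.Gateway.GoodRed.Instantiate.GaussDataHaupt
import Fermat.Agent.Gateway.GoodRed.Instantiate.GenusFinal
import Fermat.Agent.Gateway.C0.ExportsModular
import Fermat.Agent.S16.Two.SpecialFibre

/-!
# P-S16 block U2: `NoUnitForm p 2 3`

(helper15; plan: team note 775.)  `false_of_hunit`: the whole of U2 except the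
Riemann-Hurwitz input (I4) on the special fibre, which is the hypothesis `hunit`;
`noUnitForm_two`: the final statement (with `SpecialFibre.exists_hunit_of_facts`, helper21).
-/

set_option autoImplicit false

namespace Fermat.Agent.S16.Two

open Polynomial ModularCurve IntermediateField
open Fermat.Agent.S24.Setup Fermat.Agent.Gateway.AuxLevel
open Fermat.Agent.Gateway.Red Fermat.Agent.Gateway.GoodRed Fermat.Agent.Gateway.GoodRed.GaussRing
open Fermat.Agent.Gateway.GoodRed.ConjFamily Fermat.Agent.Gateway.GoodRed.GaussDataHaupt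

noncomputable section

/-- (G2) + (G3) at a level divisible by `9`, residue characteristic `2`. -/
theorem goodLevelFacts_two (A : ValuationSubring Kbar) {k : Type} [Field k] (π : ↥A →+* k)
    (M : ℕ) [NeZero M] [IsAlgClosed k] [Fact (Nat.Prime 2)] [CharP k 2]
    (hπ : Function.Surjective π) (hℓM : ¬ 2 ∣ M) (h9 : 9 ∣ M) :
    Fermat.Agent.Gateway.C0.GoodLevelFacts A π M 2 hπ hℓM where
  genus_le := genusFF_le_of_nine_dvd 2 A π hπ hℓM h9
  integral := IntegralRed.isIntegral_resFk_of_isIntegral_j A π M 2 hπ hℓM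
  integral_inv := IntegralRed.isIntegral_resFk_of_isIntegral_jinv A π M 2 hπ hℓM

/-- **U2 modulo (I4).** -/
theorem false_of_hunit (p : ℕ) [Fact p.Prime] (M : ℕ) [NeZero M]
    (h9 : 9 ∣ M) (hpM : p ∣ M) (hℓM : ¬ 2 ∣ M)
    (A : ValuationSubring Kbar) (hA : A.LiesOverPrime 2)
    {k : Type} [Field k] (π : ↥A →+* k) [IsAlgClosed k] [Fact (Nat.Prime 2)] [CharP k 2]
    (hπ : Function.Surjective π)
    (hmemk : L9.y9R k ∈ modularFunctionFieldFullC k M)
    (hunit :
      letI := algebraKy k M hmemk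
      ∃ φb : modularFunctionFieldFullC k M,
        IsIntegral (Algebra.adjoin k {jFk k M}) φb ∧
          ∃ q : k[X], Algebra.trace k⟮L9.y9R k⟯ (modularFunctionFieldFullC k M) φb =
            aeval (AdjoinSimple.gen k (L9.y9R k)) q ∧ q.eval 0 ≠ 0)
    (hcon : ¬ Fermat.Agent.S16.NoUnitForm p 2 3) : False := by
  have h2A : A.valuation (2 : Kbar) < 1 := AModel.valuation_two_lt_one hA
  obtain ⟨H, w, hw, hH, hΨ⟩ := exists_H_w_of_not_noUnitForm h9 hpM A π h2A hcon
  have HG := goodLevelFacts_two A π M hπ hℓM h9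
  letI := algebraRFy M h9
  haveI := isScalarTower_RFy M h9
  haveI := finiteDimensional_RFy M h9
  letI := algebraKy k M hmemk
  refine false_of_inputs A π M hπ hℓM h2A (HauptRed.y9F M h9) (algebraMap_RFy_algebraMap M h9)
    ?_ ?_ (y9A_order_neg A) (y9A_isUnit_leadingCoeff A) (redA_y9A A π)
    (trace_mem_Ox A π M 2 hπ hℓM h9) (fun f => redOx_trace A π M 2 hπ hℓM h9 hmemk f)
    H w ?_ hH ?_ hunit ?_
  · -- the relation `j · D1(y) = N1(y)`
    apply Subtype.ext
    have hcoe : ∀ P : Kbar[X], ((aeval (HauptRed.y9F M h9) P : FBar Kbar M) :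
        LaurentSeries Kbar) = aeval L9.y9K P := fun P =>
      (Polynomial.aeval_algHom_apply (FBar Kbar M).val (HauptRed.y9F M h9) P).symm
    rw [MulMemClass.coe_mul, hcoe, hcoe]
    have h := L9.jq_y9R Kbar
    simp only [numJ1, denJ1, map_mul, map_pow, map_sub, map_add, aeval_X, map_ofNat]
    exact h
  · intro h0
    have hcoe : ((aeval (HauptRed.y9F M h9) (denJ1 Kbar) : FBar Kbar M) :
        LaurentSeries Kbar) = aeval L9.y9K (denJ1 Kbar) :=
      (Polynomial.aeval_algHom_apply (FBar Kbar M).val (HauptRed.y9F M h9) _).symm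
    rw [h0] at hcoe
    simp only [denJ1, map_mul, map_pow, map_sub, aeval_X, map_ofNat] at hcoe
    have h1 := L9.y9K_sub_ne_zero
    have h2 := L9.y9K_cube_sub_ne_zero
    exact mul_ne_zero (pow_ne_zero 8 h1) h2 hcoe.symm
  · exact hw
  · rw [Fermat.Agent.Gateway.C0.LevelFacts.jF_eq_setup_jF M]
    exact hΨ
  · intro φb hφ
    exact Fermat.Agent.Gateway.C0.exists_lift_resFk A π M 2 hπ hℓM hA HG φb hφ

/-- **Block U2 of P-S16**: there is no weight two form on `Γ₀(p)`, `p ≥ 5` prime, with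
`2`-integral rational `q`-expansion `≡ 1 mod 8`. -/
theorem noUnitForm_two (p : ℕ) [Fact p.Prime] (hp : 5 ≤ p) :
    Fermat.Agent.S16.NoUnitForm p 2 3 := by
  by_contra hcon
  obtain ⟨A, hA, hac, hchar, -, hsurj⟩ := AModel.exists_model
  haveI := hac
  haveI := hchar
  haveI : Fact (Nat.Prime 2) := ⟨Nat.prime_two⟩
  have hpp : p.Prime := Fact.out
  obtain ⟨M, hM⟩ : ∃ M : ℕ, M = 9 * p := ⟨_, rfl⟩
  haveI : NeZero M := ⟨by rw [hM]; have := hpp.pos; omega⟩
  have h9 : 9 ∣ M := ⟨p, hM⟩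
  have hpM : p ∣ M := ⟨9, by rw [hM, mul_comm]⟩
  have hℓM : ¬ 2 ∣ M := by
    rw [hM]
    intro h
    have h2 : 2 ∣ p := Nat.Coprime.dvd_of_dvd_mul_left (by norm_num : Nat.Coprime 2 9) h
    have := (Nat.prime_dvd_prime_iff_eq Nat.prime_two hpp).mp h2
    omega
  have HG := goodLevelFacts_two A (IsLocalRing.residue ↥A) M hsurj hℓM h9
  have hunit := SpecialFibre.exists_hunit_of_facts A (IsLocalRing.residue ↥A) M hsurj hℓM h9 hA HG
    p hp hM
  exact false_of_hunit p M h9 hpM hℓM A hA (IsLocalRing.residue ↥A) hsurj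
    (y9R_mem_Fk A (IsLocalRing.residue ↥A) M 2 hsurj hℓM h9) hunit hcon

end

end Fermat.Agent.S16.Two
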