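/-
P-S16, block U2, WP-U2-DICT (helper74; blueprint: team note 683 step (a)).

The analytic → algebraic dictionary for a weight two MODULAR form (not necessarily cuspidal)
divided by `θ(y₉) = q d y₉ / dq`.  This generalises part (α) of WP-GR8
(`Gateway/GoodRed/Forms/Analytic.lean`, `Gateway/GoodRed/Forms.lean`, written there for cusp
forms) to holomorphic functions `f` on `ℍ` which are weight two invariant under `Γ₀(M)` and bounded
at all cusps (`RatioForms.IsMF M 2 f`):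

* `hqM_mem` : `qf / (q dt/dq) ∈ F_M = modularFunctionFieldBar M`;
* `hqM_isIntegral` : this element is integral over `Kbar[j]`;
* `exists_psi` : the instance `M = 9p`, `t = y₉`, `f = G ∈ M₂(Γ₀(p))` with rational coefficients.
-/
import Mathlib
import Fermat.Agent.Gateway.GoodRed.Forms.AuxData
import Fermat.Agent.S16.RatioForms.Analytic
import Fermat.Prelude.Def_FLTPrelim_Modularity

set_option autoImplicit false
set_option linter.unusedSectionVars false

open UpperHalfPlane Complex Filter ModularForm CongruenceSubgroup ModularCurve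
open scoped Manifold MatrixGroups ModularForm

noncomputable section

namespace Fermat.Agent.S16.Two

open Fermat.Agent.S24 Fermat.Agent.S24.QExp Fermat.Agent.S24.Setup Derivative
open Fermat.Agent.S24.CuspOrd (cuspFnAlg IsCuspFn IsCuspMer)
open Fermat.Agent.Gateway.GoodRed.Forms Fermat.Agent.Gateway.Dict
open Fermat.Agent.S16.RatioForms (IsMF)

/-! ### The function `h = f / D θ` for a weight two form `f` bounded at the cusps -/

section Han

variable {M : ℕ} [NeZero M] (T : HauptAn M) {f : ℍ → ℂ} (hf : IsMF M 2 f)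

/-- The cusp function `f ∣[2] g⁻¹`. -/
def fslM (g : SL(2, ℤ)) : cuspFnAlg M := ⟨hf.hol g⁻¹, hf.hol_mem_cuspFnAlg g⁻¹⟩

theorem fslM_apply (g : SL(2, ℤ)) (z : ℍ) :
    (((fslM hf g : cuspFnAlg M) : HolFun) : ℍ → ℂ) z =
      f (g⁻¹ • z) * UpperHalfPlane.denom (g⁻¹ : SL(2, ℤ)) z ^ (-(2 : ℤ)) := by
  show (f ∣[(2 : ℤ)] g⁻¹) z = _
  rw [ModularForm.SL_slash_apply]

/-- The holomorphic function `h = f / D θ`. -/
def hanM : HolFun :=
  ⟨fun z => f z / D (T.θ : ℍ → ℂ) z, by
    have hf' := UpperHalfPlane.mdifferentiable_iff.mp hf.mdiff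
    have hd := UpperHalfPlane.mdifferentiable_iff.mp
      (normalizedDerivOfComplex_mdifferentiable T.θ.2)
    refine UpperHalfPlane.mdifferentiable_iff.mpr ((hf'.div hd ?_).congr ?_)
    · intro w hw
      exact T.dne _
    · intro w hw
      rfl⟩

theorem hanM_apply (z : ℍ) :
    ((hanM T hf : HolFun) : ℍ → ℂ) z = f z / D (T.θ : ℍ → ℂ) z := rfl

/-- **The key identity** `(g • h) * D (g • θ) = f ∣[2] g⁻¹`. -/
theorem smul_hanM_mul (g : SL(2, ℤ)) :
    (g • hanM T hf) * ((T.dtr g : cuspFnAlg M) : HolFun) =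
      ((fslM hf g : cuspFnAlg M) : HolFun) := by
  apply HolFun.ext
  intro z
  rw [HolFun.coe_mul_apply, HolFun.sl_smul_apply, hanM_apply, T.dtr_apply, fslM_apply]
  have := T.dne (g⁻¹ • z)
  field_simp

theorem smul_hanM_mem (g : SL(2, ℤ)) : g • hanM T hf ∈ cuspFnAlg M :=
  mem_cuspFnAlg_of_mul_eq (Nat.pos_of_ne_zero (NeZero.ne M)) (fslM hf g).2 (T.dtr g).2
    (dtr_ne_zero' T g) (smul_hanM_mul T hf g)

theorem hanM_inv (γ : SL(2, ℤ)) (hγ : γ ∈ Gamma0 M) : γ • hanM T hf = hanM T hf := by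
  apply HolFun.ext
  intro z
  rw [HolFun.sl_smul_apply, hanM_apply, hanM_apply]
  have hγ' : γ⁻¹ ∈ Gamma0 M := inv_mem hγ
  have e1 := congrFun (hf.slash_eq γ⁻¹ hγ') z
  rw [ModularForm.SL_slash_apply] at e1
  have e2 : D (T.θ : ℍ → ℂ) (γ⁻¹ • z) * UpperHalfPlane.denom (γ⁻¹ : SL(2, ℤ)) z ^ (-(2 : ℤ))
      = D (T.θ : ℍ → ℂ) z := by
    have := congrFun (D_smul T.θ γ) z
    rw [T.inv γ hγ, ModularForm.SL_slash_apply] at this
    exact this.symm
  have hden : UpperHalfPlane.denom (γ⁻¹ : SL(2, ℤ)) z ^ (-(2 : ℤ)) ≠ 0 :=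
    zpow_ne_zero _ (UpperHalfPlane.denom_ne_zero _ _)
  rw [← e1, ← e2, mul_div_mul_right _ _ hden]

theorem hanM_mem_growthAlg : hanM T hf ∈ SymmFn.growthAlg :=
  fun γ => (smul_hanM_mem T hf γ).growth

/-- `h` lies in the image of the analytic embedding of `ℂ(X₀(M))`. -/
theorem exists_embC_eq_hanM :
    ∃ x : SetupC.FC M, EmbedC.embC M x = algebraMap HolFun MerFun (hanM T hf) := by
  have := (RangeC.mem_range_embC_iff M (algebraMap HolFun MerFun (hanM T hf))).mpr ⟨?_, ?_⟩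
  · exact this
  · intro γ hγ
    rw [MerFun.sl_smul_algebraMap, hanM_inv T hf γ hγ]
  · intro g
    rw [MerFun.sl_smul_algebraMap]
    exact CuspOrd.isCuspMer_algebraMap (smul_hanM_mem T hf g)

theorem hanM_mem_perFun : hanM T hf ∈ PerFun := by
  refine ⟨isPer_one_of_inv (hanM_inv T hf), ?_⟩
  have := (smul_hanM_mem T hf 1).growth
  rwa [one_smul] at this

/-- **`q`-expansion of `h`**: `h * q dθ/dq = f` as Laurent series. -/
theorem qLaurent_hanM_mul :
    qLaurent ⟨hanM T hf, hanM_mem_perFun T hf⟩ *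
        (HahnSeries.single (1 : ℤ) (1 : ℂ) *
          Fermat.Agent.Lib.Residue.D (qLaurent ⟨T.θ, theta_mem_perFun T⟩)) =
      HahnSeries.ofPowerSeries ℤ ℂ (qExpansion 1 f) := by
  rw [← qLaurent_dPer, ← map_mul]
  have h1 : (⟨hanM T hf, hanM_mem_perFun T hf⟩ : PerFun) * dPer ⟨T.θ, theta_mem_perFun T⟩ =
      hf.per := by
    apply fn_injective
    funext z
    show (f z / D (T.θ : ℍ → ℂ) z) * D (T.θ : ℍ → ℂ) z = f z
    exact div_mul_cancel₀ _ (T.dne z)
  rw [h1]
  exact hf.qLaurent_per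

/-- **Integrality over `ℂ[j]`** of the preimage of `h` in the function field. -/
theorem exists_monic_relationM (x : SetupC.FC M)
    (hx : EmbedC.embC M x = algebraMap HolFun MerFun (hanM T hf)) :
    ∃ (n : ℕ) (p : ℕ → Polynomial ℂ),
      x ^ n + ∑ i ∈ Finset.range n, Polynomial.aeval (SetupC.jF M) (p i) * x ^ i = 0 := by
  obtain ⟨p, hp1, hrel⟩ := SymmFn.exists_relation (Gamma0 M) (hanM T hf) (hanM_inv T hf)
    (hanM_mem_growthAlg T hf)
  refine ⟨(Gamma0 M).index, p, ?_⟩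
  apply EmbedC.embC_injective M
  have hae : ∀ q : Polynomial ℂ, EmbedC.embC M (Polynomial.aeval (SetupC.jF M) q) =
      algebraMap HolFun MerFun (Polynomial.aeval jHol q) := fun q =>
    DegreeC.emb_aeval (EmbedC.embData M) q
  rw [map_add, map_pow, map_sum, map_zero, hx]
  simp only [map_mul, map_pow, hae, hx]
  rw [Finset.sum_range_succ, hp1, one_mul] at hrel
  have := congrArg (algebraMap HolFun MerFun) hrel
  rw [map_add, map_sum, map_pow, map_zero] at this
  simp only [map_mul, map_pow] at this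
  rw [add_comm]
  exact this

end Han

/-! ### Descent to `ℚ̄` -/

section Data

variable {M : ℕ} [NeZero M] (A : FormsData M) {f : ℍ → ℂ} (hf : IsMF M 2 f)
  (qf : PowerSeries Kbar) (hqf : qExpansion 1 f = qf.map iota)

include hf hqf

/-- The base change of `h = qf / (q dt/dq)` to `ℂ` is the `q`-expansion of the analytic function
`f / D θ`. -/
theorem coeffMap_hqM :
    coeffMap iota (hq A.tq qf) =
      qLaurent ⟨hanM A.hauptAn hf, hanM_mem_perFun A.hauptAn hf⟩ := by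
  have h1 := qLaurent_hanM_mul A.hauptAn hf
  rw [A.qLaurent_hauptAn, ← coeffMap_Gq, hqf, ← coeffMap_ofPowerSeries] at h1
  rw [hq, map_div₀, div_eq_iff A.coeffMap_Gq_ne_zero]
  exact h1.symm

/-- The preimage of `h` in `ℂ(X₀(M))`. -/
theorem exists_xCM : ∃ x : SetupC.FC M,
    EmbedC.embC M x = algebraMap HolFun MerFun (hanM A.hauptAn hf) ∧
      (x : LaurentSeries ℂ) = coeffMap iota (hq A.tq qf) := by
  obtain ⟨x, hx⟩ := exists_embC_eq_hanM A.hauptAn hf
  refine ⟨x, hx, ?_⟩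
  rw [coeffMap_hqM A hf qf hqf]
  exact (EmbedC.qLaurent_eq_of_embC_eq M x (hanM_mem_perFun A.hauptAn hf) hx).symm

/-- **(α1)** `h = qf / (q dt/dq)` lies in the function field `F_M`. -/
theorem hqM_mem : hq A.tq qf ∈ modularFunctionFieldBar M := by
  obtain ⟨x, -, hx⟩ := exists_xCM A hf qf hqf
  apply mem_bar_of_coeffMap_mem M
  rw [← hx]
  exact x.2

/-- **(α2)** `h` is integral over `Kbar[j]`. -/
theorem hqM_isIntegral :
    IsIntegral (Algebra.adjoin Kbar {jF M}) (⟨hq A.tq qf, hqM_mem A hf qf hqf⟩ : FF M) := by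
  obtain ⟨x, hx1, hx2⟩ := exists_xCM A hf qf hqf
  obtain ⟨n, p, hrel⟩ := exists_monic_relationM A.hauptAn hf x hx1
  exact isIntegral_of_relation M _ x hx2 n p hrel

end Data

/-! ### The instance `M = 9p`, `t = y₉` -/

section Nine

open Fermat.Agent.Gateway.AuxLevel

theorem Gamma0_le_of_dvd {a b : ℕ} (h : a ∣ b) : Gamma0 b ≤ Gamma0 a := by
  intro γ hγ
  rw [Gamma0_mem] at hγ ⊢
  rw [ZMod.intCast_zmod_eq_zero_iff_dvd] at hγ ⊢
  exact dvd_trans (Int.natCast_dvd_natCast.mpr h) hγ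

/-- A modular form on `Γ₀(p)` is a weight-`k` form on `Γ₀(M)` for every multiple `M` of `p`. -/
theorem isMF_of_dvd {p M : ℕ} [NeZero p] (h : p ∣ M) {k : ℤ} (G : ModularForm (Gamma0 p) k) :
    IsMF M k (G : ℍ → ℂ) :=
  Fermat.Agent.S16.RatioForms.isMF_of_class
    (fun _ hγ => Subgroup.mem_map_of_mem _ (Gamma0_le_of_dvd h hγ)) G

/-- **WP-U2-DICT, general level.**  For `9 ∣ M` and a holomorphic weight two form `f` on `Γ₀(M)`,
bounded at all cusps, whose `q`-expansion `qf` has coefficients in `Kbar`: the Laurent series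
`Ψ = qf / θ(y₉)` lies in the function field `F_M` and is integral over `Kbar[j]`. -/
theorem exists_psi_of_isMF {M : ℕ} [NeZero M] (h9 : 9 ∣ M) {f : ℍ → ℂ} (hf : IsMF M 2 f)
    (qf : PowerSeries Kbar) (hqf : qExpansion 1 f = qf.map iota) :
    ∃ (Ψ : LaurentSeries Kbar) (hΨ : Ψ ∈ modularFunctionFieldBar M),
      Ψ * (HahnSeries.single (1 : ℤ) (1 : Kbar) * Fermat.Agent.Lib.Residue.D (L9.y9R Kbar)) =
        HahnSeries.ofPowerSeries ℤ Kbar qf ∧
      IsIntegral (Algebra.adjoin Kbar {jF M}) (⟨Ψ, hΨ⟩ : FF M) := by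
  obtain ⟨A, hA⟩ := exists_formsData 9 h9 no_elliptic_nine L9.y9K L9.y9K_mem L9.FF_nine_eq
    isIntegral_y9K
  refine ⟨hq A.tq qf, hqM_mem A hf qf hqf, ?_, hqM_isIntegral A hf qf hqf⟩
  have h1 := A.hq_mul_Gq qf
  rw [Gq] at h1
  rw [← L9.y9K_eq, ← hA]
  exact h1

/-- **WP-U2-DICT.**  `G ∈ M₂(Γ₀(p))` with rational `q`-expansion `∑ r_k q^k`; `M` a common multiple
of `9` and `p` (in the application `M = 9p`; the level is kept as a variable `M` because elaboration
with the literal index `9 * p` is very slow).  Then `Ψ = G(q) / θ(y₉)(q)` lies in the function field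
`F_M` of `X₀(M)` over `Kbar` and is integral over `Kbar[j]`. -/
theorem exists_psi {p M : ℕ} [NeZero p] [NeZero M] (hp : p ∣ M) (h9 : 9 ∣ M)
    (G : ModularForm (Gamma0 p) 2) (r : ℕ → ℚ)
    (hr : ∀ k, ModularFormClass.qCoeff G k = (r k : ℂ)) :
    ∃ (Ψ : LaurentSeries Kbar) (hΨ : Ψ ∈ modularFunctionFieldBar M),
      Ψ * (HahnSeries.single (1 : ℤ) (1 : Kbar) * Fermat.Agent.Lib.Residue.D (L9.y9R Kbar)) =
        HahnSeries.ofPowerSeries ℤ Kbar
          (PowerSeries.mk fun k => algebraMap ℚ Kbar (r k)) ∧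
      IsIntegral (Algebra.adjoin Kbar {jF M}) (⟨Ψ, hΨ⟩ : FF M) := by
  have hG : IsMF M 2 (G : ℍ → ℂ) := isMF_of_dvd hp G
  have hqf : qExpansion 1 (G : ℍ → ℂ) =
      (PowerSeries.mk fun k => algebraMap ℚ Kbar (r k)).map iota := by
    ext k
    have h1 := hr k
    rw [ModularFormClass.qCoeff] at h1
    rw [h1, PowerSeries.coeff_map, PowerSeries.coeff_mk, eq_ratCast, map_ratCast]
  exact exists_psi_of_isMF h9 hG _ hqf

/-- `y₉ ∈ F_M` for `9 ∣ M` (re-export of `L9.y9K_mem_of_dvd`, in terms of `y9R`). -/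
theorem y9R_mem_of_dvd {M : ℕ} [NeZero M] (h9 : 9 ∣ M) :
    L9.y9R Kbar ∈ modularFunctionFieldBar M :=
  L9.y9K_mem_of_dvd h9

end Nine

end Fermat.Agent.S16.Two
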