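import Fermat.Agent.Lib.RiemannRoch.FunctionFieldRR
import Fermat.Agent.S20.RR.DualDim
import Fermat.Agent.S20.RR.PlacesBasic

/-!
# WP-U2-RH: no ramification off the cusps from the Hurwitz formula

E-setting of `FunctionFieldRR.hurwitz_E`, `K` algebraically closed (any characteristic).
-/

set_option autoImplicit false
set_option linter.unusedSectionVars false
set_option linter.style.haveILetI false

noncomputable section

open AlgebraicCurve WithZero Module IntermediateField Polynomial IsDedekindDomain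
  IsDedekindDomain.HeightOneSpectrum nonZeroDivisors

namespace Fermat.Agent.S16.Two

open Fermat.Agent.Lib.RiemannRoch Fermat.Agent.S20.RR.Dictionary Fermat.Agent.S20.RR.Canonical
  Fermat.Agent.S20.RR.LineDataFrac Fermat.Agent.S20.RR.Hurwitz

section Generic

variable {K E F : Type*} [Field K] [Field E] [Field F] [Algebra K E] [Algebra K F] [Algebra E F]
  [IsScalarTower K E F] [FiniteDimensional E F] [Algebra.IsSeparable E F]
variable (A : Subalgebra K E) [IsDedekindDomain A] [IsFractionRing A E]

/-- **Dedekind's bound**: the different exponent is at least `e - 1`. -/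
theorem ramificationIdx_sub_one_le_diffExps (P : HeightOneSpectrum (IntCl (F := F) A)) :
    (P.asIdeal.ramificationIdx ↥A : ℤ) - 1 ≤ diffExps (F := F) A P := by
  have hfinB : Module.Finite ↥A ↥(IntCl (F := F) A) := IsIntegralClosure.finite ↥A E F _
  have : Algebra.IsIntegral ↥A ↥(IntCl (F := F) A) := Algebra.IsIntegral.of_finite _ _
  set p : Ideal ↥A := P.asIdeal.under ↥A with hp
  have hne : p ≠ ⊥ := mt Ideal.eq_bot_of_comap_eq_bot P.ne_bot
  have hmax : p.IsMaximal := Ideal.IsPrime.isMaximal inferInstance hne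
  have hinj : Function.Injective (algebraMap ↥A ↥(IntCl (F := F) A)) :=
    (isTorsionFree_iff_algebraMap_injective).mp inferInstance
  have hpS : p.map (algebraMap ↥A ↥(IntCl (F := F) A)) ≠ ⊥ :=
    (Ideal.map_eq_bot_iff_of_injective hinj).not.mpr hne
  set e := P.asIdeal.ramificationIdx ↥A with he
  rcases Nat.eq_zero_or_pos e with h0 | hpos
  · rw [h0]
    have := diffExps_nonneg (F := F) (A := A) P
    push_cast
    omega
  have hdvd : P.asIdeal ^ e ∣ p.map (algebraMap ↥A ↥(IntCl (F := F) A)) := by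
    rw [he, Ideal.IsDedekindDomain.ramificationIdx_eq_multiplicity p P.asIdeal hpS]
    exact pow_multiplicity_dvd _ _
  have h1 : P.asIdeal ^ (e - 1) ∣ differentIdeal ↥A ↥(IntCl (F := F) A) :=
    pow_sub_one_dvd_differentIdeal_aux ↥A E F P.asIdeal hpos.ne' hne hdvd
  rw [diffExps_apply]
  have h2 : differentIdeal ↥A ↥(IntCl (F := F) A) ≤ P.asIdeal ^ (e - 1) := Ideal.le_of_dvd h1
  have h3 := FractionalIdeal.count_mono (K := F) P
    (I := ((differentIdeal ↥A ↥(IntCl (F := F) A) : Ideal ↥(IntCl (F := F) A)) :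
      FractionalIdeal (IntCl (F := F) A)⁰ F))
    (J := ((P.asIdeal ^ (e - 1) : Ideal ↥(IntCl (F := F) A)) :
      FractionalIdeal (IntCl (F := F) A)⁰ F))
    (by
      rw [Ne, FractionalIdeal.coeIdeal_eq_zero]
      exact Fermat.Agent.S20.RR.DualCount.differentIdeal_ne_bot' ↥A E F ↥(IntCl (F := F) A))
    (FractionalIdeal.coeIdeal_le_coeIdeal F |>.mpr h2)
  rw [FractionalIdeal.coeIdeal_pow, FractionalIdeal.count_pow_self] at h3
  have h4 : ((e - 1 : ℕ) : ℤ) = (e : ℤ) - 1 := by
    rw [Nat.cast_sub hpos, Nat.cast_one]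
  rw [h4] at h3
  exact h3

/-- Over an algebraically closed constant field all residue fields of the integral closure are
the constant field. -/
theorem residueFieldsEq_intCl [IsAlgClosed K]
    (hA : ∀ p : Ideal ↥A, p.IsMaximal → Module.Finite K (↥A ⧸ p)) :
    Fermat.Agent.S20.RR.IdealDim.ResidueFieldsEq K ↥(IntCl (F := F) A) := by
  intro P
  have hfr : Module.Finite K (Fermat.Agent.S24.PD.placeOfPrime (K := K) (F := F) P).ResidueField :=
    (Fermat.Agent.S20.RR.PlacesBasic.finiteResidue_placeOf (F := F) A hA P).finite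
  have h3 : Module.Finite K (↥(IntCl (F := F) A) ⧸ P.asIdeal) :=
    Module.Finite.equiv
      (Fermat.Agent.S24.PD.quotientEquivResidue (K := K) (F := F) P).symm.toLinearEquiv
  have hPmax : P.asIdeal.IsMaximal := P.isMaximal
  let _ : Field (↥(IntCl (F := F) A) ⧸ P.asIdeal) := Ideal.Quotient.field _
  have : Algebra.IsIntegral K (↥(IntCl (F := F) A) ⧸ P.asIdeal) := Algebra.IsIntegral.of_finite K _
  exact (IsAlgClosed.algebraMap_bijective_of_isIntegral
    (k := K) (K := ↥(IntCl (F := F) A) ⧸ P.asIdeal)).2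

/-- If all residue fields are `K`, the residue degrees are one. -/
theorem finrank_quotient_eq_one
    (hK : Fermat.Agent.S20.RR.IdealDim.ResidueFieldsEq K ↥(IntCl (F := F) A))
    (P : HeightOneSpectrum (IntCl (F := F) A)) :
    finrank K (↥(IntCl (F := F) A) ⧸ P.asIdeal) = 1 := by
  have hPmax : P.asIdeal.IsMaximal := P.isMaximal
  let _ : Field (↥(IntCl (F := F) A) ⧸ P.asIdeal) := Ideal.Quotient.field _
  have e : K ≃ₗ[K] (↥(IntCl (F := F) A) ⧸ P.asIdeal) :=
    LinearEquiv.ofBijective (Algebra.linearMap K (↥(IntCl (F := F) A) ⧸ P.asIdeal))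
      ⟨(algebraMap K (↥(IntCl (F := F) A) ⧸ P.asIdeal)).injective, hK P⟩
  rw [← e.finrank_eq, finrank_self]

/-- The degree of the divisor of exponents when all residue degrees are one. -/
theorem degree_divOfExps_of_residueFieldsEq
    (hK : Fermat.Agent.S20.RR.IdealDim.ResidueFieldsEq K ↥(IntCl (F := F) A))
    (e : HeightOneSpectrum (IntCl (F := F) A) →₀ ℤ) :
    Divisor.degree (divOfExps A e) = e.sum fun _ n => n := by
  rw [degree_divOfExps]
  refine Finsupp.sum_congr fun P _ => ?_
  rw [finrank_quotient_eq_one A hK P, Nat.cast_one, mul_one]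

end Generic

section Line

variable (K E F : Type*) [Field K] [Field E] [Field F]
  [Algebra K[X] E] [IsFractionRing K[X] E] [Algebra K E] [IsScalarTower K K[X] E]
  [Algebra K F] [Algebra E F] [IsScalarTower K E F] [FiniteDimensional E F]
  [Algebra.IsSeparable E F]

/-- The primes of the integral closure of `K[x]` in `F` lying over a finite set `S` of primes of
`K[x]` (the places of `F` over the finite cusps `S` of the `x`-line). -/
def primesOverSet (S : Finset (HeightOneSpectrum ↥(polyR K E))) :
    Set (HeightOneSpectrum ↥(IntCl (F := F) (polyR K E))) :=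
  {P | ∃ s ∈ S, P.asIdeal.under ↥(polyR K E) = s.asIdeal}

section sums

variable [IsAlgClosed K]

/-- all residue fields of the integral closure of `K[x]` are `K` -/
theorem residueFieldsEq_polyR :
    Fermat.Agent.S20.RR.IdealDim.ResidueFieldsEq K ↥(IntCl (F := F) (polyR K E)) :=
  residueFieldsEq_intCl (polyR K E) Fermat.Agent.S20.RR.PlacesBasic.finite_quotient_polyR

/-- all residue fields of the integral closure of the local ring at infinity are `K` -/
theorem residueFieldsEq_inftyS :
    Fermat.Agent.S20.RR.IdealDim.ResidueFieldsEq K ↥(IntCl (F := F) (inftyS K E)) :=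
  residueFieldsEq_intCl (inftyS K E) Fermat.Agent.S20.RR.PlacesBasic.finite_quotient_inftyS

/-- A sum of nonnegative exponents dominates any partial sum. -/
theorem sum_le_finsupp_sum {ι : Type*} (d : ι →₀ ℤ) (hd : ∀ i, 0 ≤ d i) (W : Finset ι) :
    ∑ i ∈ W, d i ≤ d.sum fun _ n => n := by
  classical
  rw [Finsupp.sum]
  have h1 : ∑ i ∈ W, d i = ∑ i ∈ W.filter (fun i => i ∈ d.support), d i := by
    refine (Finset.sum_filter_of_ne fun i _ hi => ?_).symm
    exact Finsupp.mem_support_iff.mpr hi
  rw [h1]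
  exact Finset.sum_le_sum_of_subset_of_nonneg (fun i hi => (Finset.mem_filter.mp hi).2)
    fun i _ _ => hd i

/-- **Infinity chart**: `∑ d_Q ≥ n - #{Q}`. -/
theorem sum_diffExps_inftyS_ge :
    (finrank E F : ℤ) - (Nat.card (HeightOneSpectrum ↥(IntCl (F := F) (inftyS K E))) : ℤ) ≤
      (diffExps (F := F) (inftyS K E)).sum fun _ n => n := by
  classical
  have hfin : Module.Finite ↥(inftyS K E) ↥(IntCl (F := F) (inftyS K E)) :=
    IsIntegralClosure.finite ↥(inftyS K E) E F _
  have := finite_heightOneSpectrum ↥(inftyS K E) (B := ↥(IntCl (F := F) (inftyS K E)))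
  let _ : Fintype (HeightOneSpectrum ↥(IntCl (F := F) (inftyS K E))) := Fintype.ofFinite _
  have hK := residueFieldsEq_inftyS K E F
  have h1 := sum_ramificationIdx_mul_finrank K ↥(inftyS K E)
    (B := ↥(IntCl (F := F) (inftyS K E))) residue_inftyS_surjective
  rw [← IsFractionRing.finrank_eq ↥(inftyS K E) E ↥(IntCl (F := F) (inftyS K E)) F] at h1
  have h2 : ∑ P : HeightOneSpectrum ↥(IntCl (F := F) (inftyS K E)),
      (P.asIdeal.ramificationIdx ↥(inftyS K E) : ℤ) = (finrank E F : ℤ) := by
    rw [← h1]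
    push_cast
    refine Finset.sum_congr rfl fun P _ => ?_
    rw [finrank_quotient_eq_one (inftyS K E) hK P, Nat.cast_one, mul_one]
  have h3 := sum_le_finsupp_sum (diffExps (F := F) (inftyS K E))
    (fun P => diffExps_nonneg P) Finset.univ
  refine le_trans ?_ h3
  have h4 : ∑ P : HeightOneSpectrum ↥(IntCl (F := F) (inftyS K E)),
      ((P.asIdeal.ramificationIdx ↥(inftyS K E) : ℤ) - 1) ≤
      ∑ P : HeightOneSpectrum ↥(IntCl (F := F) (inftyS K E)),
        diffExps (F := F) (inftyS K E) P :=
    Finset.sum_le_sum fun P _ => ramificationIdx_sub_one_le_diffExps (inftyS K E) P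
  refine le_trans (le_of_eq ?_) h4
  rw [Finset.sum_sub_distrib, h2, Finset.sum_const, Finset.card_univ, Nat.card_eq_fintype_card]
  simp

/-- the prime of `K[x]` below a prime of the integral closure -/
def underPrime (P : HeightOneSpectrum ↥(IntCl (F := F) (polyR K E))) :
    HeightOneSpectrum ↥(polyR K E) where
  asIdeal := P.asIdeal.under ↥(polyR K E)
  isPrime := inferInstance
  ne_bot := by
    have hfinB : Module.Finite ↥(polyR K E) ↥(IntCl (F := F) (polyR K E)) :=
      IsIntegralClosure.finite ↥(polyR K E) E F _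
    have : Algebra.IsIntegral ↥(polyR K E) ↥(IntCl (F := F) (polyR K E)) :=
      Algebra.IsIntegral.of_finite _ _
    exact mt Ideal.eq_bot_of_comap_eq_bot P.ne_bot

omit [IsAlgClosed K] in
theorem mem_primesOverSet_iff (S : Finset (HeightOneSpectrum ↥(polyR K E)))
    (P : HeightOneSpectrum ↥(IntCl (F := F) (polyR K E))) :
    P ∈ primesOverSet K E F S ↔ underPrime K E F P ∈ S := by
  constructor
  · rintro ⟨s, hs, h⟩
    have : underPrime K E F P = s := HeightOneSpectrum.ext h
    rw [this]
    exact hs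
  · intro h
    exact ⟨underPrime K E F P, h, rfl⟩

/-- **Fundamental identity** for a prime `s` of `K[x]`: `∑_{I ∣ s} e_I = n`. -/
theorem sum_ramificationIdx_primesOverFinset (s : HeightOneSpectrum ↥(polyR K E)) :
    ∑ I ∈ IsDedekindDomain.primesOverFinset s.asIdeal ↥(IntCl (F := F) (polyR K E)),
      (I.ramificationIdx ↥(polyR K E) : ℤ) = (finrank E F : ℤ) := by
  have hfinB : Module.Finite ↥(polyR K E) ↥(IntCl (F := F) (polyR K E)) :=
    IsIntegralClosure.finite ↥(polyR K E) E F _
  have hsmax : s.asIdeal.IsMaximal := s.isMaximal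
  have h1 := Fermat.Agent.S20.RR.DualDim.sum_primesOverFinset_add_card K ↥(polyR K E)
    (B := ↥(IntCl (F := F) (polyR K E))) (residueFieldsEq_polyR K E F) s.asIdeal s.ne_bot
  rw [← IsFractionRing.finrank_eq ↥(polyR K E) E ↥(IntCl (F := F) (polyR K E)) F] at h1
  rw [← h1]
  push_cast
  rw [Finset.card_eq_sum_ones, Nat.cast_sum, ← Finset.sum_add_distrib]
  refine Finset.sum_congr rfl fun I hI => ?_
  have hI' := (IsDedekindDomain.mem_primesOverFinset_iff s.ne_bot _).mp hI
  have hIprime : I.IsPrime := hI'.1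
  have hpos := Ideal.ramificationIdx_pos I ↥(polyR K E)
  rw [Nat.cast_sub hpos]
  simp

/-- the primes over `S` form a finite set -/
theorem finite_primesOverSet (S : Finset (HeightOneSpectrum ↥(polyR K E))) :
    (primesOverSet K E F S).Finite := by
  classical
  have hsub : primesOverSet K E F S ⊆
      (HeightOneSpectrum.asIdeal (R := ↥(IntCl (F := F) (polyR K E)))) ⁻¹'
        ((S.biUnion fun s => IsDedekindDomain.primesOverFinset s.asIdeal
          ↥(IntCl (F := F) (polyR K E)) : Finset _) : Set _) := by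
    rintro P ⟨s, hs, h⟩
    rw [Set.mem_preimage, Finset.mem_coe, Finset.mem_biUnion]
    refine ⟨s, hs, ?_⟩
    have hsmax : s.asIdeal.IsMaximal := s.isMaximal
    rw [IsDedekindDomain.mem_primesOverFinset_iff s.ne_bot]
    exact ⟨P.isPrime, ⟨h.symm⟩⟩
  refine Set.Finite.subset (Set.Finite.preimage ?_ (Finset.finite_toSet _)) hsub
  intro P _ Q _ h
  exact HeightOneSpectrum.ext h

/-- **Finite chart**: `∑_{P over S} e_P = n #S`. -/
theorem sum_ramificationIdx_primesOverSet (S : Finset (HeightOneSpectrum ↥(polyR K E))) :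
    ∑ P ∈ (finite_primesOverSet K E F S).toFinset,
      (P.asIdeal.ramificationIdx ↥(polyR K E) : ℤ) = (finrank E F : ℤ) * S.card := by
  classical
  set T := (finite_primesOverSet K E F S).toFinset with hT
  have hmaps : (T : Set _).MapsTo (underPrime K E F) S := by
    intro P hP
    rw [Finset.mem_coe, hT, Set.Finite.mem_toFinset] at hP
    exact (mem_primesOverSet_iff K E F S P).mp hP
  rw [← Finset.sum_fiberwise_of_maps_to hmaps]
  have hfib : ∀ s ∈ S, ∑ P ∈ T.filter (fun P => underPrime K E F P = s),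
      (P.asIdeal.ramificationIdx ↥(polyR K E) : ℤ) = (finrank E F : ℤ) := by
    intro s hs
    have hsmax : s.asIdeal.IsMaximal := s.isMaximal
    rw [← sum_ramificationIdx_primesOverFinset K E F s]
    refine Finset.sum_bij (fun P _ => P.asIdeal) ?_ ?_ ?_ ?_
    · intro P hP
      rw [Finset.mem_filter] at hP
      rw [IsDedekindDomain.mem_primesOverFinset_iff s.ne_bot]
      refine ⟨P.isPrime, ⟨?_⟩⟩
      rw [← hP.2]
      rfl
    · intro P _ Q _ h
      exact HeightOneSpectrum.ext h
    · intro I hI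
      have hI' := (IsDedekindDomain.mem_primesOverFinset_iff s.ne_bot _).mp hI
      have hIprime : I.IsPrime := hI'.1
      have hIover : I.LiesOver s.asIdeal := hI'.2
      haveI : FaithfulSMul ↥(polyR K E) ↥(IntCl (F := F) (polyR K E)) :=
        (faithfulSMul_iff_algebraMap_injective _ _).mpr
          ((isTorsionFree_iff_algebraMap_injective).mp inferInstance)
      have hI0 : I ≠ ⊥ := Ideal.ne_bot_of_liesOver_of_ne_bot s.ne_bot I
      have hu : underPrime K E F ⟨I, hIprime, hI0⟩ = s :=
        HeightOneSpectrum.ext hIover.over.symm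
      refine ⟨⟨I, hIprime, hI0⟩, ?_, rfl⟩
      rw [Finset.mem_filter, hT, Set.Finite.mem_toFinset, mem_primesOverSet_iff, hu]
      exact ⟨hs, rfl⟩
    · intro P _
      rfl
  rw [Finset.sum_congr rfl hfib, Finset.sum_const, nsmul_eq_mul, mul_comm]

/-- **Finite chart**: `∑ d_P ≥ n #S - #{P over S} + d_{P0}` for `P0` not over `S`. -/
theorem sum_diffExps_polyR_ge (S : Finset (HeightOneSpectrum ↥(polyR K E)))
    (P0 : HeightOneSpectrum ↥(IntCl (F := F) (polyR K E))) (hP0 : P0 ∉ primesOverSet K E F S) :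
    (finrank E F : ℤ) * S.card - ((primesOverSet K E F S).ncard : ℤ) +
        diffExps (F := F) (polyR K E) P0 ≤
      (diffExps (F := F) (polyR K E)).sum fun _ n => n := by
  classical
  set T := (finite_primesOverSet K E F S).toFinset with hT
  have hP0T : P0 ∉ T := by
    rw [hT, Set.Finite.mem_toFinset]
    exact hP0
  have h3 := sum_le_finsupp_sum (diffExps (F := F) (polyR K E))
    (fun P => diffExps_nonneg P) (insert P0 T)
  refine le_trans ?_ h3
  rw [Finset.sum_insert hP0T]
  have h4 : ∑ P ∈ T, ((P.asIdeal.ramificationIdx ↥(polyR K E) : ℤ) - 1) ≤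
      ∑ P ∈ T, diffExps (F := F) (polyR K E) P :=
    Finset.sum_le_sum fun P _ => ramificationIdx_sub_one_le_diffExps (polyR K E) P
  rw [Finset.sum_sub_distrib, sum_ramificationIdx_primesOverSet, Finset.sum_const,
    nsmul_eq_mul, mul_one] at h4
  have h5 : ((primesOverSet K E F S).ncard : ℤ) = (T.card : ℤ) := by
    rw [Set.ncard_eq_toFinset_card _ (finite_primesOverSet K E F S)]
  rw [h5]
  linarith

end sums

/-- **Hurwitz counting, flexible form.**  `K` algebraically closed (any characteristic),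
`F / K(x)` finite separable with `l(0) = 1`, `n = [F : K(x)]`.  Let `C₁` (resp. `C₂`) be finite
sets of primes of the integral closure of `K[x]` (resp. of the local ring at infinity) -- "cusp
primes" -- with `2 g - 2 + 2 n ≤ ∑_{Q ∈ C₁ ∪ C₂} (e_Q - 1)`.  Then the different has no support
off the cusps: `diffExps P = 0` for every prime `P ∉ C₁` of the integral closure of `K[x]`. -/
theorem diffExps_eq_zero_of_le_sum_ramificationIdx [IsAlgClosed K]
    (hl0 : finrank K (riemannRochSpace (0 : Divisor K F)) = 1)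
    (C₁ : Finset (HeightOneSpectrum ↥(IntCl (F := F) (polyR K E))))
    (C₂ : Finset (HeightOneSpectrum ↥(IntCl (F := F) (inftyS K E))))
    (hg : 2 * (genusFF K F : ℤ) - 2 + 2 * (finrank E F : ℤ) ≤
      ∑ Q ∈ C₁, ((Q.asIdeal.ramificationIdx ↥(polyR K E) : ℤ) - 1) +
        ∑ Q ∈ C₂, ((Q.asIdeal.ramificationIdx ↥(inftyS K E) : ℤ) - 1))
    (P : HeightOneSpectrum ↥(IntCl (F := F) (polyR K E))) (hP : P ∉ C₁) :
    diffExps (F := F) (polyR K E) P = 0 := by
  classical
  haveI : ∀ v : Place K F, v.FiniteResidue := Fermat.Agent.S20.RR.PlacesBasic.finiteResidue E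
  haveI : Nonempty (Place K F) := FunctionFieldRR.nonempty_place_E K E F
  haveI : HasPrincipalDivisors K F := RiemannRochSep.hasPrincipalDivisors K E F
    (fun v g hg hg0 => FunctionField.ord_eq_zero_of_isAlgebraic v hg hg0)
  have hH := FunctionFieldRR.hurwitz_E K E F
  rw [hl0, degree_divOfExps_of_residueFieldsEq (polyR K E) (residueFieldsEq_polyR K E F),
    degree_divOfExps_of_residueFieldsEq (inftyS K E) (residueFieldsEq_inftyS K E F)] at hH
  have h1 := sum_le_finsupp_sum (diffExps (F := F) (polyR K E))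
    (fun P => diffExps_nonneg P) (insert P C₁)
  rw [Finset.sum_insert hP] at h1
  have h2 := sum_le_finsupp_sum (diffExps (F := F) (inftyS K E))
    (fun P => diffExps_nonneg P) C₂
  have h3 : ∑ Q ∈ C₁, ((Q.asIdeal.ramificationIdx ↥(polyR K E) : ℤ) - 1) ≤
      ∑ Q ∈ C₁, diffExps (F := F) (polyR K E) Q :=
    Finset.sum_le_sum fun Q _ => ramificationIdx_sub_one_le_diffExps (polyR K E) Q
  have h4 : ∑ Q ∈ C₂, ((Q.asIdeal.ramificationIdx ↥(inftyS K E) : ℤ) - 1) ≤
      ∑ Q ∈ C₂, diffExps (F := F) (inftyS K E) Q :=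
    Finset.sum_le_sum fun Q _ => ramificationIdx_sub_one_le_diffExps (inftyS K E) Q
  have h5 := diffExps_nonneg (F := F) (A := polyR K E) P
  push_cast at hH
  linarith

/-- A prime with vanishing different exponent does not divide the different ideal. -/
theorem not_dvd_differentIdeal_of_diffExps_eq_zero
    (P : HeightOneSpectrum ↥(IntCl (F := F) (polyR K E)))
    (h0 : diffExps (F := F) (polyR K E) P = 0) :
    ¬ P.asIdeal ∣ differentIdeal ↥(polyR K E) ↥(IntCl (F := F) (polyR K E)) := by
  intro hdvd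
  rw [diffExps_apply] at h0
  have hle : differentIdeal ↥(polyR K E) ↥(IntCl (F := F) (polyR K E)) ≤ P.asIdeal :=
    Ideal.le_of_dvd hdvd
  have h3 := FractionalIdeal.count_mono (K := F) P
    (I := ((differentIdeal ↥(polyR K E) ↥(IntCl (F := F) (polyR K E)) :
      Ideal ↥(IntCl (F := F) (polyR K E))) : FractionalIdeal (IntCl (F := F) (polyR K E))⁰ F))
    (J := ((P.asIdeal : Ideal ↥(IntCl (F := F) (polyR K E))) :
      FractionalIdeal (IntCl (F := F) (polyR K E))⁰ F))
    (by
      rw [Ne, FractionalIdeal.coeIdeal_eq_zero]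
      exact Fermat.Agent.S20.RR.DualCount.differentIdeal_ne_bot' ↥(polyR K E) E F
        ↥(IntCl (F := F) (polyR K E)))
    (FractionalIdeal.coeIdeal_le_coeIdeal F |>.mpr hle)
  rw [FractionalIdeal.count_self, h0] at h3
  omega

/-- **Form for the trace argument**: under the numerical hypothesis, for a prime `p` of `K[x]`
with no cusp prime above it, `p B` does not divide the different of `B / K[x]`. -/
theorem not_map_dvd_differentIdeal [IsAlgClosed K]
    (hl0 : finrank K (riemannRochSpace (0 : Divisor K F)) = 1)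
    (C₁ : Finset (HeightOneSpectrum ↥(IntCl (F := F) (polyR K E))))
    (C₂ : Finset (HeightOneSpectrum ↥(IntCl (F := F) (inftyS K E))))
    (hg : 2 * (genusFF K F : ℤ) - 2 + 2 * (finrank E F : ℤ) ≤
      ∑ Q ∈ C₁, ((Q.asIdeal.ramificationIdx ↥(polyR K E) : ℤ) - 1) +
        ∑ Q ∈ C₂, ((Q.asIdeal.ramificationIdx ↥(inftyS K E) : ℤ) - 1))
    (p : HeightOneSpectrum ↥(polyR K E))
    (hp : ∀ Q ∈ C₁, Q.asIdeal.under ↥(polyR K E) ≠ p.asIdeal) :
    ¬ Ideal.map (algebraMap ↥(polyR K E) ↥(IntCl (F := F) (polyR K E))) p.asIdeal ∣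
      differentIdeal ↥(polyR K E) ↥(IntCl (F := F) (polyR K E)) := by
  intro hdvd
  have hfinB : Module.Finite ↥(polyR K E) ↥(IntCl (F := F) (polyR K E)) :=
    IsIntegralClosure.finite ↥(polyR K E) E F _
  have hint : Algebra.IsIntegral ↥(polyR K E) ↥(IntCl (F := F) (polyR K E)) :=
    Algebra.IsIntegral.of_finite _ _
  have hinj : Function.Injective (algebraMap ↥(polyR K E) ↥(IntCl (F := F) (polyR K E))) :=
    (isTorsionFree_iff_algebraMap_injective).mp inferInstance
  haveI : FaithfulSMul ↥(polyR K E) ↥(IntCl (F := F) (polyR K E)) :=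
    (faithfulSMul_iff_algebraMap_injective _ _).mpr hinj
  have hpmax : p.asIdeal.IsMaximal := p.isMaximal
  -- a prime over `p`
  obtain ⟨I, hImax, hIover⟩ := Ideal.exists_maximal_ideal_liesOver_of_isIntegral
    (S := ↥(IntCl (F := F) (polyR K E))) p.asIdeal
  have hI0 : I ≠ ⊥ := Ideal.ne_bot_of_liesOver_of_ne_bot p.ne_bot I
  set P : HeightOneSpectrum ↥(IntCl (F := F) (polyR K E)) := ⟨I, hImax.isPrime, hI0⟩ with hPdef
  have hPC : P ∉ C₁ := by
    intro hmem
    exact hp P hmem hIover.over.symm
  have h0 := diffExps_eq_zero_of_le_sum_ramificationIdx K E F hl0 C₁ C₂ hg P hPC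
  apply not_dvd_differentIdeal_of_diffExps_eq_zero K E F P h0
  refine dvd_trans ?_ hdvd
  rw [Ideal.dvd_iff_le, Ideal.map_le_iff_le_comap]
  exact hIover.over.le

/-- **WP-U2-RH.**  `K` algebraically closed (any characteristic), `F / K(x)` finite separable with
`l(0) = 1`.  Let `S` be a finite set of primes of `K[x]` (finite cusps), `c = #S + 1` (with the
point at infinity), `Ncusp` the number of primes of the integral closure of `K[x]` over `S` plus
the number of primes of the integral closure of the local ring at infinity, `n = [F : K(x)]`.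
If `2 g - 2 ≤ -2 n + (n c - Ncusp)` then the different of `F / K(x)` has no support off the cusps:
`diffExps P = 0` for every prime `P` of the integral closure of `K[x]` not over `S`. -/
theorem diffExps_eq_zero_off_cusps [IsAlgClosed K]
    (hl0 : finrank K (riemannRochSpace (0 : Divisor K F)) = 1)
    (S : Finset (HeightOneSpectrum ↥(polyR K E)))
    (hg : 2 * (genusFF K F : ℤ) - 2 ≤ -2 * (finrank E F : ℤ) +
      ((finrank E F : ℤ) * ((S.card : ℤ) + 1) -
        (((primesOverSet K E F S).ncard : ℤ) +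
          (Nat.card (HeightOneSpectrum ↥(IntCl (F := F) (inftyS K E))) : ℤ))))
    (P : HeightOneSpectrum ↥(IntCl (F := F) (polyR K E))) (hP : P ∉ primesOverSet K E F S) :
    diffExps (F := F) (polyR K E) P = 0 := by
  haveI : ∀ v : Place K F, v.FiniteResidue := Fermat.Agent.S20.RR.PlacesBasic.finiteResidue E
  haveI : Nonempty (Place K F) := FunctionFieldRR.nonempty_place_E K E F
  haveI : HasPrincipalDivisors K F := RiemannRochSep.hasPrincipalDivisors K E F
    (fun v g hg hg0 => FunctionField.ord_eq_zero_of_isAlgebraic v hg hg0)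
  have hH := FunctionFieldRR.hurwitz_E K E F
  rw [hl0, degree_divOfExps_of_residueFieldsEq (polyR K E) (residueFieldsEq_polyR K E F),
    degree_divOfExps_of_residueFieldsEq (inftyS K E) (residueFieldsEq_inftyS K E F)] at hH
  have h1 := sum_diffExps_polyR_ge K E F S P hP
  have h2 := sum_diffExps_inftyS_ge K E F
  have h3 := diffExps_nonneg (F := F) (A := polyR K E) P
  have h4 : (finrank E F : ℤ) * ((S.card : ℤ) + 1) =
      (finrank E F : ℤ) * (S.card : ℤ) + (finrank E F : ℤ) := by ring
  rw [h4] at hg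
  push_cast at hH
  linarith

/-- The same in the form consumed by WP-U2-LT: `P` does not divide the different ideal. -/
theorem not_dvd_differentIdeal_off_cusps [IsAlgClosed K]
    (hl0 : finrank K (riemannRochSpace (0 : Divisor K F)) = 1)
    (S : Finset (HeightOneSpectrum ↥(polyR K E)))
    (hg : 2 * (genusFF K F : ℤ) - 2 ≤ -2 * (finrank E F : ℤ) +
      ((finrank E F : ℤ) * ((S.card : ℤ) + 1) -
        (((primesOverSet K E F S).ncard : ℤ) +
          (Nat.card (HeightOneSpectrum ↥(IntCl (F := F) (inftyS K E))) : ℤ))))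
    (P : HeightOneSpectrum ↥(IntCl (F := F) (polyR K E))) (hP : P ∉ primesOverSet K E F S) :
    ¬ P.asIdeal ∣ differentIdeal ↥(polyR K E) ↥(IntCl (F := F) (polyR K E)) := by
  intro hdvd
  have h0 := diffExps_eq_zero_off_cusps K E F hl0 S hg P hP
  rw [diffExps_apply] at h0
  have hle : differentIdeal ↥(polyR K E) ↥(IntCl (F := F) (polyR K E)) ≤ P.asIdeal :=
    Ideal.le_of_dvd hdvd
  have h3 := FractionalIdeal.count_mono (K := F) P
    (I := ((differentIdeal ↥(polyR K E) ↥(IntCl (F := F) (polyR K E)) :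
      Ideal ↥(IntCl (F := F) (polyR K E))) : FractionalIdeal (IntCl (F := F) (polyR K E))⁰ F))
    (J := ((P.asIdeal : Ideal ↥(IntCl (F := F) (polyR K E))) :
      FractionalIdeal (IntCl (F := F) (polyR K E))⁰ F))
    (by
      rw [Ne, FractionalIdeal.coeIdeal_eq_zero]
      exact Fermat.Agent.S20.RR.DualCount.differentIdeal_ne_bot' ↥(polyR K E) E F
        ↥(IntCl (F := F) (polyR K E)))
    (FractionalIdeal.coeIdeal_le_coeIdeal F |>.mpr hle)
  rw [FractionalIdeal.count_self, h0] at h3
  omega

end Line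

end Fermat.Agent.S16.Two
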