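import Fermat.Agent.S16.Two.CuspSum

/-!
# The Hurwitz genus inequality in `Place` language

helper26.  `K` algebraically closed (any characteristic), `F / K(x)` finite separable of degree
`n`.

* `sum_sub_one_le_two_genusFF`: for places `c ∈ S` with ramification indices `e c` over the
  `x`-line, `∑_{c ∈ S} (e c - 1) ≤ 2 g(F) - 2 + 2 n`.
* `two_genusFF_sub_two_ge_place` (input (B1) of the Hurwitz route to `genus_le`): if every pole
  of `x` and every zero of `x - a`, `a ∈ S`, lies in the finite set `T`, then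
  `(#S - 1) n - #T ≤ 2 g(F) - 2`.

Both follow from `degree_diffDiv` (= `hurwitz_E`), the local bounds `d_c ≥ e_c - 1` of
`TraceUnit.lean` and the fibre sums of `CuspSum.lean`.
-/

set_option autoImplicit false
set_option linter.unusedSectionVars false
set_option linter.style.haveILetI false

noncomputable section

namespace Fermat.Agent.S16.Two

section HurwitzPlace

open AlgebraicCurve Polynomial IntermediateField Module
open Fermat.Agent.S20.RR.Dictionary Fermat.Agent.S20.RR.LineDataFrac
  Fermat.Agent.Lib.RiemannRoch Fermat.Agent.Lib.RiemannRoch.FunctionFieldRR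
  Fermat.Agent.Lib.RiemannRoch.XSetting

variable {K F : Type*} [Field K] [IsAlgClosed K] [Field F] [Algebra K F] {x : F}
  (hx : Transcendental K x) [FiniteDimensional K⟮x⟯ F] [Algebra.IsSeparable K⟮x⟯ F]

attribute [local instance] polyAlgebra

include hx in
/-- **Hurwitz inequality**: the ramification of `F / K(x)` at any finite set of places is bounded
by `2 g - 2 + 2 [F : K(x)]`. -/
theorem sum_sub_one_le_two_genusFF (S : Finset (Place K F)) (e : Place K F → ℕ)
    (hS : ∀ c ∈ S, 1 ≤ e c ∧ (c.ord x = -(e c : ℤ) ∨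
      ∃ a : K, c.ord (x - algebraMap K F a) = e c)) :
    ∑ c ∈ S, ((e c : ℤ) - 1) ≤ 2 * (genusFF K F : ℤ) - 2 + 2 * (finrank K⟮x⟯ F : ℤ) := by
  haveI := isFractionRing_polyAlgebra hx
  haveI := nonempty_place hx
  haveI : ∀ v : Place K F, v.FiniteResidue := FunctionField.finiteResidue K x
  haveI := hasPrincipalDivisors hx
  have hl0 : finrank K (riemannRochSpace (0 : Divisor K F)) = 1 := ell_zero_eq_one
  have hdeg := degree_diffDiv (K := K) (E := K⟮x⟯) (F := F)
  rw [hl0] at hdeg
  have h1 : ∑ c ∈ S, ((e c : ℤ) - 1) ≤ ∑ c ∈ S, diffDiv K K⟮x⟯ F c := by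
    refine Finset.sum_le_sum fun c hc => ?_
    obtain ⟨he1, h | ⟨a, ha⟩⟩ := hS c hc
    · exact sub_one_le_diffDiv_of_infinite he1 (by rw [xF_eq]; exact h)
    · exact sub_one_le_diffDiv_of_finite (a := a) (by rw [xF_eq]; exact ha)
  have h2 := sum_le_degree_of_nonneg (deg_eq_one x) (diffDiv K K⟮x⟯ F)
    (fun v => diffDiv_nonneg v) S
  rw [hdeg] at h2
  push_cast at h2
  linarith

include hx in
/-- **Input (B1)**: if all poles of `x` and all zeros of `x - a`, `a ∈ S`, lie in the finite set
`T`, then `(#S - 1) [F : K(x)] - #T ≤ 2 g(F) - 2`. -/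
theorem two_genusFF_sub_two_ge_place (S : Finset K) (T : Finset (Place K F))
    (hT : ∀ v : Place K F,
      (v.ord x < 0 ∨ ∃ a ∈ S, 0 < v.ord (x - algebraMap K F a)) → v ∈ T) :
    ((S.card : ℤ) - 1) * (finrank K⟮x⟯ F : ℤ) - (T.card : ℤ) ≤ 2 * (genusFF K F : ℤ) - 2 := by
  classical
  have hdeg1 : ∀ v : Place K F, v.deg = 1 := deg_eq_one x
  set n : ℤ := (finrank K⟮x⟯ F : ℤ) with hn
  obtain ⟨E, hEv, hEdeg⟩ := exists_cuspDivisor hx S
  have hE0 : ∀ v : Place K F, 0 ≤ E v := fun v => by
    rw [hEv]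
    exact add_nonneg (le_max_left _ _) (Finset.sum_nonneg fun a _ => le_max_left _ _)
  have hEsupp := mem_support_iff_of_cuspDivisor hEv
  have hsub : E.support ⊆ T := fun v hv => hT v ((hEsupp v).mp hv)
  have hcard : (E.support.card : ℤ) ≤ T.card := by exact_mod_cast Finset.card_le_card hsub
  have hsum : ∑ c ∈ E.support, E c = ((S.card : ℤ) + 1) * n := by
    rw [← hEdeg, degree_eq_sum, Finsupp.sum]
    exact Finset.sum_congr rfl fun v _ => by rw [hdeg1 v]; simp
  set e : Place K F → ℕ := fun v => (E v).toNat with hedef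
  have he : ∀ v : Place K F, (e v : ℤ) = E v := fun v => Int.toNat_of_nonneg (hE0 v)
  have hS : ∀ c ∈ E.support, 1 ≤ e c ∧ (c.ord x = -(e c : ℤ) ∨
      ∃ a : K, c.ord (x - algebraMap K F a) = e c) := by
    intro c hc
    have hc0 : E c ≠ 0 := Finsupp.mem_support_iff.mp hc
    have hpos : 0 < E c := lt_of_le_of_ne (hE0 c) (Ne.symm hc0)
    refine ⟨by have := he c; omega, ?_⟩
    rw [he c]
    rcases (hEsupp c).mp hc with h | ⟨a, ha, h⟩
    · left
      rw [hEv, max_eq_right (by omega : (0 : ℤ) ≤ -(c.ord x)),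
        Finset.sum_eq_zero fun a _ => max_eq_left ?_]
      · ring
      · by_contra hcon
        push Not at hcon
        have := ord_nonneg_of_ord_sub_pos c hcon
        omega
    · right
      refine ⟨a, ?_⟩
      have hx0 : 0 ≤ c.ord x := ord_nonneg_of_ord_sub_pos c h
      rw [hEv, max_eq_left (by omega : -(c.ord x) ≤ 0), zero_add,
        Finset.sum_eq_single_of_mem a ha, max_eq_right h.le]
      intro b _ hba
      exact max_eq_left (ord_sub_nonpos_of_ord_sub_pos c (Ne.symm hba) h)
  have key := sum_sub_one_le_two_genusFF hx E.support e hS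
  rw [Finset.sum_sub_distrib, Finset.sum_congr rfl fun c _ => he c, hsum, Finset.sum_const,
    nsmul_eq_mul, mul_one] at key
  linarith

end HurwitzPlace

end Fermat.Agent.S16.Two
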