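import Mathlib

/-!
# S16, block U2, step 4: the local trace at a prime of a Dedekind extension

`A ⊆ B` a finite extension of Dedekind domains, `p` a maximal ideal of `A`.

* `exists_intTrace_notMem_of_mul_eq`: if `p B = P * Q` with `P` maximal, prime to `Q`, and
  `B ⧸ P` separable over `A ⧸ p` (i.e. `P` is unramified over `p`), there is `y ∈ Q` whose trace
  does not lie in `p`.
* `intTrace_mem_of_mem_mul`: the trace of an element of `p B` lies in `p`.
* `isIntegral_trace_of_isIntegral_localization`: the trace of an element integral over a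
  localization lies in this localization.
-/

set_option autoImplicit false

namespace Fermat.Agent.S16.Two

open Ideal

section Unramified

attribute [local instance] Ideal.Quotient.field

variable (A : Type*) {B : Type*} [CommRing A] [CommRing B] [Algebra A B]
  [IsDedekindDomain A] [IsDomain B] [Module.IsTorsionFree A B] [Module.Finite A B]
  [IsIntegrallyClosed B]

/-- **Local trace, unramified prime.**  If `p B = P * Q` with `P` maximal and prime to `Q`, and
the residue field extension at `P` is separable, then some `y ∈ Q` has `Tr(y) ∉ p`; moreover the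
reduction of `Tr(y)` modulo `p` is the residue trace of `y mod P`. -/
theorem exists_intTrace_notMem_of_mul_eq
    {p : Ideal A} [p.IsMaximal] (P Q : Ideal B) [P.IsMaximal] [P.LiesOver p]
    (hPQ : IsCoprime P Q) (hP : P * Q = Ideal.map (algebraMap A B) p)
    [Algebra.IsSeparable (A ⧸ p) (B ⧸ P)] :
    ∃ y ∈ Q, Algebra.intTrace A B y ∉ p := by
  let : Algebra (A ⧸ p) (B ⧸ Q) := Ideal.Quotient.algebraQuotientOfLEComap (by
      rw [← Ideal.map_le_iff_le_comap, ← hP]
      exact Ideal.mul_le_right)
  have : IsScalarTower A (A ⧸ p) (B ⧸ Q) := .of_algebraMap_eq' rfl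
  have : Module.Finite (A ⧸ p) (B ⧸ Q) :=
    Module.Finite.of_restrictScalars_finite A (A ⧸ p) (B ⧸ Q)
  let e : (B ⧸ p.map (algebraMap A B)) ≃ₐ[A ⧸ p] ((B ⧸ P) × B ⧸ Q) :=
    { __ := (Ideal.quotEquivOfEq hP.symm).trans (Ideal.quotientMulEquivQuotientProd P Q hPQ),
      commutes' := Quotient.ind fun _ ↦ rfl }
  obtain ⟨x, hx⟩ : ∃ x, Algebra.trace (A ⧸ p) (B ⧸ P) x ≠ 0 := by
    simpa [LinearMap.ext_iff] using Algebra.trace_ne_zero (A ⧸ p) (B ⧸ P)
  obtain ⟨y, hy⟩ := Ideal.Quotient.mk_surjective (e.symm (x, 0))
  refine ⟨y, ?_, ?_⟩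
  · have := congr((e $hy).2)
    simp at this
    simpa [e, Ideal.Quotient.eq_zero_iff_mem] using this
  · rw [← Ideal.Quotient.eq_zero_iff_mem, ← Algebra.trace_quotient_eq_of_isDedekindDomain,
      hy, Algebra.trace_eq_of_algEquiv, Algebra.trace_prod_apply]
    simpa

/-- The trace of an element of `p B` lies in `p`. -/
theorem intTrace_mem_of_mem_map {p : Ideal A} [p.IsMaximal] {x : B}
    (hx : x ∈ Ideal.map (algebraMap A B) p) : Algebra.intTrace A B x ∈ p := by
  rw [← Ideal.Quotient.eq_zero_iff_mem, ← Algebra.trace_quotient_eq_of_isDedekindDomain,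
    Ideal.Quotient.eq_zero_iff_mem.2 hx, map_zero]

end Unramified

section UnramifiedDedekind

attribute [local instance] Ideal.Quotient.field

variable (A : Type*) {B : Type*} [CommRing A] [CommRing B] [Algebra A B]
  [IsDedekindDomain A] [IsDedekindDomain B] [Module.IsTorsionFree A B] [Module.Finite A B]

/-- Variant: `P` is a maximal ideal of the Dedekind domain `B` over `p` with `p B ⊄ P ^ 2`
(ramification index one) and separable residue extension.  Then some `y : B` has `Tr(y) ∉ p`. -/
theorem exists_intTrace_notMem_of_not_le_sq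
    {p : Ideal A} [p.IsMaximal] (P : Ideal B) [P.IsMaximal] [P.LiesOver p]
    (hsq : ¬ Ideal.map (algebraMap A B) p ≤ P ^ 2)
    [Algebra.IsSeparable (A ⧸ p) (B ⧸ P)] :
    ∃ y : B, Algebra.intTrace A B y ∉ p := by
  have hle : Ideal.map (algebraMap A B) p ≤ P := by
    rw [Ideal.map_le_iff_le_comap]
    exact (P.over_def p).le
  obtain ⟨Q, hQ⟩ := Ideal.dvd_iff_le.2 hle
  have hcop : IsCoprime P Q := by
    rw [Ideal.isCoprime_iff_sup_eq]
    by_contra hne
    have hPQ : Q ≤ P := by
      have h1 : P ≤ P ⊔ Q := le_sup_left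
      have h2 := (Ideal.IsMaximal.eq_of_le inferInstance hne h1)
      rw [h2]
      exact le_sup_right
    apply hsq
    rw [hQ, pow_two]
    exact Ideal.mul_mono le_rfl hPQ
  obtain ⟨y, -, hy⟩ := exists_intTrace_notMem_of_mul_eq A P Q hcop hQ.symm
  exact ⟨y, hy⟩

/-- Variant with a uniformizer: `t ∈ p` whose image does not lie in `P ^ 2`. -/
theorem exists_intTrace_notMem_of_uniformizer
    {p : Ideal A} [p.IsMaximal] (P : Ideal B) [P.IsMaximal] [P.LiesOver p]
    (t : A) (ht : t ∈ p) (htP : algebraMap A B t ∉ P ^ 2)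
    [Algebra.IsSeparable (A ⧸ p) (B ⧸ P)] :
    ∃ y : B, Algebra.intTrace A B y ∉ p :=
  exists_intTrace_notMem_of_not_le_sq A P fun h => htP (h (Ideal.mem_map_of_mem _ ht))

end UnramifiedDedekind

section Integral

/-- The trace of an element that is integral over an integrally closed subring `R` of `K`
(e.g. a localization of a Dedekind domain, "regular at all places over `y₁`") lies in `R`
("is regular at `y₁`"). -/
theorem trace_mem_range_of_isIntegral {R K L : Type*} [CommRing R] [Field K] [Field L]
    [Algebra R K] [IsFractionRing R K] [IsIntegrallyClosed R] [Algebra K L] [Algebra R L]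
    [IsScalarTower R K L] [FiniteDimensional K L] {f : L} (hf : IsIntegral R f) :
    Algebra.trace K L f ∈ (algebraMap R K).range :=
  IsIntegrallyClosed.isIntegral_iff.1 (Algebra.isIntegral_trace hf)

end Integral

end Fermat.Agent.S16.Two
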