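import Mathlib

/-!
# WP-U2-LT / TD: the different ideal and the trace modulo `p`

* `map_dvd_differentIdeal_of_trace_mem` (TD2): if `Tr(B) ⊆ p` then `p B ∣ differentIdeal A B`.
* `exists_trace_notMem_of_not_dvd_differentIdeal` (TD1): if a prime `P` of `B` over the maximal
  ideal `p` of `A` does not divide the different ideal, then `Tr(B) ⊄ p`.
* `exists_intTrace_notMem_of_not_dvd_differentIdeal`: the same with `Algebra.intTrace`.
-/

set_option autoImplicit false

namespace Fermat.Agent.S16.Two

open Module nonZeroDivisors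

/-- In a Dedekind domain, `t • p ⊆ p` for a nonzero ideal `p` forces `t ∈ A`. -/
theorem mem_range_of_mul_mem_ideal {A K : Type*} [CommRing A] [Field K] [Algebra A K]
    [IsFractionRing A K] [IsDedekindDomain A] {p : Ideal A} (hp : p ≠ ⊥) (t : K)
    (h : ∀ a ∈ p, ∃ b ∈ p, t * algebraMap A K a = algebraMap A K b) :
    t ∈ (algebraMap A K).range := by
  have hp' : (p : FractionalIdeal A⁰ K) ≠ 0 := FractionalIdeal.coeIdeal_ne_zero.mpr hp
  have h1 : FractionalIdeal.spanSingleton A⁰ t * (p : FractionalIdeal A⁰ K) ≤ p := by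
    rw [FractionalIdeal.spanSingleton_mul_le_iff]
    intro z hz
    obtain ⟨a, ha, rfl⟩ := (FractionalIdeal.mem_coeIdeal _).mp hz
    obtain ⟨b, hb, hb'⟩ := h a ha
    rw [hb']
    exact FractionalIdeal.mem_coeIdeal_of_mem _ hb
  have h2 : FractionalIdeal.spanSingleton A⁰ t ≤ 1 := by
    calc FractionalIdeal.spanSingleton A⁰ t
        = FractionalIdeal.spanSingleton A⁰ t * (p : FractionalIdeal A⁰ K) *
            (p : FractionalIdeal A⁰ K)⁻¹ := by
          rw [mul_assoc, mul_inv_cancel₀ hp', mul_one]
      _ ≤ (p : FractionalIdeal A⁰ K) * (p : FractionalIdeal A⁰ K)⁻¹ := mul_le_mul_left h1 _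
      _ = 1 := mul_inv_cancel₀ hp'
  have h3 : t ∈ (1 : FractionalIdeal A⁰ K) := h2 (FractionalIdeal.mem_spanSingleton_self _ t)
  obtain ⟨a, ha⟩ := (FractionalIdeal.mem_one_iff _).mp h3
  exact ⟨a, ha⟩

/-- (TD2) If the trace of every element of `B` lies in the nonzero ideal `p`, then `p B` divides the
different ideal. -/
theorem map_dvd_differentIdeal_of_trace_mem
    (A K L B : Type*) [CommRing A] [Field K] [CommRing B] [Field L]
    [Algebra A K] [Algebra B L] [Algebra A B] [Algebra K L] [Algebra A L]
    [IsScalarTower A K L] [IsScalarTower A B L] [IsFractionRing A K] [IsFractionRing B L]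
    [IsDedekindDomain A] [IsDedekindDomain B] [Module.IsTorsionFree A B] [Module.Finite A B]
    [FiniteDimensional K L] [Algebra.IsSeparable K L]
    {p : Ideal A} (hp : p ≠ ⊥)
    (hcon : ∀ x : B, ∃ a ∈ p, Algebra.trace K L (algebraMap B L x) = algebraMap A K a) :
    Ideal.map (algebraMap A B) p ∣ differentIdeal A B := by
  rw [Ideal.dvd_iff_le]
  have hinj : Function.Injective (algebraMap A B) := FaithfulSMul.algebraMap_injective A B
  have hI : Ideal.map (algebraMap A B) p ≠ ⊥ :=
    (Ideal.map_eq_bot_iff_of_injective hinj).not.mpr hp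
  have : IsIntegralClosure B A L := IsIntegralClosure.of_isIntegrallyClosed B A L
  rw [differentialIdeal_le_iff (K := K) (L := L) hI]
  rintro _ ⟨x, hx, rfl⟩
  rw [Submodule.mem_one]
  have hx' : x ∈ ((Ideal.map (algebraMap A B) p : FractionalIdeal B⁰ L))⁻¹ := hx
  have hI' : (Ideal.map (algebraMap A B) p : FractionalIdeal B⁰ L) ≠ 0 :=
    FractionalIdeal.coeIdeal_ne_zero.mpr hI
  refine mem_range_of_mul_mem_ideal hp _ ?_
  intro a ha
  have h1 : x * algebraMap B L (algebraMap A B a) ∈ (1 : FractionalIdeal B⁰ L) :=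
    (FractionalIdeal.mem_inv_iff hI').mp hx' _
      (FractionalIdeal.mem_coeIdeal_of_mem _ (Ideal.mem_map_of_mem _ ha))
  obtain ⟨b, hb⟩ := (FractionalIdeal.mem_one_iff _).mp h1
  obtain ⟨c, hc, hc'⟩ := hcon b
  refine ⟨c, hc, ?_⟩
  rw [← hc', hb, ← IsScalarTower.algebraMap_apply A B L, IsScalarTower.algebraMap_apply A K L,
    mul_comm x, ← Algebra.smul_def, map_smul, smul_eq_mul, mul_comm]
  rfl

/-- (U2-LT = TD1) If some prime `P` over the maximal ideal `p` does not divide the different, the
trace of `B` is not contained in `p`. -/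
theorem exists_trace_notMem_of_not_dvd_differentIdeal
    (A K L B : Type*) [CommRing A] [Field K] [CommRing B] [Field L]
    [Algebra A K] [Algebra B L] [Algebra A B] [Algebra K L] [Algebra A L]
    [IsScalarTower A K L] [IsScalarTower A B L] [IsFractionRing A K] [IsFractionRing B L]
    [IsDedekindDomain A] [IsDedekindDomain B] [Module.IsTorsionFree A B] [Module.Finite A B]
    [FiniteDimensional K L] [Algebra.IsSeparable K L]
    {p : Ideal A} [p.IsMaximal] (hp : p ≠ ⊥) (P : Ideal B) [P.IsPrime] [P.LiesOver p]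
    (hP : ¬ P ∣ differentIdeal A B) :
    ∃ x : B, ∀ a ∈ p, Algebra.trace K L (algebraMap B L x) ≠ algebraMap A K a := by
  by_contra hcon
  push Not at hcon
  apply hP
  have hpP : P ∣ Ideal.map (algebraMap A B) p := by
    rw [Ideal.dvd_iff_le, Ideal.map_le_iff_le_comap]
    exact le_of_eq (Ideal.LiesOver.over (P := P) (p := p))
  exact hpP.trans (map_dvd_differentIdeal_of_trace_mem A K L B hp hcon)

attribute [local instance] FractionRing.liftAlgebra FractionRing.isScalarTower_liftAlgebra in
/-- (U2-LT), `intTrace` form. -/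
theorem exists_intTrace_notMem_of_not_dvd_differentIdeal
    (A B : Type*) [CommRing A] [CommRing B] [Algebra A B] [IsDedekindDomain A]
    [IsDedekindDomain B] [Module.IsTorsionFree A B] [Module.Finite A B]
    [Algebra.IsSeparable (FractionRing A) (FractionRing B)]
    {p : Ideal A} [p.IsMaximal] (hp : p ≠ ⊥) (P : Ideal B) [P.IsPrime] [P.LiesOver p]
    (hP : ¬ P ∣ differentIdeal A B) :
    ∃ x : B, Algebra.intTrace A B x ∉ p := by
  have : IsIntegralClosure B A (FractionRing B) :=
    IsIntegralClosure.of_isIntegrallyClosed B A (FractionRing B)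
  have : IsLocalization (Algebra.algebraMapSubmonoid B A⁰) (FractionRing B) :=
    IsIntegralClosure.isLocalization _ (FractionRing A) _ _
  have : FiniteDimensional (FractionRing A) (FractionRing B) := .of_isLocalization A B A⁰
  obtain ⟨x, hx⟩ := exists_trace_notMem_of_not_dvd_differentIdeal A (FractionRing A)
    (FractionRing B) B hp P hP
  exact ⟨x, fun hmem => hx _ hmem (Algebra.algebraMap_intTrace (A := A) x).symm⟩

end Fermat.Agent.S16.Two
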