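import Fermat.Agent.Lib.RiemannRoch.FunctionFieldRR

/-!
# P-S16 block U2, step 4: an integral function whose trace does not vanish at `x = 0`

helper8.  Let `K` be algebraically closed (any characteristic), `F / K(x)` finite separable of
degree `n`.  If `g(F) ≤ g` and there are places `c ∈ S` ("cusps"), none of them over `x = 0`, with
ramification indices `e c` over the `x`-line such that `2 g - 2 + 2 n ≤ ∑_{c ∈ S} (e c - 1)`
(the Hurwitz number of a covering ramified only at the cusps), then there is `φ ∈ F` integral over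
`K[x]` with `Tr_{F / K(x)} φ ∉ x K[x]`.

Proof: otherwise `x B` divides the different of `B = ` integral closure of `K[x]`, so the different
has degree `≥ n` over `x = 0`; together with `d_c ≥ e_c - 1` at the cusps the Hurwitz formula
(`FunctionFieldRR.hurwitz_E`) gives `2 g(F) - 2 ≥ 2 g - 2 + n`, a contradiction.
No ramification theory in characteristic `p` (wild different exponents, local trace formula)
is needed.
-/

set_option autoImplicit false
set_option linter.unusedSectionVars false
set_option linter.style.haveILetI false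

noncomputable section

namespace Fermat.Agent.S16.Two

open Module nonZeroDivisors IsDedekindDomain IsDedekindDomain.HeightOneSpectrum FractionalIdeal
open Fermat.Agent.S20.RR.DedekindMem Fermat.Agent.S20.RR.DualCount

section Dedekind

attribute [local instance] FractionRing.liftAlgebra FractionRing.isScalarTower_liftAlgebra

variable (A E : Type*) (F : Type*) {B : Type*} [CommRing A] [Field E] [CommRing B] [Field F]
  [Algebra A E] [Algebra B F] [Algebra A B] [Algebra E F] [Algebra A F]
  [IsScalarTower A E F] [IsScalarTower A B F]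
  [IsFractionRing A E] [FiniteDimensional E F] [Algebra.IsSeparable E F] [IsIntegralClosure B A F]
  [IsDedekindDomain A] [IsDedekindDomain B] [IsFractionRing B F] [Module.IsTorsionFree A B]

include E F in
/-- If all integral traces lie in the maximal ideal `p`, then `p B` divides the different. -/
theorem map_dvd_differentIdeal_of_intTrace_mem [Module.Finite A B] {p : Ideal A} [p.IsMaximal]
    (hp : p ≠ ⊥) (h : ∀ x : B, Algebra.intTrace A B x ∈ p) :
    p.map (algebraMap A B) ∣ differentIdeal A B := by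
  have hp' : p.map (algebraMap A B) ≠ ⊥ :=
    (Ideal.map_eq_bot_iff_of_injective (FaithfulSMul.algebraMap_injective A B)).not.mpr hp
  have hinv : (((p.map (algebraMap A B) : Ideal B) : FractionalIdeal B⁰ F))⁻¹ =
      1 / ((p.map (algebraMap A B) : Ideal B) : FractionalIdeal B⁰ F) := inv_eq_one_div _
  rw [Ideal.dvd_iff_le, differentialIdeal_le_iff (K := E) (L := F) hp', hinv,
    Submodule.map_le_iff_le_comap]
  intro x hx
  rw [Submodule.restrictScalars_mem, FractionalIdeal.mem_coe,
    FractionalIdeal.mem_div_iff_of_ne_zero (by simpa using hp')] at hx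
  rw [Submodule.mem_comap, LinearMap.coe_restrictScalars, ← FractionalIdeal.coe_one,
    ← div_self (G₀ := FractionalIdeal A⁰ E) (a := p) (by simpa using hp),
    FractionalIdeal.mem_coe, FractionalIdeal.mem_div_iff_of_ne_zero (by simpa using hp)]
  intro y hy'
  obtain ⟨y, hy, rfl : algebraMap A E _ = _⟩ := (FractionalIdeal.mem_coeIdeal _).mp hy'
  have h1 := hx (algebraMap B F (algebraMap A B y))
    ((FractionalIdeal.mem_coeIdeal _).mpr ⟨_, Ideal.mem_map_of_mem _ hy, rfl⟩)
  obtain ⟨z, hz⟩ := (FractionalIdeal.mem_one_iff _).mp h1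
  have : Algebra.trace E F (algebraMap B F z) ∈ (p : FractionalIdeal A⁰ E) := by
    rw [← Algebra.algebraMap_intTrace (A := A)]
    exact (FractionalIdeal.mem_coeIdeal _).mpr ⟨Algebra.intTrace A B z, h z, rfl⟩
  rwa [mul_comm, ← smul_eq_mul, ← map_smul, Algebra.smul_def, mul_comm,
    ← IsScalarTower.algebraMap_apply, IsScalarTower.algebraMap_apply A B F, ← hz]

omit [Algebra A B] [Algebra A F] [IsScalarTower A B F] [IsIntegralClosure B A F]
  [Module.IsTorsionFree A B] [FiniteDimensional E F] [Algebra.IsSeparable E F] [Algebra E F]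
  [IsScalarTower A E F] [Algebra A E] [IsFractionRing A E] [IsDedekindDomain A] in
/-- If `v ^ m` divides a nonzero ideal, its exponent at `v` is at least `m`. -/
theorem le_count_of_pow_dvd (v : HeightOneSpectrum B) {I : Ideal B} (hI : I ≠ ⊥) {m : ℕ}
    (h : v.asIdeal ^ m ∣ I) : (m : ℤ) ≤ count F v (I : FractionalIdeal B⁰ F) := by
  obtain ⟨J, rfl⟩ := h
  have hJ : J ≠ ⊥ := by
    rintro rfl
    exact hI (by simp)
  have h1 : ((v.asIdeal ^ m : Ideal B) : FractionalIdeal B⁰ F) ≠ 0 :=
    coeIdeal_ne_zero.mpr (pow_ne_zero _ v.ne_bot)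
  have h2 : (J : FractionalIdeal B⁰ F) ≠ 0 := coeIdeal_ne_zero.mpr hJ
  rw [coeIdeal_mul, count_mul F v h1 h2, coeIdeal_pow, count_pow, count_self, mul_one]
  have := count_coe_nonneg F v J
  omega

include E in
/-- `d_P ≥ e - 1` whenever `P ^ e ∣ p B` (Mathlib `pow_sub_one_dvd_differentIdeal`). -/
theorem sub_one_le_count_differentIdeal {p : Ideal A} [p.IsMaximal] (hp : p ≠ ⊥)
    (v : HeightOneSpectrum B) {e : ℕ} (h : v.asIdeal ^ e ∣ p.map (algebraMap A B)) :
    (e : ℤ) - 1 ≤ count F v ((differentIdeal A B : Ideal B) : FractionalIdeal B⁰ F) := by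
  have : Module.Finite A B := IsIntegralClosure.finite A E F B
  have : Algebra.IsSeparable (FractionRing A) (FractionRing B) :=
    Fermat.Agent.S20.RR.DualDim.isSeparable_fractionRing A E F B
  have h1 := pow_sub_one_dvd_differentIdeal (A := A) v.asIdeal e hp h
  have h2 := le_count_of_pow_dvd F v (differentIdeal_ne_bot' A E F B) h1
  omega

include E in
/-- `d_P ≥ e` if `P ^ e ∣ p B` and `p B` divides the different. -/
theorem le_count_differentIdeal_of_map_dvd {p : Ideal A}
    (hdvd : p.map (algebraMap A B) ∣ differentIdeal A B)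
    (v : HeightOneSpectrum B) {e : ℕ} (h : v.asIdeal ^ e ∣ p.map (algebraMap A B)) :
    (e : ℤ) ≤ count F v ((differentIdeal A B : Ideal B) : FractionalIdeal B⁰ F) :=
  le_count_of_pow_dvd F v (differentIdeal_ne_bot' A E F B) (h.trans hdvd)

end Dedekind

section Inertia

variable (k A : Type*) {B : Type*} [Field k] [CommRing A] [CommRing B] [Algebra A B]
  [Algebra k A] [Algebra k B] [IsScalarTower k A B]

/-- If the residue field of `p` is `k` then the inertia degree of `P ∣ p` is `dim_k (B ⧸ P)`. -/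
theorem inertiaDeg_eq_finrank_of_surjective (p : Ideal A) [p.IsMaximal]
    (hres : Function.Surjective (algebraMap k (A ⧸ p))) (P : Ideal B) [P.IsMaximal]
    [P.LiesOver p] : P.inertiaDeg A = finrank k (B ⧸ P) := by
  rw [Ideal.inertiaDeg_eq_of_isMaximal p P]
  let _ : Field (A ⧸ p) := Ideal.Quotient.field _
  let _ : Field (B ⧸ P) := Ideal.Quotient.field _
  have e : k ≃ₗ[k] (A ⧸ p) :=
    LinearEquiv.ofBijective (Algebra.linearMap k (A ⧸ p))
      ⟨(algebraMap k (A ⧸ p)).injective, hres⟩
  have h1 : finrank k (A ⧸ p) = 1 := by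
    rw [← e.finrank_eq, finrank_self]
  have h2 := Module.finrank_mul_finrank k (A ⧸ p) (B ⧸ P)
  rw [h1, one_mul] at h2
  exact h2

end Inertia

section Chart

open AlgebraicCurve Fermat.Agent.S20.RR.Dictionary Fermat.Agent.S20.RR.Canonical
  Fermat.Agent.S24.PD

variable {K E F : Type*} [Field K] [Field E] [Field F] [Algebra K E] [Algebra K F] [Algebra E F]
  [IsScalarTower K E F] [FiniteDimensional E F] [Algebra.IsSeparable E F]
variable (A : Subalgebra K E) [IsDedekindDomain A] [IsFractionRing A E]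

theorem algebraMap_intCl_injective :
    Function.Injective (algebraMap ↥A ↥(IntCl (F := F) A)) := by
  intro a b hab
  have h2 : algebraMap ↥A F a = algebraMap ↥A F b :=
    congrArg (fun t => algebraMap (IntCl (F := F) A) F t) hab
  exact Subtype.ext ((algebraMap E F).injective h2)

variable {A}

/-- The order of `π ∈ A` at a place over `A`, as a divisibility of ideals upstairs. -/
theorem primeOf_pow_dvd_map_span {c : Place K F} (hc : c ∈ placesOver (F := F) A) {π : ↥A}
    (hπ : π ≠ 0) {e : ℕ} (he : c.ord (algebraMap ↥A F π) = e) :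
    (primeOf c hc).asIdeal ^ e ∣
      (Ideal.span {π}).map (algebraMap ↥A ↥(IntCl (F := F) A)) := by
  rw [Ideal.map_span, Set.image_singleton]
  set b := algebraMap ↥A ↥(IntCl (F := F) A) π with hbdef
  have hb : b ≠ 0 := (map_ne_zero_iff _ (algebraMap_intCl_injective (F := F) A)).mpr hπ
  have h1 := placeOfPrime_ord_algebraMap (K := K) (F := F) (primeOf c hc) hb
  have h2 : placeOfPrime (K := K) (F := F) (primeOf c hc) = c := placeOf_primeOf c hc
  rw [h2] at h1
  have h3 : algebraMap ↥(IntCl (F := F) A) F b = algebraMap ↥A F π := rfl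
  rw [h3, he] at h1
  have h4 : e = multiplicity (primeOf c hc).asIdeal (Ideal.span {b}) := by exact_mod_cast h1
  rw [h4]
  exact pow_multiplicity_dvd _ _

/-- At a place `c` over `A` where the generator `π` of a maximal ideal has order `e`, the
different exponent is at least `e - 1`. -/
theorem sub_one_le_diffExps {c : Place K F} (hc : c ∈ placesOver (F := F) A) {π : ↥A}
    (hπ : π ≠ 0) (hmax : (Ideal.span {π}).IsMaximal) {e : ℕ}
    (he : c.ord (algebraMap ↥A F π) = e) :
    (e : ℤ) - 1 ≤ diffExps (F := F) A (primeOf c hc) := by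
  rw [diffExps_apply]
  have hp : Ideal.span {π} ≠ ⊥ := by
    rw [Ne, Ideal.span_singleton_eq_bot]
    exact hπ
  exact sub_one_le_count_differentIdeal ↥A E F hp _ (primeOf_pow_dvd_map_span hc hπ he)

/-- If moreover `π B` divides the different, the different exponent is at least `e`. -/
theorem le_diffExps_of_map_dvd {c : Place K F} (hc : c ∈ placesOver (F := F) A) {π : ↥A}
    (hπ : π ≠ 0) {e : ℕ} (he : c.ord (algebraMap ↥A F π) = e)
    (hdvd : (Ideal.span {π}).map (algebraMap ↥A ↥(IntCl (F := F) A)) ∣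
      differentIdeal ↥A ↥(IntCl (F := F) A)) :
    (e : ℤ) ≤ diffExps (F := F) A (primeOf c hc) := by
  rw [diffExps_apply]
  exact le_count_differentIdeal_of_map_dvd ↥A E F hdvd _ (primeOf_pow_dvd_map_span hc hπ he)

end Chart

section Chart2

open AlgebraicCurve Fermat.Agent.S20.RR.Dictionary Fermat.Agent.S20.RR.Canonical
  Fermat.Agent.S24.PD

variable {K E F : Type*} [Field K] [Field E] [Field F] [Algebra K E] [Algebra K F] [Algebra E F]
  [IsScalarTower K E F] [FiniteDimensional E F] [Algebra.IsSeparable E F]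
variable (A : Subalgebra K E) [IsDedekindDomain A] [IsFractionRing A E]

instance faithfulSMul_intCl : FaithfulSMul ↥A ↥(IntCl (F := F) A) :=
  (faithfulSMul_iff_algebraMap_injective _ _).mpr (algebraMap_intCl_injective A)

variable {A}

/-- An element of `A` lying in a prime `P` upstairs vanishes at the place of `P`. -/
theorem ord_placeOf_pos (P : HeightOneSpectrum ↥(IntCl (F := F) A)) {π : ↥A} (hπ : π ≠ 0)
    (hmem : algebraMap ↥A ↥(IntCl (F := F) A) π ∈ P.asIdeal) :
    0 < (placeOf P : Place K F).ord (algebraMap ↥A F π) := by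
  have hb : algebraMap ↥A ↥(IntCl (F := F) A) π ≠ 0 :=
    (map_ne_zero_iff _ (algebraMap_intCl_injective (F := F) A)).mpr hπ
  have h1 := placeOfPrime_ord_algebraMap (K := K) (F := F) P hb
  have h3 : algebraMap ↥(IntCl (F := F) A) F (algebraMap ↥A ↥(IntCl (F := F) A) π) =
      algebraMap ↥A F π := rfl
  rw [h3] at h1
  have h4 : (placeOf P : Place K F) = placeOfPrime (K := K) (F := F) P := rfl
  rw [h4, h1]
  have h5 : multiplicity P.asIdeal (Ideal.span {algebraMap ↥A ↥(IntCl (F := F) A) π}) ≠ 0 := by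
    rw [Ne, multiplicity_eq_zero, not_not, Ideal.dvd_span_singleton]
    exact hmem
  exact_mod_cast Nat.pos_of_ne_zero h5

/-- If `π B` divides the different (`π` a generator of a maximal ideal of `A` with residue field
`K`), the different exponents on the fibre over `π` sum to at least `[F : E]`. -/
theorem finrank_le_sum_diffExps_of_map_dvd (hdeg : ∀ v : Place K F, v.deg = 1) {π : ↥A}
    (hπ : π ≠ 0) (hmax : (Ideal.span {π}).IsMaximal)
    (hres : Function.Surjective (algebraMap K (↥A ⧸ Ideal.span {π})))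
    (hdvd : (Ideal.span {π}).map (algebraMap ↥A ↥(IntCl (F := F) A)) ∣
      differentIdeal ↥A ↥(IntCl (F := F) A)) :
    ∃ T : Finset (HeightOneSpectrum ↥(IntCl (F := F) A)),
      (∀ P ∈ T, algebraMap ↥A ↥(IntCl (F := F) A) π ∈ P.asIdeal) ∧
      (finrank E F : ℤ) ≤ ∑ P ∈ T, diffExps (F := F) A P := by
  classical
  haveI := hmax
  have hp : Ideal.span {π} ≠ ⊥ := by
    rw [Ne, Ideal.span_singleton_eq_bot]
    exact hπ
  haveI hfin : Module.Finite ↥A ↥(IntCl (F := F) A) :=
    IsIntegralClosure.finite ↥A E F ↥(IntCl (F := F) A)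
  have hpB : (Ideal.span {π}).map (algebraMap ↥A ↥(IntCl (F := F) A)) ≠ ⊥ :=
    (Ideal.map_eq_bot_iff_of_injective (algebraMap_intCl_injective (F := F) A)).not.mpr hp
  have hfinite : Finite ((Ideal.span {π}).primesOver ↥(IntCl (F := F) A)) := by
    refine Set.Finite.to_subtype ?_
    refine (IsDedekindDomain.primesOverFinset (Ideal.span {π})
      ↥(IntCl (F := F) A)).finite_toSet.subset ?_
    intro q hq
    exact Finset.mem_coe.mpr
      ((IsDedekindDomain.mem_primesOverFinset_iff hp ↥(IntCl (F := F) A)).mpr hq)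
  let _ : Fintype ((Ideal.span {π}).primesOver ↥(IntCl (F := F) A)) := Fintype.ofFinite _
  have hsum := Ideal.sum_ramification_inertia_eq_finrank (Ideal.span {π}) ↥(IntCl (F := F) A)
  rw [← IsFractionRing.finrank_eq ↥A E ↥(IntCl (F := F) A) F] at hsum
  -- the prime of `B` attached to a point of the fibre
  let P : (Ideal.span {π}).primesOver ↥(IntCl (F := F) A) →
      HeightOneSpectrum ↥(IntCl (F := F) A) := fun q =>
    ⟨q.1, q.2.1, by
      haveI : q.1.LiesOver (Ideal.span {π}) := q.2.2
      exact Ideal.ne_bot_of_liesOver_of_ne_bot hp q.1⟩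
  have hPinj : Function.Injective P := by
    intro q q' h
    exact Subtype.ext (congrArg HeightOneSpectrum.asIdeal h)
  refine ⟨Finset.univ.image P, ?_, ?_⟩
  · intro Q hQ
    obtain ⟨q, -, rfl⟩ := Finset.mem_image.mp hQ
    haveI : q.1.LiesOver (Ideal.span {π}) := q.2.2
    have h1 : π ∈ Ideal.span {π} := Ideal.mem_span_singleton_self _
    rw [Ideal.over_def q.1 (Ideal.span {π})] at h1
    exact h1
  · rw [Finset.sum_image (fun q _ q' _ h => hPinj h), ← hsum]
    push_cast
    refine Finset.sum_le_sum fun q _ => ?_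
    haveI : q.1.LiesOver (Ideal.span {π}) := q.2.2
    haveI : q.1.IsMaximal := (P q).isMaximal
    have hf : q.1.inertiaDeg ↥A = 1 := by
      rw [inertiaDeg_eq_finrank_of_surjective K ↥A (Ideal.span {π}) hres q.1]
      have := Fermat.Agent.S20.RR.Hurwitz.deg_placeOf (K := K) (A := A) (P q)
      rw [hdeg] at this
      exact this.symm
    rw [hf, Nat.cast_one, mul_one, diffExps_apply]
    refine le_count_differentIdeal_of_map_dvd ↥A E F hdvd (P q) ?_
    rw [Ideal.IsDedekindDomain.ramificationIdx_eq_multiplicity (Ideal.span {π}) q.1 hpB]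
    exact pow_multiplicity_dvd _ _

end Chart2

section DivisorSum

open AlgebraicCurve

variable {K F : Type*} [Field K] [Field F] [Algebra K F]

/-- For an effective divisor on a curve all of whose places have degree one, any partial sum of
coefficients is at most the degree. -/
theorem sum_le_degree_of_nonneg (hdeg : ∀ v : Place K F, v.deg = 1) (D : Divisor K F)
    (hD : ∀ v, 0 ≤ D v) (T : Finset (Place K F)) : ∑ c ∈ T, D c ≤ Divisor.degree D := by
  classical
  have h1 : Divisor.degree D = D.sum fun _ n => n := by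
    unfold Divisor.degree
    rw [Finsupp.liftAddHom_apply]
    refine Finsupp.sum_congr fun v _ => ?_
    simp [hdeg v]
  rw [h1, Finsupp.sum_of_support_subset D (Finset.subset_union_left (s₂ := T)) _
    (fun _ _ => rfl)]
  exact Finset.sum_le_sum_of_subset_of_nonneg Finset.subset_union_right (fun v _ _ => hD v)

/-- If `f - a` vanishes at `c` for a nonzero constant `a`, then `f` does not vanish at `c`. -/
theorem ord_nonpos_of_ord_sub_pos (c : Place K F) {f : F} {a : K} (ha : a ≠ 0)
    (h : 0 < c.ord (f - algebraMap K F a)) : c.ord f ≤ 0 := by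
  by_contra hcon
  push Not at hcon
  have h1 : c.adicValuation (f - algebraMap K F a) ≤ WithZero.exp (-1 : ℤ) :=
    c.adicValuation_le_exp_iff.mpr (Or.inr (by omega))
  have h2 : c.adicValuation f ≤ WithZero.exp (-1 : ℤ) :=
    c.adicValuation_le_exp_iff.mpr (Or.inr (by omega))
  have h3 : c.adicValuation (algebraMap K F a) ≤ WithZero.exp (-1 : ℤ) := by
    have : algebraMap K F a = f - (f - algebraMap K F a) := by ring
    rw [this]
    exact (Valuation.map_sub _ _ _).trans (max_le h2 h1)
  rw [Fermat.Agent.S20.RR.Dictionary.adicValuation_algebraMap_eq_one c ha, ← WithZero.exp_zero,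
    WithZero.exp_le_exp] at h3
  omega

end DivisorSum

section Line

open AlgebraicCurve Polynomial
open Fermat.Agent.S20.RR.Dictionary Fermat.Agent.S20.RR.Canonical
  Fermat.Agent.S20.RR.LineDataFrac Fermat.Agent.S24.PD Fermat.Agent.S24.ZD
  Fermat.Agent.Lib.RiemannRoch.FunctionFieldRR

variable {K E F : Type*} [Field K] [Field E] [Field F]
  [Algebra K[X] E] [IsFractionRing K[X] E] [Algebra K E] [IsScalarTower K K[X] E]
  [Algebra K F] [Algebra E F] [IsScalarTower K E F] [FiniteDimensional E F]
  [Algebra.IsSeparable E F]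

variable (K E F) in
/-- The total different divisor of `F / K(x)` (both charts). -/
def diffDiv : Divisor K F :=
  divOfExps (polyR K E) (diffExps (F := F) (polyR K E)) +
    divOfExps (inftyS K E) (diffExps (F := F) (inftyS K E))

theorem diffDiv_apply_of_polyR {v : Place K F} (hv : v ∈ placesOver (F := F) (polyR K E)) :
    diffDiv K E F v = diffExps (F := F) (polyR K E) (primeOf v hv) := by
  unfold diffDiv
  rw [Finsupp.add_apply, divOfExps_of_mem _ v hv,
    divOfExps_of_notMem _ v (notMem_placesOver_inftyS hv), add_zero]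

theorem diffDiv_apply_of_inftyS {v : Place K F} (hv : v ∈ placesOver (F := F) (inftyS K E)) :
    diffDiv K E F v = diffExps (F := F) (inftyS K E) (primeOf v hv) := by
  unfold diffDiv
  rw [Finsupp.add_apply, divOfExps_of_mem _ v hv,
    divOfExps_of_notMem _ v (notMem_placesOver_polyR hv), zero_add]

theorem diffDiv_nonneg (v : Place K F) : 0 ≤ diffDiv K E F v := by
  rcases mem_placesOver_polyR_or_inftyS (E := E) v with hv | hv
  · rw [diffDiv_apply_of_polyR hv]
    exact diffExps_nonneg _
  · rw [diffDiv_apply_of_inftyS hv]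
    exact diffExps_nonneg _

/-- **Hurwitz**: the degree of the different divisor. -/
theorem degree_diffDiv [∀ v : Place K F, v.FiniteResidue] [HasPrincipalDivisors K F] :
    Divisor.degree (diffDiv K E F) = 2 * (genusFF K F : ℤ) -
      2 * finrank K (riemannRochSpace (0 : Divisor K F)) + 2 * (finrank E F : ℤ) := by
  unfold diffDiv
  rw [map_add]
  have := hurwitz_E K E F
  linarith

variable (K E) in
/-- The element `x - a` of `K[x] ⊆ E`. -/
def linR (a : K) : ↥(polyR K E) := polyEquiv K E (X - C a)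

theorem algebraMap_linR (a : K) :
    algebraMap ↥(polyR K E) F (linR K E a) = xF K E F - algebraMap K F a := by
  change algebraMap E F (algebraMap K[X] E (X - C a)) = _
  rw [map_sub, map_sub]
  unfold xF
  congr 1
  rw [← algebraMap_eq_C, ← IsScalarTower.algebraMap_apply]

theorem linR_ne_zero (a : K) : linR K E a ≠ 0 :=
  (map_ne_zero_iff _ (polyEquiv K E).injective).mpr (X_sub_C_ne_zero a)

theorem irreducible_linR (a : K) : Irreducible (linR K E a) :=
  (MulEquiv.irreducible_iff (polyEquiv K E)).mpr (irreducible_X_sub_C a)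

theorem span_linR_isMaximal (a : K) : (Ideal.span {linR K E a}).IsMaximal :=
  PrincipalIdealRing.isMaximal_of_irreducible (irreducible_linR a)

theorem span_linR_ne_bot (a : K) : Ideal.span {linR K E a} ≠ ⊥ := by
  rw [Ne, Ideal.span_singleton_eq_bot]
  exact linR_ne_zero a

theorem residue_linR_surjective (a : K) :
    Function.Surjective (algebraMap K (↥(polyR K E) ⧸ Ideal.span {linR K E a})) := by
  intro y
  obtain ⟨s, rfl⟩ := Ideal.Quotient.mk_surjective y
  obtain ⟨p, rfl⟩ := (polyEquiv K E).surjective s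
  refine ⟨p.eval a, ?_⟩
  rw [IsScalarTower.algebraMap_apply K ↥(polyR K E) (↥(polyR K E) ⧸ _),
    Ideal.Quotient.algebraMap_eq, Ideal.Quotient.eq, Ideal.mem_span_singleton]
  have h1 : algebraMap K ↥(polyR K E) (p.eval a) = polyEquiv K E (C (p.eval a)) := by
    rw [← Polynomial.algebraMap_eq, AlgEquiv.commutes]
  rw [h1, ← map_sub]
  exact map_dvd (polyEquiv K E) (dvd_sub_comm.mp X_sub_C_dvd_sub_C_eval)

theorem mem_placesOver_polyR_of_ord {c : Place K F} {a : K}
    (h : 0 ≤ c.ord (xF K E F - algebraMap K F a)) : c ∈ placesOver (F := F) (polyR K E) := by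
  rw [mem_placesOver_polyR_iff]
  have h1 : xF K E F - algebraMap K F a ∈ c.toValuationSubring :=
    (PlaceLemmas.mem_iff_ord c _).mpr (Or.inr h)
  have h2 : algebraMap K F a ∈ c.toValuationSubring := c.algebraMap_mem' a
  have := add_mem h1 h2
  rwa [sub_add_cancel] at this

/-- The different exponent at a place over `x = a` with ramification index `e` is `≥ e - 1`. -/
theorem sub_one_le_diffDiv_of_finite {c : Place K F} {a : K} {e : ℕ}
    (he : c.ord (xF K E F - algebraMap K F a) = e) : (e : ℤ) - 1 ≤ diffDiv K E F c := by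
  have hc : c ∈ placesOver (F := F) (polyR K E) :=
    mem_placesOver_polyR_of_ord (a := a) (by rw [he]; positivity)
  rw [diffDiv_apply_of_polyR hc]
  exact sub_one_le_diffExps hc (linR_ne_zero a) (span_linR_isMaximal a)
    (by rw [algebraMap_linR]; exact he)

/-- The different exponent at a pole of `x` of order `e` is `≥ e - 1`. -/
theorem sub_one_le_diffDiv_of_infinite {c : Place K F} {e : ℕ} (he1 : 1 ≤ e)
    (he : c.ord (xF K E F) = -(e : ℤ)) : (e : ℤ) - 1 ≤ diffDiv K E F c := by
  have hc : c ∈ placesOver (F := F) (inftyS K E) := by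
    rw [mem_placesOver_inftyS_iff, PlaceLemmas.mem_iff_ord]
    push Not
    exact ⟨xF_ne_zero, by rw [he]; omega⟩
  rw [diffDiv_apply_of_inftyS hc]
  have e1 : algebraMap ↥(inftyS K E) F (unifS K E) = (xF K E F)⁻¹ := by
    change algebraMap E F (algebraMap K[X] E X)⁻¹ = _
    rw [map_inv₀]
    rfl
  exact sub_one_le_diffExps hc (irreducible_unifS (k := K) (E := E)).ne_zero
    (PrincipalIdealRing.isMaximal_of_irreducible (irreducible_unifS (k := K) (E := E)))
    (by rw [e1, c.ord_inv, he, neg_neg])

end Line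

section Main

open AlgebraicCurve Polynomial
open Fermat.Agent.S20.RR.Dictionary Fermat.Agent.S20.RR.Canonical
  Fermat.Agent.S20.RR.LineDataFrac Fermat.Agent.S24.PD Fermat.Agent.S24.ZD
  Fermat.Agent.Lib.RiemannRoch.FunctionFieldRR

variable {K E F : Type*} [Field K] [Field E] [Field F]
  [Algebra K[X] E] [IsFractionRing K[X] E] [Algebra K E] [IsScalarTower K K[X] E]
  [Algebra K F] [Algebra E F] [IsScalarTower K E F] [FiniteDimensional E F]
  [Algebra.IsSeparable E F]

/-- If `(x - a) B` divides the different of `B / K[x]`, the different divisor has degree at least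
`[F : E]` on the fibre over `x = a`. -/
theorem finrank_le_sum_diffDiv_of_map_dvd (hdeg : ∀ v : Place K F, v.deg = 1) (a : K)
    (hdvd : (Ideal.span {linR K E a}).map
        (algebraMap ↥(polyR K E) ↥(IntCl (F := F) (polyR K E))) ∣
      differentIdeal ↥(polyR K E) ↥(IntCl (F := F) (polyR K E))) :
    ∃ T : Finset (Place K F), (∀ c ∈ T, 0 < c.ord (xF K E F - algebraMap K F a)) ∧
      (finrank E F : ℤ) ≤ ∑ c ∈ T, diffDiv K E F c := by
  classical
  obtain ⟨T, hT, hsum⟩ := finrank_le_sum_diffExps_of_map_dvd (A := polyR K E) hdeg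
    (linR_ne_zero a) (span_linR_isMaximal a) (residue_linR_surjective a) hdvd
  refine ⟨T.image (placeOf : _ → Place K F), ?_, ?_⟩
  · intro c hc
    obtain ⟨P, hP, rfl⟩ := Finset.mem_image.mp hc
    have := ord_placeOf_pos (K := K) P (linR_ne_zero a) (hT P hP)
    rwa [algebraMap_linR] at this
  · rw [Finset.sum_image (fun P _ Q _ h => placeOf_injective h)]
    refine hsum.trans (le_of_eq (Finset.sum_congr rfl fun P _ => ?_))
    rw [diffDiv_apply_of_polyR (placeOf_mem P), primeOf_placeOf]

/-- **Step 4 of (U2), `E`-setting.**  `K`-rational places only (`K` algebraically closed),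
`g(F) ≤ g`, cusp places `c ∈ S` (poles of `x`, or zeros of `x - a` with `a ≠ 0`) with
ramification indices `e c`, and `2 g - 2 + 2 [F : E] ≤ ∑ (e c - 1)`.  Then some element of the
integral closure of `K[x]` has trace outside the ideal `(x)`. -/
theorem exists_trace_notMem_span (hdeg : ∀ v : Place K F, v.deg = 1)
    [∀ v : Place K F, v.FiniteResidue] [HasPrincipalDivisors K F]
    (hl0 : finrank K (riemannRochSpace (0 : Divisor K F)) = 1)
    (g : ℕ) (hg : genusFF K F ≤ g) (S : Finset (Place K F)) (e : Place K F → ℕ)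
    (hS : ∀ c ∈ S, 1 ≤ e c ∧ (c.ord (xF K E F) = -(e c : ℤ) ∨
      ∃ a : K, a ≠ 0 ∧ c.ord (xF K E F - algebraMap K F a) = e c))
    (hR : 2 * (g : ℤ) - 2 + 2 * (finrank E F : ℤ) ≤ ∑ c ∈ S, ((e c : ℤ) - 1)) :
    ∃ φ : ↥(IntCl (F := F) (polyR K E)), ∃ t : ↥(polyR K E),
      Algebra.trace E F (algebraMap ↥(IntCl (F := F) (polyR K E)) F φ) =
        algebraMap ↥(polyR K E) E t ∧ t ∉ Ideal.span {linR K E 0} := by
  classical
  haveI hfin : Module.Finite ↥(polyR K E) ↥(IntCl (F := F) (polyR K E)) :=
    IsIntegralClosure.finite ↥(polyR K E) E F ↥(IntCl (F := F) (polyR K E))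
  by_contra hcon
  push Not at hcon
  have hall : ∀ φ : ↥(IntCl (F := F) (polyR K E)),
      Algebra.intTrace ↥(polyR K E) ↥(IntCl (F := F) (polyR K E)) φ ∈
        Ideal.span {linR K E 0} := fun φ =>
    hcon φ _ (Algebra.algebraMap_intTrace (A := ↥(polyR K E)) (K := E) (L := F) φ).symm
  haveI := span_linR_isMaximal (K := K) (E := E) 0
  have hdvd := map_dvd_differentIdeal_of_intTrace_mem ↥(polyR K E) E F
    (span_linR_ne_bot (K := K) (E := E) 0) hall
  obtain ⟨T, hT, hTsum⟩ := finrank_le_sum_diffDiv_of_map_dvd hdeg 0 hdvd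
  have hdisj : Disjoint T S := by
    rw [Finset.disjoint_left]
    intro c hcT hcS
    have h1 := hT c hcT
    rw [map_zero, sub_zero] at h1
    obtain ⟨he1, h | ⟨a, ha, h⟩⟩ := hS c hcS
    · rw [h] at h1
      omega
    · have := ord_nonpos_of_ord_sub_pos c ha (by rw [h]; exact_mod_cast he1)
      omega
  have h1 : ∑ c ∈ S, ((e c : ℤ) - 1) ≤ ∑ c ∈ S, diffDiv K E F c := by
    refine Finset.sum_le_sum fun c hc => ?_
    obtain ⟨he1, h | ⟨a, ha, h⟩⟩ := hS c hc
    · exact sub_one_le_diffDiv_of_infinite he1 h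
    · exact sub_one_le_diffDiv_of_finite h
  have h2 := sum_le_degree_of_nonneg hdeg (diffDiv K E F) diffDiv_nonneg (T ∪ S)
  rw [Finset.sum_union hdisj, degree_diffDiv, hl0] at h2
  have hn : 0 < finrank E F := finrank_pos
  have hg' : (genusFF K F : ℤ) ≤ g := by exact_mod_cast hg
  have hn' : (0 : ℤ) < finrank E F := by exact_mod_cast hn
  push_cast at h2
  linarith

end Main

section XSetting

open AlgebraicCurve Polynomial IntermediateField
open Fermat.Agent.S20.RR.Dictionary Fermat.Agent.S20.RR.LineDataFrac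
  Fermat.Agent.Lib.RiemannRoch Fermat.Agent.Lib.RiemannRoch.FunctionFieldRR
  Fermat.Agent.Lib.RiemannRoch.XSetting

variable {K F : Type*} [Field K] [IsAlgClosed K] [Field F] [Algebra K F] {x : F}
  (hx : Transcendental K x) [FiniteDimensional K⟮x⟯ F] [Algebra.IsSeparable K⟮x⟯ F]

attribute [local instance] polyAlgebra

include hx in
/-- **Step 4 of (U2).**  `K` algebraically closed, `F / K(x)` finite separable, `g(F) ≤ g`,
cusp places `c ∈ S` (poles of `x`, or zeros of `x - a` with `a ≠ 0`) with ramification indices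
`e c` over the `x`-line, and `2 g - 2 + 2 [F : K(x)] ≤ ∑_{c ∈ S} (e c - 1)`.  Then there is `φ ∈ F`
integral over `K[x]` whose trace to `K(x)` is a polynomial `q(x)` with `q(0) ≠ 0`. -/
theorem exists_isIntegral_trace_eval_ne_zero (g : ℕ) (hg : genusFF K F ≤ g)
    (S : Finset (Place K F)) (e : Place K F → ℕ)
    (hS : ∀ c ∈ S, 1 ≤ e c ∧ (c.ord x = -(e c : ℤ) ∨
      ∃ a : K, a ≠ 0 ∧ c.ord (x - algebraMap K F a) = e c))
    (hR : 2 * (g : ℤ) - 2 + 2 * (finrank K⟮x⟯ F : ℤ) ≤ ∑ c ∈ S, ((e c : ℤ) - 1)) :
    ∃ φ : F, IsIntegral (Algebra.adjoin K {x}) φ ∧ ∃ q : K[X],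
      algebraMap K⟮x⟯ F (Algebra.trace K⟮x⟯ F φ) = aeval x q ∧ q.eval 0 ≠ 0 := by
  haveI := isFractionRing_polyAlgebra hx
  haveI := nonempty_place hx
  haveI : ∀ v : Place K F, v.FiniteResidue := FunctionField.finiteResidue K x
  haveI := hasPrincipalDivisors hx
  have hl0 : finrank K (riemannRochSpace (0 : Divisor K F)) = 1 := ell_zero_eq_one
  have hS' : ∀ c ∈ S, 1 ≤ e c ∧ (c.ord (xF K K⟮x⟯ F) = -(e c : ℤ) ∨
      ∃ a : K, a ≠ 0 ∧ c.ord (xF K K⟮x⟯ F - algebraMap K F a) = e c) := by
    rw [xF_eq]
    exact hS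
  obtain ⟨φ, t, htr, ht⟩ := exists_trace_notMem_span (E := K⟮x⟯) (deg_eq_one x) hl0 g hg S e hS' hR
  obtain ⟨q, rfl⟩ := (polyEquiv K K⟮x⟯).surjective t
  refine ⟨algebraMap ↥(IntCl (F := F) (polyR K K⟮x⟯)) F φ, ?_, q, ?_, ?_⟩
  · -- integrality over `K[x]`
    have hφ : IsIntegral ↥(polyR K K⟮x⟯) (algebraMap ↥(IntCl (F := F) (polyR K K⟮x⟯)) F φ) := φ.2
    have hmem : ∀ a : ↥(polyR K K⟮x⟯), algebraMap ↥(polyR K K⟮x⟯) F a ∈ Algebra.adjoin K {x} := by
      intro a
      obtain ⟨p, rfl⟩ := (polyEquiv K K⟮x⟯).surjective a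
      have : algebraMap ↥(polyR K K⟮x⟯) F (polyEquiv K K⟮x⟯ p) = aeval x p := by
        change algebraMap K⟮x⟯ F (algebraMap K[X] K⟮x⟯ p) = _
        rw [algebraMap_poly_eq_aeval, xF_eq]
      rw [this]
      exact aeval_mem_adjoin_singleton K x
    let ψ : ↥(polyR K K⟮x⟯) →+* ↥(Algebra.adjoin K {x}) :=
      (algebraMap ↥(polyR K K⟮x⟯) F).codRestrict (Algebra.adjoin K {x}) hmem
    have := IsIntegral.map_of_comp_eq ψ (RingHom.id F) (by ext a; rfl) hφ
    simpa using this
  · rw [htr]
    change algebraMap K⟮x⟯ F (algebraMap K[X] K⟮x⟯ q) = _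
    rw [algebraMap_poly_eq_aeval, xF_eq]
  · intro h0
    apply ht
    rw [Ideal.mem_span_singleton]
    have hX : (X : K[X]) ∣ q := by
      rw [X_dvd_iff, coeff_zero_eq_eval_zero]
      exact h0
    have : linR K K⟮x⟯ 0 = polyEquiv K K⟮x⟯ X := by
      unfold linR
      rw [map_zero, sub_zero]
    rw [this]
    exact map_dvd (polyEquiv K K⟮x⟯) hX

end XSetting

end Fermat.Agent.S16.Two
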